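import Fermat.Agent.ShortMoebius.Squares

/-!
# The sum `∑ d (n) ^ 2 / n` (Ramanujan)

`d ^ 2 = (1 * 1 * 1 * 1) * (μ on squares)`, the iterated harmonic sums of `1 / n` are
`(log N) ^ k / k!` up to lower powers, hence `∑_{n ≤ N} d (n) ^ 2 / n` is
`(log N) ^ 4 / (4 π ^ 2)` up to `(1 + log N) ^ 3`.
-/

set_option autoImplicit false

noncomputable section

namespace FA.FourthMoment

open Finset ArithmeticFunction
open scoped Real ArithmeticFunction.zeta ArithmeticFunction.Moebius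

/-- `1 * 1`, over the reals. -/
def dFun : ArithmeticFunction ℝ := (ζ : ArithmeticFunction ℝ) * (ζ : ArithmeticFunction ℝ)

/-- `μ` on the squares. -/
def squareMoebius : ArithmeticFunction ℝ :=
  ⟨fun n => if Nat.sqrt n * Nat.sqrt n = n then (μ (Nat.sqrt n) : ℝ) else 0, by simp⟩

theorem dFun_apply (n : ℕ) : dFun n = (n.divisors.card : ℝ) := by
  rw [dFun, coe_zeta_mul_apply, ← nsmul_one, ← sum_const]
  refine sum_congr rfl fun d hd => ?_
  rw [natCoe_apply, zeta_apply_ne (Nat.pos_of_mem_divisors hd).ne', Nat.cast_one]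

theorem isMultiplicative_dFun : IsMultiplicative dFun :=
  isMultiplicative_zeta.natCast.mul isMultiplicative_zeta.natCast

theorem squareMoebius_mul_self (j : ℕ) : squareMoebius (j * j) = (μ j : ℝ) := by
  show (if _ then _ else _) = _
  rw [Nat.sqrt_eq, if_pos rfl]

theorem squareMoebius_of_not {n : ℕ} (h : ∀ j, n ≠ j * j) : squareMoebius n = 0 := by
  show (if _ then _ else _) = _
  rw [if_neg fun e => h _ e.symm]

theorem isMultiplicative_squareMoebius : IsMultiplicative squareMoebius := by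
  rw [IsMultiplicative.iff_ne_zero]
  refine ⟨by simpa using squareMoebius_mul_self 1, fun {m n} hm hn hmn => ?_⟩
  by_cases h : (∃ a, m = a * a) ∧ ∃ b, n = b * b
  · obtain ⟨⟨a, rfl⟩, b, rfl⟩ := h
    have hab : Nat.Coprime a b :=
      (hmn.coprime_dvd_left (dvd_mul_right a a)).coprime_dvd_right (dvd_mul_right b b)
    rw [mul_mul_mul_comm, squareMoebius_mul_self, squareMoebius_mul_self, squareMoebius_mul_self,
      isMultiplicative_moebius.map_mul_of_coprime hab, Int.cast_mul]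
  · have hnot : ∀ c, m * n ≠ c * c := fun c hc => h ⟨?_, ?_⟩
    · rw [squareMoebius_of_not hnot]
      rcases not_and_or.1 h with h | h
      · rw [squareMoebius_of_not (not_exists.1 h), zero_mul]
      · rw [squareMoebius_of_not (n := n) (not_exists.1 h), mul_zero]
    · obtain ⟨d, hd⟩ := exists_eq_pow_of_mul_eq_pow (a := m) (b := n) (c := c) (k := 2)
        (Nat.isUnit_iff.2 hmn) (by rw [hc, sq])
      exact ⟨d, by rw [hd, sq]⟩
    · obtain ⟨d, hd⟩ := exists_eq_pow_of_mul_eq_pow (a := n) (b := m) (c := c) (k := 2)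
        (Nat.isUnit_iff.2 hmn.symm) (by rw [mul_comm, hc, sq])
      exact ⟨d, by rw [hd, sq]⟩

theorem squareMoebius_prime_pow {p : ℕ} (hp : p.Prime) (i : ℕ) :
    squareMoebius (p ^ i) = if i = 0 then 1 else if i = 2 then -1 else 0 := by
  rcases Nat.even_or_odd i with ⟨j, rfl⟩ | hi
  · rw [pow_add, squareMoebius_mul_self]
    rcases eq_or_ne j 0 with rfl | hj
    · simp
    rw [moebius_apply_prime_pow hp hj, if_neg (show j + j ≠ 0 by omega)]
    by_cases h : j = 1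
    · simp [h]
    · rw [if_neg h, if_neg (show j + j ≠ 2 by omega), Int.cast_zero]
  · rw [squareMoebius_of_not fun j hj => ?_]
    · obtain ⟨k, rfl⟩ := hi
      rw [if_neg (by omega), if_neg (by omega)]
    · obtain ⟨l, -, rfl⟩ := (Nat.dvd_prime_pow hp).1 (hj ▸ dvd_mul_right j j)
      rw [← pow_add] at hj
      have := Nat.pow_right_injective hp.two_le hj
      obtain ⟨k, hk⟩ := hi
      omega

theorem dFun_prime_pow {p : ℕ} (hp : p.Prime) (i : ℕ) : dFun (p ^ i) = i + 1 := by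
  rw [dFun_apply, Nat.divisors_prime_pow hp]
  simp

theorem mul_prime_pow (f g : ArithmeticFunction ℝ) {p : ℕ} (hp : p.Prime) (a : ℕ) :
    (f * g) (p ^ a) = ∑ i ∈ range (a + 1), f (p ^ i) * g (p ^ (a - i)) := by
  rw [mul_apply, Nat.sum_divisorsAntidiagonal (fun x y => f x * g y),
    Nat.sum_divisors_prime_pow hp]
  refine sum_congr rfl fun i hi => ?_
  rw [Nat.pow_div (by simpa [Nat.lt_succ_iff] using hi) hp.pos]

theorem six_mul_sum_mul (c : ℝ) (n : ℕ) :
    6 * ∑ i ∈ range n, ((i : ℝ) + 1) * (c - i) = n * (n + 1) * (3 * c - 2 * n + 2) := by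
  induction n with
  | zero => simp
  | succ n ih =>
    rw [sum_range_succ, mul_add, ih]
    push_cast
    ring

theorem dFun_sq_prime_pow {p : ℕ} (hp : p.Prime) (a : ℕ) :
    (dFun * dFun) (p ^ a) = ((a : ℝ) + 1) * (a + 2) * (a + 3) / 6 := by
  have h := six_mul_sum_mul ((a : ℝ) + 1) (a + 1)
  rw [mul_prime_pow _ _ hp, eq_div_iff (by norm_num), mul_comm]
  refine (Eq.trans ?_ h).trans (by push_cast; ring)
  refine congrArg _ (sum_congr rfl fun i hi => ?_)
  rw [dFun_prime_pow hp, dFun_prime_pow hp,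
    Nat.cast_sub (show i ≤ a by simpa [Nat.lt_succ_iff] using hi)]
  ring

/-- **`d ^ 2` as a convolution.** -/
theorem dFun_pmul_self : dFun.pmul dFun = squareMoebius * (dFun * dFun) := by
  refine ((isMultiplicative_dFun.pmul isMultiplicative_dFun).eq_iff_eq_on_prime_powers _ _
    (isMultiplicative_squareMoebius.mul (isMultiplicative_dFun.mul isMultiplicative_dFun))).2
      fun p a hp => ?_
  rw [pmul_apply, dFun_prime_pow hp, mul_prime_pow _ _ hp]
  simp only [squareMoebius_prime_pow hp, dFun_sq_prime_pow hp]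
  rcases lt_or_ge a 2 with ha | ha
  · interval_cases a <;> norm_num [sum_range_succ]
  · obtain ⟨b, rfl⟩ : ∃ b, a = b + 2 := ⟨a - 2, by omega⟩
    rw [← sum_subset (s₁ := {0, 2}) (by intro x; simp; omega) fun x _ hx => ?_]
    · rw [sum_pair (by norm_num)]
      simp
      ring
    · simp only [mem_insert, mem_singleton, not_or] at hx
      rw [if_neg hx.1, if_neg hx.2, zero_mul]

/-- `∑_{n ≤ N} f n / n`. -/
def harmSum (f : ArithmeticFunction ℝ) (N : ℕ) : ℝ := ∑ n ∈ Ioc 0 N, f n / n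

theorem harmSum_mul (f g : ArithmeticFunction ℝ) (N : ℕ) :
    harmSum (f * g) N = ∑ n ∈ Ioc 0 N, f n / n * harmSum g (N / n) := by
  obtain ⟨c, hc⟩ : ∃ c : ArithmeticFunction ℝ → ArithmeticFunction ℝ,
      c = fun f => ⟨fun n => f n / n, by simp⟩ := ⟨_, rfl⟩
  have h : ∀ f n, c f n = f n / (n : ℝ) := fun f n => by rw [hc]; rfl
  have hm : c (f * g) = c f * c g := by
    ext n
    rw [h, mul_apply, mul_apply, Finset.sum_div]
    refine sum_congr rfl fun x hx => ?_
    obtain ⟨hx, -⟩ := Nat.mem_divisorsAntidiagonal.1 hx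
    rw [h, h, ← hx, Nat.cast_mul, mul_div_mul_comm]
  have := sum_Ioc_mul_eq_sum_sum (c f) (c g) N
  rw [← hm] at this
  simpa only [h, harmSum] using this

theorem logPow_sub_bounds {x y : ℝ} (hy : 0 ≤ y) (hyx : y ≤ x) (k : ℕ) :
    ((k : ℝ) + 1) * y ^ k * (x - y) ≤ x ^ (k + 1) - y ^ (k + 1) ∧
      x ^ (k + 1) - y ^ (k + 1) ≤ ((k : ℝ) + 1) * x ^ k * (x - y) := by
  induction k with
  | zero => simp
  | succ k ih =>
    have hx : 0 ≤ x := hy.trans hyx
    have h1 := pow_le_pow_left₀ hy hyx (k + 1)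
    have h2 : 0 ≤ x - y := sub_nonneg.2 hyx
    have h3 : 0 ≤ x ^ (k + 1) - y ^ (k + 1) := sub_nonneg.2 h1
    constructor
    · push_cast
      linear_combination mul_le_mul_of_nonneg_left ih.1 hy + mul_nonneg h2 h3
    · push_cast
      linear_combination mul_le_mul_of_nonneg_left ih.2 hx + mul_nonneg h2 h3

/-- The comparison with `∫ (log (N / x)) ^ k / x`. -/
theorem sum_logPow_div (N k : ℕ) (hN : 0 < N) :
    |∑ a ∈ Ioc 0 N, Real.log (N / a) ^ k / a - Real.log N ^ (k + 1) / (k + 1)| ≤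
      Real.log N ^ k := by
  obtain ⟨x, hx⟩ : ∃ x : ℕ → ℝ, x = fun a : ℕ => Real.log (N / a) := ⟨_, rfl⟩
  have hk : (0 : ℝ) < (k : ℝ) + 1 := by positivity
  have hx1 : x 1 = Real.log N := by simp [hx]
  have hxN : x N = 0 := by simp [hx, div_self (Nat.cast_ne_zero.2 hN.ne' : (N : ℝ) ≠ 0)]
  have key : ∀ M, 1 ≤ M → M ≤ N →
      ((∑ a ∈ Ioc 0 M, x a ^ k / a) - x 1 ^ k) * (k + 1) ≤ x 1 ^ (k + 1) - x M ^ (k + 1) ∧
        x 1 ^ (k + 1) - x M ^ (k + 1) ≤ (∑ a ∈ Ioc 0 M, x a ^ k / a - x M ^ k / M) * (k + 1) := by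
    intro M hM hMN
    induction M, hM using Nat.le_induction with
    | base => simp
    | succ M hM ih =>
      obtain ⟨ih1, ih2⟩ := ih (by omega)
      have hM0 : (0 : ℝ) < M := Nat.cast_pos.2 (by omega)
      have hN' : ((M + 1 : ℕ) : ℝ) ≤ N := Nat.cast_le.2 hMN
      push_cast at hN'
      have hy : 0 ≤ x (M + 1) := by
        rw [hx]
        exact Real.log_nonneg ((one_le_div (by positivity)).2 (by push_cast; linarith))
      have hd : x M - x (M + 1) = Real.log (((M : ℝ) + 1) / M) := by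
        rw [hx]
        simp only
        rw [Real.log_div (by linarith) hM0.ne', Real.log_div (by linarith) (by positivity),
          Real.log_div (by positivity) hM0.ne']
        push_cast
        ring
      have hd1 : x M - x (M + 1) ≤ 1 / M := hd ▸ by
        refine (Real.log_le_sub_one_of_pos (by positivity)).trans (le_of_eq ?_)
        field_simp
        ring
      have hd2 : 1 / ((M : ℝ) + 1) ≤ x M - x (M + 1) := hd ▸ by
        refine le_trans (le_of_eq ?_) (Real.one_sub_inv_le_log_of_pos (by positivity))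
        field_simp
        ring
      have hle : x (M + 1) ≤ x M := by
        have : (0 : ℝ) < 1 / ((M : ℝ) + 1) := by positivity
        linarith
      obtain ⟨b1, b2⟩ := logPow_sub_bounds hy hle k
      have c1 := mul_le_mul_of_nonneg_left hd2 (mul_nonneg hk.le (pow_nonneg hy k))
      have c2 := mul_le_mul_of_nonneg_left hd1 (mul_nonneg hk.le (pow_nonneg (hy.trans hle) k))
      rw [Finset.sum_Ioc_succ_top (Nat.zero_le M)]
      push_cast
      constructor
      · linear_combination ih1 + c1 + b1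
      · linear_combination ih2 + b2 + c2
  obtain ⟨h1, h2⟩ := key N hN le_rfl
  have hp : 0 ≤ x N ^ k / N := div_nonneg (pow_nonneg (hxN ▸ le_rfl) k) (Nat.cast_nonneg N)
  rw [hxN, zero_pow k.succ_ne_zero, sub_zero, hx1] at h1 h2
  rw [hxN] at hp
  simp only [hx] at h1 h2
  rw [← div_le_iff₀ hk] at h2
  rw [← le_div_iff₀ hk] at h1
  have h0 : 0 ≤ Real.log N ^ k := pow_nonneg (Real.log_natCast_nonneg N) k
  rw [abs_le]
  constructor <;> linarith

theorem abs_log_div_sub_le {N a : ℕ} (ha : 0 < a) (haN : a ≤ N) :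
    0 ≤ Real.log (N / a : ℕ) ∧ Real.log (N / a : ℕ) ≤ Real.log (N / a) ∧
      Real.log (N / a) ≤ Real.log (N / a : ℕ) + 1 := by
  have hq : 1 ≤ N / a := (Nat.one_le_div_iff ha).2 haN
  have ha' : (0 : ℝ) < a := Nat.cast_pos.2 ha
  have hq' : (1 : ℝ) ≤ (N / a : ℕ) := Nat.one_le_cast.2 hq
  refine ⟨Real.log_nonneg hq', Real.log_le_log (by linarith) Nat.cast_div_le, ?_⟩
  have h : (N : ℝ) / a ≤ 2 * (N / a : ℕ) := by
    rw [div_le_iff₀ ha']
    have := Nat.lt_mul_div_succ N ha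
    have h2 : (N : ℝ) ≤ (a : ℝ) * ((N / a : ℕ) + 1) := by exact_mod_cast this.le
    nlinarith
  refine (Real.log_le_log (div_pos (Nat.cast_pos.2 (lt_of_lt_of_le ha haN)) ha') h).trans ?_
  rw [Real.log_mul two_ne_zero (by linarith)]
  linarith [Real.log_two_lt_d9]

/-- **Iterated harmonic sums.** -/
theorem exists_harmSum_zeta_pow (k : ℕ) : ∃ C, 0 ≤ C ∧ ∀ N : ℕ, 0 < N →
    |harmSum ((ζ : ArithmeticFunction ℝ) ^ (k + 1)) N -
        Real.log N ^ (k + 1) / (k + 1).factorial| ≤ C * (1 + Real.log N) ^ k := by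
  induction k with
  | zero =>
    refine ⟨1, zero_le_one, fun N hN => ?_⟩
    have e : harmSum ((ζ : ArithmeticFunction ℝ) ^ (0 + 1)) N = (harmonic N : ℝ) := by
      rw [harmonic_eq_sum_Icc, Rat.cast_sum, harmSum, zero_add, pow_one,
        show Ioc 0 N = Icc 1 N from rfl]
      refine sum_congr rfl fun n hn => ?_
      rw [natCoe_apply, zeta_apply_ne (show n ≠ 0 by have := (mem_Icc.1 hn).1; omega)]
      simp
    rw [e]
    have h1 := log_add_one_le_harmonic N
    have h2 := harmonic_le_one_add_log N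
    have h3 : Real.log N ≤ Real.log ((N + 1 : ℕ) : ℝ) :=
      Real.log_le_log (Nat.cast_pos.2 hN) (by push_cast; linarith)
    simp only [zero_add, pow_one, Nat.factorial_one, Nat.cast_one, div_one, pow_zero, mul_one]
    rw [abs_le]
    constructor <;> linarith
  | succ k ih =>
    obtain ⟨C, hC0, hC⟩ := ih
    obtain ⟨f, hf⟩ : ∃ f : ℝ, f = ((k + 1).factorial : ℝ) := ⟨_, rfl⟩
    have hf1 : (k : ℝ) + 1 ≤ f := by
      rw [hf, ← Nat.cast_add_one, Nat.cast_le]
      exact Nat.self_le_factorial _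
    have hf0 : 0 < f := lt_of_lt_of_le (by positivity) hf1
    refine ⟨C + 2, by positivity, fun N hN => ?_⟩
    obtain ⟨L, hL⟩ : ∃ L, L = Real.log N := ⟨_, rfl⟩
    have hL0 : 0 ≤ L := hL ▸ Real.log_natCast_nonneg N
    rw [show (ζ : ArithmeticFunction ℝ) ^ (k + 1 + 1) =
        (ζ : ArithmeticFunction ℝ) * (ζ : ArithmeticFunction ℝ) ^ (k + 1) from pow_succ' _ _,
      harmSum_mul, ← hL]
    have hterm : ∀ a ∈ Ioc 0 N, |(ζ : ArithmeticFunction ℝ) a / a *
        harmSum ((ζ : ArithmeticFunction ℝ) ^ (k + 1)) (N / a) -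
          Real.log (N / a) ^ (k + 1) / a / f| ≤ (C + 1) * (1 + L) ^ k / a := fun a ha => by
      rw [mem_Ioc] at ha
      obtain ⟨g0, g1, g2⟩ := abs_log_div_sub_le ha.1 ha.2
      have ha' : (0 : ℝ) < a := Nat.cast_pos.2 ha.1
      have hq : 0 < N / a := Nat.div_pos ha.2 ha.1
      have hle : Real.log (N / a) ≤ L := by
        rw [hL]
        exact Real.log_le_log (div_pos (Nat.cast_pos.2 hN) ha')
          (div_le_self (Nat.cast_nonneg N) (Nat.one_le_cast.2 ha.1))
      have h1 := hC (N / a) hq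
      rw [← hf] at h1
      obtain ⟨-, b2⟩ := logPow_sub_bounds g0 g1 k
      have h2 : |Real.log (N / a : ℕ) ^ (k + 1) / f - Real.log (N / a) ^ (k + 1) / f| ≤
          (1 + L) ^ k := by
        rw [abs_sub_comm, ← sub_div, abs_div, abs_of_pos hf0,
          abs_of_nonneg (sub_nonneg.2 (pow_le_pow_left₀ g0 g1 _)), div_le_iff₀ hf0]
        refine b2.trans ((mul_le_mul (mul_le_mul hf1
          (pow_le_pow_left₀ (g0.trans g1) (show Real.log (N / a) ≤ 1 + L by linarith) k)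
          (pow_nonneg (g0.trans g1) k) hf0.le) (show _ ≤ (1 : ℝ) by linarith)
          (sub_nonneg.2 g1) (by positivity)).trans (le_of_eq (by ring)))
      rw [natCoe_apply, zeta_apply_ne ha.1.ne', Nat.cast_one, div_mul_eq_mul_div, one_mul,
        div_right_comm, ← sub_div, abs_div, abs_of_pos ha']
      refine div_le_div_of_nonneg_right ((abs_sub_le _ _ _).trans ((add_le_add (h1.trans
        (mul_le_mul_of_nonneg_left (pow_le_pow_left₀ (by linarith)
          (show 1 + Real.log ((N / a : ℕ) : ℝ) ≤ 1 + L by linarith) k) hC0))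
          h2).trans (le_of_eq (by ring)))) ha'.le
    have hH : ∑ a ∈ Ioc 0 N, 1 / (a : ℝ) ≤ 1 + L := by
      have h := harmonic_le_one_add_log N
      rw [harmonic_eq_sum_Icc, Rat.cast_sum] at h
      refine le_trans (le_of_eq ?_) (hL ▸ h)
      exact sum_congr rfl fun a _ => by simp
    have hS := sum_logPow_div N (k + 1) hN
    rw [← hL] at hS
    have h3 := (abs_sum_le_sum_abs _ _).trans (sum_le_sum hterm)
    rw [sum_sub_distrib, ← Finset.sum_div] at h3
    have h4 : ∑ a ∈ Ioc 0 N, (C + 1) * (1 + L) ^ k / a ≤ (C + 1) * (1 + L) ^ (k + 1) := by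
      rw [pow_succ, ← mul_assoc]
      refine le_trans (le_of_eq ?_) (mul_le_mul_of_nonneg_left hH (by positivity))
      rw [mul_sum]
      exact sum_congr rfl fun a _ => by ring
    have e5 : L ^ (k + 1 + 1) / ((k + 1 + 1).factorial : ℝ) =
        L ^ (k + 1 + 1) / ((k + 1 : ℕ) + 1) / f := by
      rw [hf, div_div, Nat.factorial_succ (k + 1)]
      push_cast
      ring
    have h5 : |(∑ a ∈ Ioc 0 N, Real.log (N / a) ^ (k + 1) / a) / f -
        L ^ (k + 1 + 1) / ((k + 1 + 1).factorial : ℝ)| ≤ (1 + L) ^ (k + 1) := by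
      rw [e5, ← sub_div, abs_div, abs_of_pos hf0]
      refine (div_le_self (abs_nonneg _) (by linarith [(Nat.cast_nonneg k : (0 : ℝ) ≤ k)])).trans
        (hS.trans (pow_le_pow_left₀ hL0 (by linarith) _))
    refine (abs_sub_le _ _ _).trans ((add_le_add (h3.trans h4) h5).trans (le_of_eq ?_))
    ring

theorem log_le_sqrt_two_mul {j : ℕ} (hj : 0 < j) : Real.log j / (j : ℝ) ^ 2 ≤
    2 * (j : ℝ) ^ (-(3 / 2) : ℝ) := by
  have hj' : (0 : ℝ) < j := Nat.cast_pos.2 hj
  have h := Real.log_le_rpow_div hj'.le (show (0 : ℝ) < 1 / 2 by norm_num)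
  rw [div_le_iff₀ (by positivity), mul_assoc,
    ← Real.rpow_natCast (j : ℝ) 2, ← Real.rpow_add hj']
  norm_num at h ⊢
  linarith

/-- `∑_{n ≤ N} d (n) ^ 2 / n`. -/
def divisorSq (N : ℕ) : ℝ := ∑ n ∈ Ioc 0 N, (n.divisors.card : ℝ) ^ 2 / n

theorem divisorSq_eq (N : ℕ) : divisorSq N =
    ∑ j ∈ Icc 1 (Nat.sqrt N), (μ j : ℝ) / (j : ℝ) ^ 2 *
      harmSum ((ζ : ArithmeticFunction ℝ) ^ 4) (N / (j * j)) := by
  have h4 : (ζ : ArithmeticFunction ℝ) ^ 4 = dFun * dFun := by rw [dFun]; ring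
  have e : divisorSq N = harmSum (dFun.pmul dFun) N :=
    sum_congr rfl fun n _ => by rw [pmul_apply, dFun_apply, sq]
  rw [e, dFun_pmul_self, harmSum_mul, h4,
    ← sum_subset (s₁ := (Icc 1 (Nat.sqrt N)).image fun j => j * j) ?_ fun n hn hnot => ?_,
    sum_image fun a _ b _ h => Nat.mul_self_inj.1 h]
  · exact sum_congr rfl fun j _ => by rw [squareMoebius_mul_self]; push_cast; ring
  · intro n hn
    simp only [mem_image, mem_Icc, mem_Ioc] at hn ⊢
    obtain ⟨j, ⟨h1, h2⟩, rfl⟩ := hn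
    exact ⟨Nat.mul_pos h1 h1, Nat.le_sqrt.1 h2⟩
  · rw [squareMoebius_of_not fun j hj => hnot ?_, zero_div, zero_mul]
    simp only [mem_image, mem_Icc, mem_Ioc] at hn ⊢
    exact ⟨j, ⟨Nat.pos_of_ne_zero fun h => by simp [hj, h] at hn,
      Nat.le_sqrt.2 (hj ▸ hn.2)⟩, hj.symm⟩

/-- **Ramanujan's asymptotic.** -/
theorem exists_divisorSq : ∃ C, 0 ≤ C ∧ ∀ N : ℕ, 0 < N →
    |divisorSq N - Real.log N ^ 4 / (4 * π ^ 2)| ≤ C * (1 + Real.log N) ^ 3 := by
  obtain ⟨C, hC0, hC⟩ := exists_harmSum_zeta_pow 3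
  obtain ⟨P, hP⟩ : ∃ P, P = ∑' j : ℕ, (j : ℝ) ^ (-(3 / 2) : ℝ) := ⟨_, rfl⟩
  have hPs : Summable fun j : ℕ => (j : ℝ) ^ (-(3 / 2) : ℝ) :=
    Real.summable_nat_rpow.2 (by norm_num)
  have hP0 : 0 ≤ P := hP ▸ tsum_nonneg fun j => Real.rpow_nonneg (Nat.cast_nonneg j) _
  refine ⟨(C + 2 * P) * (2 * P) + (C + 2 * P + 4096), by positivity, fun N hN => ?_⟩
  obtain ⟨L, hL⟩ : ∃ L, L = Real.log N := ⟨_, rfl⟩
  have hL0 : 0 ≤ L := hL ▸ Real.log_natCast_nonneg N
  obtain ⟨M, hM⟩ : ∃ M, M = Nat.sqrt N := ⟨_, rfl⟩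
  have hM0 : 0 < M := hM ▸ Nat.sqrt_pos.2 hN
  have hterm : ∀ j ∈ Icc 1 M, |(μ j : ℝ) / (j : ℝ) ^ 2 *
      harmSum ((ζ : ArithmeticFunction ℝ) ^ 4) (N / (j * j)) -
        (μ j : ℝ) / (j : ℝ) ^ 2 * (L ^ 4 / 24)| ≤
      (2 * C * (j : ℝ) ^ (-(3 / 2) : ℝ) + 2 * (j : ℝ) ^ (-(3 / 2) : ℝ)) * (1 + L) ^ 3 := by
    intro j hj
    rw [mem_Icc] at hj
    have hjj : j * j ≤ N := Nat.le_sqrt.1 (hM ▸ hj.2)
    have hj0 : 0 < j * j := Nat.mul_pos hj.1 hj.1
    have hj' : (1 : ℝ) ≤ j := Nat.one_le_cast.2 hj.1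
    obtain ⟨g0, g1, g2⟩ := abs_log_div_sub_le hj0 hjj
    have hl : Real.log ((N : ℝ) / (j * j : ℕ)) = L - 2 * Real.log j := by
      rw [Real.log_div (Nat.cast_ne_zero.2 hN.ne') (by positivity), hL, Nat.cast_mul,
        Real.log_mul (by positivity) (by positivity)]
      ring
    rw [hl] at g1 g2
    have hlj : 0 ≤ Real.log j := Real.log_nonneg hj'
    have h1 := hC (N / (j * j)) (Nat.div_pos hjj hj0)
    simp only [Nat.reduceAdd] at h1
    rw [show ((Nat.factorial 4 : ℕ) : ℝ) = 24 by norm_num [Nat.factorial]] at h1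
    obtain ⟨v, hv⟩ : ∃ v, v = Real.log ((N / (j * j) : ℕ) : ℝ) := ⟨_, rfl⟩
    rw [← hv] at g0 g1 g2 h1
    obtain ⟨-, b2⟩ := logPow_sub_bounds g0 (show v ≤ L by linarith) 3
    have h3 : (1 + v) ^ 3 ≤ (1 + L) ^ 3 := pow_le_pow_left₀ (by linarith) (by linarith) 3
    have h4 : L ^ 3 * (L - v) ≤ (1 + L) ^ 3 * (1 + 2 * Real.log j) :=
      mul_le_mul (pow_le_pow_left₀ hL0 (by linarith) 3) (by linarith) (by linarith) (by positivity)
    have h5 : v ^ 4 ≤ L ^ 4 := pow_le_pow_left₀ g0 (by linarith) 4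
    have hd : |harmSum ((ζ : ArithmeticFunction ℝ) ^ 4) (N / (j * j)) - L ^ 4 / 24| ≤
        (C + (1 + 2 * Real.log j) / 6) * (1 + L) ^ 3 := by
      refine (abs_sub_le _ (v ^ 4 / 24) _).trans ?_
      rw [abs_sub_comm (v ^ 4 / 24), abs_of_nonneg (by linarith : 0 ≤ L ^ 4 / 24 - v ^ 4 / 24)]
      have := mul_le_mul_of_nonneg_left h3 hC0
      norm_num at b2
      linarith
    rw [← mul_sub, abs_mul]
    have hμ : |(μ j : ℝ) / (j : ℝ) ^ 2| ≤ 1 / (j : ℝ) ^ 2 := by
      rw [abs_div, abs_of_nonneg (sq_nonneg (j : ℝ))]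
      refine div_le_div_of_nonneg_right ?_ (sq_nonneg _)
      rw [← Int.cast_abs]
      exact_mod_cast abs_moebius_le_one
    refine (mul_le_mul hμ hd (abs_nonneg _) (by positivity)).trans ?_
    rw [← mul_assoc]
    refine mul_le_mul_of_nonneg_right ?_ (by positivity)
    have k1 := log_le_sqrt_two_mul hj.1
    have k2 : 1 / (j : ℝ) ^ 2 ≤ (j : ℝ) ^ (-(3 / 2) : ℝ) := by
      rw [one_div, ← Real.rpow_natCast (j : ℝ) 2, ← Real.rpow_neg (Nat.cast_nonneg j)]
      exact Real.rpow_le_rpow_of_exponent_le hj' (by norm_num)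
    have k3 := mul_le_mul_of_nonneg_left k2 hC0
    rw [div_eq_mul_one_div] at k1
    have k4 : 0 ≤ C * (j : ℝ) ^ (-(3 / 2) : ℝ) := by positivity
    have k5 : 0 ≤ (j : ℝ) ^ (-(3 / 2) : ℝ) := by positivity
    linarith
  have h1 := (abs_sum_le_sum_abs _ _).trans (sum_le_sum hterm)
  rw [sum_sub_distrib, ← Finset.sum_mul, ← Finset.sum_mul, sum_add_distrib, ← mul_sum, ← mul_sum,
    hM, ← divisorSq_eq, ← hM] at h1
  have hsum : ∑ j ∈ Icc 1 M, (j : ℝ) ^ (-(3 / 2) : ℝ) ≤ P :=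
    hP ▸ hPs.sum_le_tsum _ fun j _ => Real.rpow_nonneg (Nat.cast_nonneg j) _
  have h2 := ShortMoebius.abs_density_sub_le hM0
  have h3 : L ^ 4 / 24 / (M : ℝ) ≤ 4096 := by
    have hN2 : (N : ℝ) ≤ (2 * M) * (2 * M) := by
      have := Nat.lt_succ_sqrt N
      rw [← hM] at this
      have h' : N ≤ (2 * M) * (2 * M) := this.le.trans (Nat.mul_le_mul (by omega) (by omega))
      exact_mod_cast h'
    have hM' : (1 : ℝ) ≤ M := Nat.one_le_cast.2 hM0
    have hl2 : L ≤ 8 * (2 * (M : ℝ)) ^ (1 / 4 : ℝ) := by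
      refine (hL ▸ Real.log_le_log (Nat.cast_pos.2 hN) hN2).trans ?_
      rw [Real.log_mul (by positivity) (by positivity)]
      have := Real.log_le_rpow_div (show (0 : ℝ) ≤ 2 * M by positivity)
        (show (0 : ℝ) < 1 / 4 by norm_num)
      linarith
    have h4 := pow_le_pow_left₀ hL0 hl2 4
    rw [mul_pow, ← Real.rpow_natCast ((2 * (M : ℝ)) ^ (1 / 4 : ℝ)) 4,
      ← Real.rpow_mul (by positivity), show (1 / 4 : ℝ) * (4 : ℕ) = 1 by norm_num,
      Real.rpow_one] at h4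
    rw [div_le_iff₀ (by linarith)]
    linarith
  have h5 : |(∑ j ∈ Icc 1 M, (μ j : ℝ) / (j : ℝ) ^ 2) * (L ^ 4 / 24) -
      6 / π ^ 2 * (L ^ 4 / 24)| ≤ 4096 := by
    rw [← sub_mul, abs_mul, abs_of_nonneg (show 0 ≤ L ^ 4 / 24 by positivity), abs_sub_comm]
    refine (mul_le_mul_of_nonneg_right h2 (by positivity)).trans (le_trans (le_of_eq ?_) h3)
    ring
  have e : L ^ 4 / (4 * π ^ 2) = 6 / π ^ 2 * (L ^ 4 / 24) := by
    field_simp
    ring
  rw [← hL, e]
  refine (abs_sub_le _ _ _).trans ((add_le_add h1 h5).trans ?_)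
  have hone : (1 : ℝ) ≤ (1 + L) ^ 3 := one_le_pow₀ (by linarith)
  have k1 := mul_le_mul_of_nonneg_left hsum (show (0 : ℝ) ≤ 2 * C + 2 by positivity)
  have k1' := mul_le_mul_of_nonneg_right k1 (zero_le_one.trans hone)
  have hP1 : 1 ≤ P := by
    have := hPs.le_tsum 1 fun j _ => Real.rpow_nonneg (Nat.cast_nonneg j) _
    simpa [hP] using this
  have k5 : (2 * C + 2) * P ≤ (C + 2 * P) * (2 * P) + (C + 2 * P) := by
    nlinarith [mul_nonneg hC0 hP0, mul_nonneg hP0 hP0]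
  have k6 := mul_le_mul_of_nonneg_right k5 (zero_le_one.trans hone)
  have k7 := mul_le_mul_of_nonneg_left hone (show (0 : ℝ) ≤ 4096 by norm_num)
  linear_combination k1' + k6 + k7

end FA.FourthMoment
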