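import Fermat.Agent.SelbergCLT.Identity

/-!
# A contour with a double pole

For `Φ` holomorphic on the strip, the vertical integrals of `Φ w / ((w - ρ) ^ 2 w)` differ by `2π`
times the sum of the residues at `0` and `ρ`.
-/

set_option autoImplicit false

noncomputable section

namespace FA.FourthMoment

open Complex Filter MeasureTheory Set
open FA.SelbergCLT
open FA.ExplicitFormula (boxInt boxEdges boxInt_congr boxInt_eq_zero boxInt_residue boxInt_sub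
  boxInt_add boxInt_const_mul interior_not_edge intervalIntegrable_edges)
open scoped Topology Real

/-- The pole of order two alone contributes nothing. -/
theorem boxInt_inv_sq {a b T : ℝ} {ρ : ℂ} (ha : a < ρ.re) (hb : ρ.re < b) (hi : |ρ.im| ≠ T)
    (hT : 0 ≤ T) : boxInt (fun w => ((w - ρ) ^ 2)⁻¹) a b T = 0 := by
  have hne : ∀ w ∈ boxEdges a b T, w - ρ ≠ 0 := fun w hw =>
    sub_ne_zero.2 (interior_not_edge ha hb hi hT hw)
  obtain ⟨i1, i2, i3, i4⟩ := intervalIntegrable_edges (F := fun w => ((w - ρ) ^ 2)⁻¹)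
    (a := a) (b := b) (T := T) fun w hw => ((continuousAt_id.sub continuousAt_const).pow 2).inv₀
      (pow_ne_zero 2 (hne w hw))
  have hd : ∀ w : ℂ, w - ρ ≠ 0 → HasDerivAt (fun y : ℂ => -(y - ρ)⁻¹) ((w - ρ) ^ 2)⁻¹ w :=
    fun w hw => (((hasDerivAt_id' w).sub_const ρ).inv hw).neg.congr_deriv
      (by rw [neg_div, neg_neg, one_div])
  have hh : ∀ c : ℝ, (∀ u ∈ uIcc a b, (u : ℂ) + (c : ℂ) * I ∈ boxEdges a b T) →
      IntervalIntegrable (fun u : ℝ => (((u : ℂ) + (c : ℂ) * I - ρ) ^ 2)⁻¹) volume a b →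
      ∫ u in a..b, (((u : ℂ) + (c : ℂ) * I - ρ) ^ 2)⁻¹ =
        -((b : ℂ) + (c : ℂ) * I - ρ)⁻¹ - -((a : ℂ) + (c : ℂ) * I - ρ)⁻¹ := fun c hc hci =>
    intervalIntegral.integral_eq_sub_of_hasDerivAt
      (f := fun u : ℝ => -((u : ℂ) + (c : ℂ) * I - ρ)⁻¹) (fun u hu => by
      have h1 : HasDerivAt (fun y : ℂ => y + (c : ℂ) * I) 1 (u : ℂ) :=
        (hasDerivAt_id' (u : ℂ)).add_const _
      simpa [Function.comp_def] using ((hd _ (hne _ (hc u hu))).comp (u : ℂ) h1).comp_ofReal) hci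
  have hv : ∀ e : ℝ, (∀ y ∈ uIcc (-T) T, (e : ℂ) + (y : ℂ) * I ∈ boxEdges a b T) →
      IntervalIntegrable (fun y : ℝ => (((e : ℂ) + (y : ℂ) * I - ρ) ^ 2)⁻¹) volume (-T) T →
      I * ∫ y in (-T)..T, (((e : ℂ) + (y : ℂ) * I - ρ) ^ 2)⁻¹ =
        -((e : ℂ) + (T : ℂ) * I - ρ)⁻¹ - -((e : ℂ) + ((-T : ℝ) : ℂ) * I - ρ)⁻¹ :=
    fun e he hei => by
    rw [← intervalIntegral.integral_const_mul]
    refine intervalIntegral.integral_eq_sub_of_hasDerivAt
      (f := fun y : ℝ => -((e : ℂ) + (y : ℂ) * I - ρ)⁻¹) (fun y hy => ?_) (hei.const_mul I)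
    have h1 : HasDerivAt (fun y : ℂ => (e : ℂ) + y * I) I (y : ℂ) := by
      simpa using ((hasDerivAt_id' (y : ℂ)).mul_const I).const_add (e : ℂ)
    simpa [Function.comp_def, mul_comm] using ((hd _ (hne _ (he y hy))).comp (y : ℂ) h1).comp_ofReal
  rw [boxInt, hh (-T) (fun u hu => FA.ExplicitFormula.edge_bottom hu) i1,
    hh T (fun u hu => FA.ExplicitFormula.edge_top hu) i2,
    hv b (fun y hy => FA.ExplicitFormula.edge_right hy) i3,
    hv a (fun y hy => FA.ExplicitFormula.edge_left hy) i4]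
  ring

/-- `Φ w / ((w - ρ) ^ 2 w)`. -/
def doubleKer (Φ : ℂ → ℂ) (ρ w : ℂ) : ℂ := Φ w / ((w - ρ) ^ 2 * w)

/-- **The contour.** -/
theorem double_contour {Φ : ℂ → ℂ} {U : Set ℂ} (hU : IsOpen U) (hΦ : DifferentiableOn ℂ Φ U)
    {a b : ℝ} (ha : a < 0) (hb : 0 < b) (hUs : ∀ w : ℂ, w.re ∈ Icc a b → w ∈ U) {ρ : ℂ}
    (hρa : a < ρ.re) (hρb : ρ.re < b) (hρ0 : ρ ≠ 0) {C : ℝ} {m : ℕ} (hm : 2 ≤ m)
    (hbd : ∀ u v : ℝ, u ∈ Icc a b → (u = a ∨ u = b ∨ |ρ.im| + 1 ≤ |v|) →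
      ‖doubleKer Φ ρ ((u : ℂ) + (v : ℂ) * I)‖ ≤ C * decay m v) :
    Integrable (fun v : ℝ => doubleKer Φ ρ ((a : ℂ) + (v : ℂ) * I)) ∧
    Integrable (fun v : ℝ => doubleKer Φ ρ ((b : ℂ) + (v : ℂ) * I)) ∧
    (∫ v : ℝ, doubleKer Φ ρ ((b : ℂ) + (v : ℂ) * I)) -
        ∫ v : ℝ, doubleKer Φ ρ ((a : ℂ) + (v : ℂ) * I) =
      2 * π * (Φ 0 / ρ ^ 2 + (deriv Φ ρ / ρ - Φ ρ / ρ ^ 2)) := by
  have hab : a ≤ b := by linarith
  have hint : ∀ u : ℝ, u ∈ Icc a b → (u = a ∨ u = b) → u ≠ 0 → u ≠ ρ.re →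
      Integrable fun v : ℝ => doubleKer Φ ρ ((u : ℂ) + (v : ℂ) * I) := fun u hu hu' h0 hr => by
    refine integrable_of_decay hm (continuous_line fun v => ?_) fun v => hbd u v hu (by tauto)
    have h1 : (u : ℂ) + (v : ℂ) * I ∈ U := hUs _ (by simpa using hu)
    refine ((hΦ _ h1).differentiableAt (hU.mem_nhds h1)).continuousAt.div
      (((continuousAt_id.sub continuousAt_const).pow 2).mul continuousAt_id) (mul_ne_zero
        (pow_ne_zero 2 (sub_ne_zero.2 fun h => hr (by simpa using congrArg Complex.re h)))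
        (line_ne_zero h0 v))
  have hia := hint a ⟨le_rfl, hab⟩ (Or.inl rfl) ha.ne hρa.ne
  have hib := hint b ⟨hab, le_rfl⟩ (Or.inr rfl) hb.ne' hρb.ne'
  refine ⟨hia, hib, ?_⟩
  have hρU : ρ ∈ U := hUs ρ ⟨hρa.le, hρb.le⟩
  have hS : DifferentiableOn ℂ (dslope Φ ρ) U :=
    (differentiableOn_dslope (hU.mem_nhds hρU)).2 hΦ
  obtain ⟨c, hc⟩ : ∃ c : ℂ, c = 2 * π * I * (Φ 0 / ρ ^ 2 + (deriv Φ ρ / ρ - Φ ρ / ρ ^ 2)) :=
    ⟨_, rfl⟩
  have hbox : ∀ R : ℝ, |ρ.im| < R → boxInt (doubleKer Φ ρ) a b R = c := fun R hR => by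
    have hR0 : 0 < R := lt_of_le_of_lt (abs_nonneg _) hR
    have h0R : |(0 : ℂ).im| ≠ R := by simpa using hR0.ne
    have hUbox : ∀ w : ℂ, w.re ∈ Icc a b → w.im ∈ Icc (-R) R → w ∈ U := fun w hw _ => hUs w hw
    have hρe : ∀ w ∈ boxEdges a b R, w - ρ ≠ 0 := fun w hw =>
      sub_ne_zero.2 (interior_not_edge hρa hρb hR.ne hR0.le hw)
    have h0e : ∀ w ∈ boxEdges a b R, w ≠ 0 := fun w hw =>
      interior_not_edge (ρ := 0) (by simpa using ha) (by simpa using hb) h0R hR0.le hw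
    have hUe : ∀ w ∈ boxEdges a b R, w ∈ U := fun w hw => hUs w (by
      have := hw.1
      rwa [uIcc_of_le hab] at this)
    have cΦ : ∀ w ∈ boxEdges a b R, ContinuousAt Φ w := fun w hw =>
      ((hΦ _ (hUe w hw)).differentiableAt (hU.mem_nhds (hUe w hw))).continuousAt
    have cS : ∀ w ∈ boxEdges a b R, ContinuousAt (dslope Φ ρ) w := fun w hw =>
      ((hS _ (hUe w hw)).differentiableAt (hU.mem_nhds (hUe w hw))).continuousAt
    obtain ⟨q₁, hq₁⟩ : ∃ q₁ : ℂ → ℂ, q₁ = fun w => (ρ ^ 2)⁻¹ * (Φ w / (w - 0) - Φ w / (w - ρ)) :=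
      ⟨_, rfl⟩
    obtain ⟨q₂, hq₂⟩ : ∃ q₂ : ℂ → ℂ,
        q₂ = fun w => ρ⁻¹ * (dslope Φ ρ w / (w - ρ) + Φ ρ * ((w - ρ) ^ 2)⁻¹) := ⟨_, rfl⟩
    rw [boxInt_congr (G := fun w => q₁ w + q₂ w) fun w hw => ?_,
      boxInt_add (F := q₁) (G := q₂) (fun w hw => ?_) (fun w hw => ?_), hq₁, hq₂, boxInt_const_mul,
      boxInt_const_mul,
      boxInt_sub (F := fun w => Φ w / (w - 0)) (G := fun w => Φ w / (w - ρ)) (fun w hw => ?_)
        (fun w hw => ?_),
      boxInt_add (F := fun w => dslope Φ ρ w / (w - ρ)) (G := fun w => Φ ρ * ((w - ρ) ^ 2)⁻¹)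
        (fun w hw => ?_) (fun w hw => ?_),
      boxInt_const_mul, boxInt_inv_sq hρa hρb hR.ne hR0.le,
      boxInt_residue hU hΦ hUbox hR0.le (by simpa using ha) (by simpa using hb) h0R,
      boxInt_residue hU hΦ hUbox hR0.le hρa hρb hR.ne,
      boxInt_residue hU hS hUbox hR0.le hρa hρb hR.ne,
      if_pos (by simpa using hR0), if_pos hR, if_pos hR, dslope_same, hc]
    · ring
    · exact (cS w hw).div (continuousAt_id.sub continuousAt_const) (hρe w hw)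
    · exact continuousAt_const.mul
        (((continuousAt_id.sub continuousAt_const).pow 2).inv₀ (pow_ne_zero 2 (hρe w hw)))
    · exact (cΦ w hw).div (continuousAt_id.sub continuousAt_const)
        (by simpa using h0e w hw)
    · exact (cΦ w hw).div (continuousAt_id.sub continuousAt_const) (hρe w hw)
    · rw [hq₁]
      exact continuousAt_const.mul (((cΦ w hw).div (continuousAt_id.sub continuousAt_const)
        (by simpa using h0e w hw)).sub ((cΦ w hw).div (continuousAt_id.sub continuousAt_const)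
          (hρe w hw)))
    · rw [hq₂]
      exact continuousAt_const.mul (((cS w hw).div (continuousAt_id.sub continuousAt_const)
        (hρe w hw)).add (continuousAt_const.mul
          (((continuousAt_id.sub continuousAt_const).pow 2).inv₀ (pow_ne_zero 2 (hρe w hw)))))
    · simp only [doubleKer, hq₁, hq₂]
      rw [dslope_of_ne _ (sub_ne_zero.1 (hρe w hw)), slope, vsub_eq_sub, smul_eq_mul]
      have h1 := hρe w hw
      have h2 := h0e w hw
      simp only [sub_zero]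
      field_simp
      ring
  have hh : ∀ᶠ R in atTop, ∀ u ∈ uIcc a b,
      ‖doubleKer Φ ρ ((u : ℂ) + ((-R : ℝ) : ℂ) * I)‖ ≤ C * decay m R ∧
      ‖doubleKer Φ ρ ((u : ℂ) + (R : ℂ) * I)‖ ≤ C * decay m R := by
    filter_upwards [eventually_ge_atTop (|ρ.im| + 1)] with R hR u hu
    rw [uIcc_of_le hab] at hu
    have hR0 : (0 : ℝ) ≤ R := by linarith [abs_nonneg ρ.im]
    exact ⟨(hbd u (-R) hu (Or.inr (Or.inr (by rwa [abs_neg, abs_of_nonneg hR0])))).trans_eq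
      (by rw [decay_neg]), hbd u R hu (Or.inr (Or.inr (by rwa [abs_of_nonneg hR0])))⟩
  have hvert := verticals_of_boxInt (F := doubleKer Φ ρ) hia hib
    ((eventually_gt_atTop |ρ.im|).mono hbox)
    (by simpa using ((tendsto_decay (le_trans one_le_two hm)).const_mul C)) hh
  rw [hc] at hvert
  have hI := I_ne_zero
  apply mul_left_cancel₀ hI
  linear_combination hvert

end FA.FourthMoment
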