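import Fermat.Agent.FourthMoment.Remainder
import Fermat.Agent.FourthMoment.DivisorSquare
import Fermat.Agent.SecondMoment.Main

/-!
# The fourth moment of `ζ` on the critical line (Ingham)

`∫_0^T |ζ (1/2 + it)| ^ 4 = T (log T) ^ 4 / (2 π ^ 2) + O (T (log T) ^ (7/2))`.
-/

set_option autoImplicit false

noncomputable section

namespace FA.FourthMoment

open Finset Filter MeasureTheory Complex
open FA.ThreePrimes (logOne one_le_logOne)
open scoped Topology Real ComplexConjugate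

/-- The constant `e^(-24)`. -/
def cutRatio : ℝ := Real.exp (-24)

theorem cutRatio_le : cutRatio ≤ 1 / 2 := by
  refine (Real.exp_le_exp.2 (show (-24 : ℝ) ≤ -1 by norm_num)).trans ?_
  rw [Real.exp_neg, inv_le_comm₀ (Real.exp_pos 1) (by norm_num)]
  linarith [Real.exp_one_gt_d9]

theorem sum_d_rpow_le (Y : ℕ) :
    ∑ n ∈ Icc 1 Y, (n.divisors.card : ℝ) * (n : ℝ) ^ (-(1 / 2) : ℝ) ≤
      2 * √(Y : ℝ) * logOne Y := by
  have hsqrt : ∀ M : ℕ, ∑ n ∈ Icc 1 M, (n : ℝ) ^ (-(1 / 2) : ℝ) ≤ 2 * √(M : ℝ) := fun M => by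
    induction M with
    | zero => simp
    | succ M ih =>
      rw [sum_Icc_succ_top (by omega)]
      have h1 : (0 : ℝ) ≤ M := Nat.cast_nonneg M
      rw [Real.rpow_neg (Nat.cast_nonneg _), ← Real.sqrt_eq_rpow]
      have hs : 0 < √((M : ℝ) + 1) := Real.sqrt_pos.2 (by linarith)
      have e1 := Real.mul_self_sqrt (show (0 : ℝ) ≤ (M : ℝ) + 1 by linarith)
      have e2 := Real.mul_self_sqrt h1
      push_cast
      refine le_of_mul_le_mul_right ?_ hs
      rw [add_mul, inv_mul_cancel₀ hs.ne']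
      nlinarith [mul_le_mul_of_nonneg_right ih hs.le, sq_nonneg (√((M : ℝ) + 1) - √(M : ℝ))]
  obtain ⟨f, hf⟩ : ∃ f : ℕ → ℝ, f = fun n : ℕ => (n : ℝ) ^ (-(1 / 2) : ℝ) := ⟨_, rfl⟩
  have e : ∑ n ∈ Icc 1 Y, (n.divisors.card : ℝ) * f n =
      ∑ a ∈ Icc 1 Y, ∑ b ∈ Icc 1 (Y / a), f a * f b := by
    have h1 : ∀ n ∈ Icc 1 Y, (n.divisors.card : ℝ) * f n =
        ∑ x ∈ n.divisorsAntidiagonal, f x.1 * f x.2 := fun n hn => by
      rw [← Nat.map_div_right_divisors, sum_map, ← nsmul_eq_mul, ← sum_const]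
      refine sum_congr rfl fun d hd => ?_
      simp only [hf, Function.Embedding.coeFn_mk]
      rw [← Real.mul_rpow (Nat.cast_nonneg _) (Nat.cast_nonneg _), ← Nat.cast_mul,
        Nat.mul_div_cancel' (Nat.mem_divisors.1 hd).1]
    obtain ⟨F, hF⟩ : ∃ F : ArithmeticFunction ℝ, ∀ n, F n = f n :=
      ⟨⟨f, by simp [hf]⟩, fun n => rfl⟩
    have := ArithmeticFunction.sum_Ioc_mul_eq_sum_sum F F Y
    simp only [ArithmeticFunction.mul_apply, hF] at this
    rw [sum_congr rfl h1]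
    refine this.trans (sum_congr rfl fun a _ => ?_)
    rw [mul_sum]
    rfl
  have e' : ∀ n : ℕ, (n : ℝ) ^ (-(1 / 2) : ℝ) = f n := fun n => by rw [hf]
  simp only [e'] at hsqrt ⊢
  rw [e]
  refine (sum_le_sum (g := fun a : ℕ => 2 * √(Y : ℝ) * (a : ℝ)⁻¹) fun a ha => ?_).trans ?_
  · have ha0 : (0 : ℝ) < a := Nat.cast_pos.2 (mem_Icc.1 ha).1
    rw [← mul_sum]
    refine (mul_le_mul_of_nonneg_left (hsqrt (Y / a))
      (by rw [hf]; positivity)).trans ?_
    have h1 : √((Y / a : ℕ) : ℝ) ≤ √(Y : ℝ) / √(a : ℝ) := by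
      rw [← Real.sqrt_div (Nat.cast_nonneg Y)]
      exact Real.sqrt_le_sqrt Nat.cast_div_le
    have h2 : f a = (√(a : ℝ))⁻¹ := by
      simp only [hf]
      rw [Real.rpow_neg ha0.le, ← Real.sqrt_eq_rpow]
    rw [h2]
    refine (mul_le_mul_of_nonneg_left (mul_le_mul_of_nonneg_left h1 zero_le_two)
      (by positivity)).trans (le_of_eq ?_)
    rw [show (a : ℝ)⁻¹ = (√(a : ℝ))⁻¹ * (√(a : ℝ))⁻¹ by
      rw [← mul_inv, Real.mul_self_sqrt ha0.le]]
    ring
  · rw [← mul_sum]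
    refine mul_le_mul_of_nonneg_left ?_ (by positivity)
    have h := harmonic_le_one_add_log Y
    rw [harmonic_eq_sum_Icc, Rat.cast_sum] at h
    refine le_trans (le_of_eq (sum_congr rfl fun a _ => ?_)) h
    simp

/-- The cross term. -/
theorem norm_cross_le {T : ℝ} (hT : 1 ≤ T) {Y : ℕ} (hY : (Y : ℝ) ≤ cutRatio * T) :
    ‖∫ t in T..2 * T, chiLine t * conj (shortPoly Y t) ^ 2‖ ≤ 12 * Y * logOne Y ^ 2 := by
  have hT0 : 0 < T := by linarith
  obtain ⟨c, hc⟩ : ∃ c : ℕ → ℂ, c = fun n => divCount n * (n : ℂ) ^ (-(1 / 2 : ℂ)) := ⟨_, rfl⟩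
  have e : ∀ t : ℝ, chiLine t * conj (shortPoly Y t) ^ 2 = ∑ m ∈ Icc 1 Y, ∑ n ∈ Icc 1 Y,
      c m * c n * (chiLine t * cexp (I * (((Real.log m + Real.log n) * t : ℝ) : ℂ))) := fun t => by
    have e1 : conj (shortPoly Y t) = ∑ n ∈ Icc 1 Y, c n * cexp (I * ((Real.log n * t : ℝ) : ℂ)) := by
      rw [conj_shortPoly, divPoly]
      refine sum_congr rfl fun n hn => ?_
      have hn0 := (mem_Icc.1 hn).1
      rw [hc, mul_assoc, show cexp (I * ((Real.log n * t : ℝ) : ℂ)) = (n : ℂ) ^ (I * (t : ℂ)) by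
        rw [FA.SelbergCLT.natCast_cpow_eq_exp hn0]; push_cast; ring_nf,
        ← Complex.cpow_add _ _ (Nat.cast_ne_zero.2 (show n ≠ 0 by omega))]
      congr 2
      ring
    rw [e1, sq, sum_mul_sum, mul_sum]
    refine sum_congr rfl fun m _ => ?_
    rw [mul_sum]
    refine sum_congr rfl fun n _ => ?_
    rw [show cexp (I * (((Real.log m + Real.log n) * t : ℝ) : ℂ)) =
      cexp (I * ((Real.log m * t : ℝ) : ℂ)) * cexp (I * ((Real.log n * t : ℝ) : ℂ)) by
        rw [← Complex.exp_add]; push_cast; ring_nf]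
    ring
  have hcont : ∀ m n : ℕ, Continuous fun t : ℝ =>
      c m * c n * (chiLine t * cexp (I * (((Real.log m + Real.log n) * t : ℝ) : ℂ))) :=
    fun m n => continuous_const.mul (continuous_chiLine.mul (by fun_prop))
  simp only [e]
  rw [intervalIntegral.integral_finsetSum fun m _ =>
    (continuous_finsetSum _ fun n _ => hcont m n).intervalIntegrable _ _]
  simp only [intervalIntegral.integral_finsetSum
    (fun n _ => (hcont _ n).intervalIntegrable T (2 * T)), intervalIntegral.integral_const_mul]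
  refine (norm_sum_le_of_le _ (n := fun m => ∑ n ∈ Icc 1 Y, ‖c m‖ * ‖c n‖ * 3) fun m hm =>
    norm_sum_le_of_le _ fun n hn => ?_).trans ?_
  · rw [norm_mul, norm_mul]
    refine mul_le_mul_of_nonneg_left (norm_integral_chiLine_le hT0 (by linarith) ?_)
      (mul_nonneg (norm_nonneg _) (norm_nonneg _))
    have hlog : ∀ k ∈ Icc 1 Y, Real.log k ≤ Real.log T - 24 := fun k hk => by
      obtain ⟨h1, h2⟩ := mem_Icc.1 hk
      refine (Real.log_le_log (Nat.cast_pos.2 h1) ((Nat.cast_le.2 h2).trans hY)).trans (le_of_eq ?_)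
      rw [cutRatio, Real.log_mul (Real.exp_pos _).ne' hT0.ne', Real.log_exp]
      ring
    linarith [hlog m hm, hlog n hn]
  · have e2 : ∑ n ∈ Icc 1 Y, ‖c n‖ =
        ∑ n ∈ Icc 1 Y, (n.divisors.card : ℝ) * (n : ℝ) ^ (-(1 / 2) : ℝ) :=
      sum_congr rfl fun n hn => by
        rw [hc, norm_mul, norm_divCount, norm_natCast_cpow_of_pos (mem_Icc.1 hn).1]
        norm_num
    simp only [← Finset.sum_mul, ← mul_sum, e2]
    have h := sum_d_rpow_le Y
    have h0 : 0 ≤ ∑ n ∈ Icc 1 Y, (n.divisors.card : ℝ) * (n : ℝ) ^ (-(1 / 2) : ℝ) :=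
      sum_nonneg fun n _ => by positivity
    refine (mul_le_mul_of_nonneg_right (mul_le_mul h h h0 (mul_nonneg (by positivity)
      (zero_le_one.trans (one_le_logOne Y)))) (by norm_num)).trans (le_of_eq ?_)
    rw [show 2 * √(Y : ℝ) * logOne Y * (2 * √(Y : ℝ) * logOne Y) * 3 =
      12 * (√(Y : ℝ) * √(Y : ℝ)) * logOne Y ^ 2 by ring, Real.mul_self_sqrt (Nat.cast_nonneg Y)]

/-- The diagonal term. -/
theorem exists_diagonal : ∃ C, 0 ≤ C ∧ ∀ T : ℝ, 2 / cutRatio ≤ T →
    |(∫ t in T..2 * T, ‖shortPoly ⌊cutRatio * T⌋₊ t‖ ^ 2) - T * Real.log T ^ 4 / (4 * π ^ 2)| ≤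
      C * (T * (1 + Real.log T) ^ 3) := by
  obtain ⟨C, hC0, hC⟩ := exists_divisorSq
  refine ⟨19 + C + 100, by positivity, fun T hT => ?_⟩
  have hc0 : 0 < cutRatio := Real.exp_pos _
  have hc1 := cutRatio_le
  have hcT : 2 ≤ cutRatio * T := by rw [div_le_iff₀ hc0] at hT; linarith
  have hT0 : 0 < T := by nlinarith
  obtain ⟨Y, hY⟩ : ∃ Y, Y = ⌊cutRatio * T⌋₊ := ⟨_, rfl⟩
  rw [← hY]
  have hY1 : cutRatio * T / 2 ≤ Y := by
    have := Nat.lt_floor_add_one (cutRatio * T)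
    rw [← hY] at this
    linarith
  have hY2 : (Y : ℝ) ≤ cutRatio * T := hY ▸ Nat.floor_le (by positivity)
  have hYp : (0 : ℝ) < Y := by linarith
  have hY0 : 0 < Y := Nat.cast_pos.1 hYp
  have hYT : (Y : ℝ) ≤ T := hY2.trans (mul_le_of_le_one_left hT0.le (by linarith))
  obtain ⟨l, hl⟩ : ∃ l, l = Real.log T := ⟨_, rfl⟩
  obtain ⟨y, hy⟩ : ∃ y, y = Real.log Y := ⟨_, rfl⟩
  have hy0 : 0 ≤ y := hy ▸ Real.log_natCast_nonneg Y
  have hyl : y ≤ l := hy ▸ hl ▸ Real.log_le_log hYp hYT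
  have hly : l - 25 ≤ y := by
    have h := Real.log_le_log (by linarith) hY1
    rw [Real.log_div (by positivity) two_ne_zero, Real.log_mul hc0.ne' hT0.ne', cutRatio,
      Real.log_exp, ← hl, ← hy] at h
    linarith [Real.log_two_lt_d9]
  have hlY : logOne Y ≤ 1 + l := by rw [logOne, ← hy]; linarith
  obtain ⟨a, ha⟩ : ∃ a : ℕ → ℂ, a = fun n => divCount n * (n : ℂ) ^ (-(1 / 2 : ℂ)) := ⟨_, rfl⟩
  have e : ∀ t : ℝ, shortPoly Y t = ∑ n ∈ Icc 1 Y, a n * (n : ℂ) ^ (-(I * (t : ℂ))) := fun t => by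
    refine sum_congr rfl fun n hn => ?_
    rw [ha, mul_assoc, ← Complex.cpow_add _ _ (Nat.cast_ne_zero.2 (show n ≠ 0 by
      have := (mem_Icc.1 hn).1; omega))]
    congr 2
    ring
  have hn : ∀ n ∈ Icc 1 Y, ‖a n‖ ^ 2 = (n.divisors.card : ℝ) ^ 2 / n := fun n hn => by
    rw [ha, norm_mul, norm_divCount, norm_natCast_cpow_of_pos (mem_Icc.1 hn).1, mul_pow,
      ← Real.rpow_natCast ((n : ℝ) ^ _) 2, ← Real.rpow_mul (Nat.cast_nonneg n)]
    norm_num [Real.rpow_neg_one, div_eq_mul_inv]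
  have h := FA.MeanValue.mean_value_dirichlet a Y T (2 * T)
  simp only [← e] at h
  rw [sum_congr rfl hn, show 2 * T - T = T by ring] at h
  have h1 : 4 * π * ∑ n ∈ Icc 1 Y, ((n : ℝ) + 1 / 2) * ‖a n‖ ^ 2 ≤
      19 * (T * (1 + l) ^ 3) := by
    rw [mul_sum]
    refine (sum_le_sum (g := fun n : ℕ => 19 * ((n.divisors.card : ℝ) ^ 2 * (n : ℝ) ^ 0))
      fun n hn' => ?_).trans ?_
    · rw [hn n hn', pow_zero, mul_one]
      have hn1 : (1 : ℝ) ≤ n := Nat.one_le_cast.2 (mem_Icc.1 hn').1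
      calc 4 * π * (((n : ℝ) + 1 / 2) * ((n.divisors.card : ℝ) ^ 2 / n)) =
            4 * π * (((n : ℝ) + 1 / 2) / n) * (n.divisors.card : ℝ) ^ 2 := by ring
        _ ≤ 19 * (n.divisors.card : ℝ) ^ 2 := by
          refine mul_le_mul_of_nonneg_right ?_ (sq_nonneg _)
          rw [mul_div_assoc', div_le_iff₀ (by linarith)]
          nlinarith [Real.pi_lt_d2, Real.pi_pos]
    · rw [← mul_sum, show Icc 1 Y = Ioc 0 Y from rfl]
      refine mul_le_mul_of_nonneg_left ((sum_dsq_mul_pow_le Y 0).trans ?_) (by norm_num)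
      rw [zero_add, pow_one]
      exact mul_le_mul hYT (pow_le_pow_left₀ (zero_le_one.trans (one_le_logOne Y)) hlY 3)
        (pow_nonneg (zero_le_one.trans (one_le_logOne Y)) 3) hT0.le
  have h2 := hC Y hY0
  rw [← hy] at h2
  have hD : ∑ n ∈ Icc 1 Y, (n.divisors.card : ℝ) ^ 2 / n = divisorSq Y := rfl
  rw [hD] at h
  obtain ⟨-, b2⟩ := logPow_sub_bounds hy0 hyl 3
  have h3 : (1 + y) ^ 3 ≤ (1 + l) ^ 3 := pow_le_pow_left₀ (by linarith) (by linarith) 3
  have h4 : |y ^ 4 / (4 * π ^ 2) - l ^ 4 / (4 * π ^ 2)| ≤ 100 * (1 + l) ^ 3 := by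
    rw [← sub_div, abs_div, abs_of_pos (show 0 < 4 * π ^ 2 by positivity)]
    refine (div_le_self (abs_nonneg _) (by nlinarith [Real.pi_gt_three])).trans ?_
    rw [abs_sub_comm, abs_of_nonneg (sub_nonneg.2 (pow_le_pow_left₀ hy0 hyl 4))]
    norm_num at b2
    have h5 : l ^ 3 * (l - y) ≤ (1 + l) ^ 3 * 25 :=
      mul_le_mul (pow_le_pow_left₀ (hy0.trans hyl) (by linarith) 3) (by linarith) (by linarith)
        (pow_nonneg (by linarith) 3)
    linarith
  have h5 : |T * divisorSq Y - T * (l ^ 4 / (4 * π ^ 2))| ≤ (C + 100) * (T * (1 + l) ^ 3) := by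
    rw [← mul_sub, abs_mul, abs_of_pos hT0]
    refine (mul_le_mul_of_nonneg_left ((abs_sub_le _ _ _).trans
      (add_le_add (h2.trans (mul_le_mul_of_nonneg_left h3 hC0)) h4)) hT0.le).trans (le_of_eq ?_)
    ring
  rw [← hl, mul_div_assoc]
  refine (abs_sub_le _ _ _).trans ((add_le_add (h.trans h1) h5).trans (le_of_eq ?_))
  ring

/-- `|ζ (1/2 + it)| ^ 4`. -/
def quart (t : ℝ) : ℝ := ‖riemannZeta (1 / 2 + t * Complex.I)‖ ^ 4

theorem continuous_quart : Continuous quart :=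
  FA.SecondMoment.continuous_zeta_line.norm.pow 4

theorem quart_nonneg (t : ℝ) : 0 ≤ quart t := by
  unfold quart
  positivity

/-- The weight of the error. -/
def errW (l : ℝ) : ℝ := (1 + l) ^ 3 * √(1 + l)

theorem errW_mono {a b : ℝ} (ha : 0 ≤ a) (hab : a ≤ b) : errW a ≤ errW b :=
  mul_le_mul (pow_le_pow_left₀ (by linarith) (by linarith) 3) (Real.sqrt_le_sqrt (by linarith))
    (Real.sqrt_nonneg _) (pow_nonneg (by linarith) 3)

theorem pow_three_le_errW {l : ℝ} (hl : 0 ≤ l) : (1 + l) ^ 3 ≤ errW l :=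
  le_mul_of_one_le_right (pow_nonneg (by linarith) 3) (Real.one_le_sqrt.2 (by linarith))

theorem one_le_errW {l : ℝ} (hl : 0 ≤ l) : 1 ≤ errW l :=
  (one_le_pow₀ (by linarith)).trans (pow_three_le_errW hl)

/-- **On a dyadic range.** -/
theorem exists_dyadic_moment : ∃ C, 0 ≤ C ∧ ∀ T : ℝ, 1 ≤ T →
    |(∫ t in T..2 * T, quart t) - T * Real.log T ^ 4 / (2 * π ^ 2)| ≤
      C * (T * errW (Real.log T)) := by
  obtain ⟨CR, hCR0, hR⟩ := exists_square_remainder (c := cutRatio) (Real.exp_pos _) cutRatio_le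
  obtain ⟨CD, hCD0, hD⟩ := exists_diagonal
  obtain ⟨T₀, hT₀⟩ : ∃ T₀, T₀ = 2 / cutRatio := ⟨_, rfl⟩
  obtain ⟨Q, hQ⟩ : ∃ Q, Q = ∫ t in (1 : ℝ)..2 * max T₀ 1, quart t := ⟨_, rfl⟩
  have hQ0 : 0 ≤ Q := hQ ▸ intervalIntegral.integral_nonneg
    (by linarith [le_max_right T₀ (1 : ℝ)]) fun t _ => quart_nonneg t
  refine ⟨(2 * CD + 24) + (1 + (2 * CD + 24)) + 2 * CR + (Q + max T₀ 1 * max T₀ 1 ^ 4),
    by positivity, fun T hT => ?_⟩
  obtain ⟨l, hl⟩ : ∃ l, l = Real.log T := ⟨_, rfl⟩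
  have hl0 : 0 ≤ l := hl ▸ Real.log_nonneg hT
  have hW := one_le_errW hl0
  have hTW : 1 ≤ T * errW l := one_le_mul_of_one_le_of_one_le hT hW
  rw [← hl]
  obtain ⟨E, hE⟩ : ∃ E, E = Q + max T₀ 1 * max T₀ 1 ^ 4 := ⟨_, rfl⟩
  obtain ⟨C₁, hC₁⟩ : ∃ C₁, C₁ = (2 * CD + 24) + (1 + (2 * CD + 24)) + 2 * CR := ⟨_, rfl⟩
  rw [← hE, ← hC₁]
  have hE0 : 0 ≤ E := by rw [hE]; positivity
  have hC₁0 : 0 ≤ C₁ := by rw [hC₁]; positivity
  rcases le_or_gt T₀ T with hbig | hsmall
  swap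
  · refine le_trans ?_ (le_mul_of_one_le_right (by positivity) hTW)
    have hTm : T ≤ max T₀ 1 := le_trans hsmall.le (le_max_left _ _)
    have h1 : ∫ t in T..2 * T, quart t ≤ Q := hQ ▸ intervalIntegral.integral_mono_interval hT
      (by linarith) (by linarith) (Eventually.of_forall quart_nonneg)
      (continuous_quart.intervalIntegrable _ _)
    have h2 : 0 ≤ ∫ t in T..2 * T, quart t :=
      intervalIntegral.integral_nonneg (by linarith) fun t _ => quart_nonneg t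
    have h3 : T * l ^ 4 / (2 * π ^ 2) ≤ max T₀ 1 * max T₀ 1 ^ 4 := by
      refine (div_le_self (by positivity) (by nlinarith [Real.pi_gt_three])).trans ?_
      refine mul_le_mul hTm (pow_le_pow_left₀ hl0 ?_ 4) (by positivity) (by positivity)
      exact le_trans (by rw [hl]; linarith [Real.log_le_sub_one_of_pos (by linarith : 0 < T)]) hTm
    have h4 : 0 ≤ T * l ^ 4 / (2 * π ^ 2) := by positivity
    rw [abs_le]
    rw [hE]
    constructor <;> linarith
  obtain ⟨Y, hY⟩ : ∃ Y, Y = ⌊cutRatio * T⌋₊ := ⟨_, rfl⟩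
  have hY2 : (Y : ℝ) ≤ cutRatio * T :=
    hY ▸ Nat.floor_le (mul_nonneg (Real.exp_pos _).le (by linarith))
  have hYT : (Y : ℝ) ≤ T := hY2.trans
    (mul_le_of_le_one_left (by linarith) (by linarith [cutRatio_le]))
  have hdiag := hD T (hT₀ ▸ hbig)
  have hrem := hR T (hT₀ ▸ hbig)
  rw [← hY] at hdiag hrem
  rw [← hl] at hdiag hrem
  obtain ⟨S, hS⟩ : ∃ S : ℝ → ℂ,
      S = fun t => shortPoly Y t + chiLine t * conj (shortPoly Y t) := ⟨_, rfl⟩
  obtain ⟨G, hG⟩ : ∃ G : ℝ → ℂ, G = fun t => chiLine t * conj (shortPoly Y t) ^ 2 := ⟨_, rfl⟩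
  have hGc : Continuous G := hG ▸ continuous_chiLine.mul
    ((Complex.continuous_conj.comp (continuous_shortPoly Y)).pow 2)
  have hSc : Continuous S := hS ▸ (continuous_shortPoly Y).add
    (continuous_chiLine.mul (Complex.continuous_conj.comp (continuous_shortPoly Y)))
  have eS : ∀ t, ‖S t‖ ^ 2 = 2 * ‖shortPoly Y t‖ ^ 2 + 2 * (G t).re := fun t => by
    have hχ : Complex.normSq (chiLine t) = 1 := by rw [← Complex.sq_norm, norm_chiLine, one_pow]
    rw [hS, hG, Complex.sq_norm, Complex.sq_norm, Complex.normSq_add, map_mul, hχ,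
      Complex.normSq_conj, one_mul, map_mul, Complex.conj_conj,
      show shortPoly Y t * (conj (chiLine t) * shortPoly Y t) =
        conj (chiLine t * conj (shortPoly Y t) ^ 2) by
          rw [map_mul, map_pow, Complex.conj_conj]; ring, Complex.conj_re]
    ring
  have hcross : ‖∫ t in T..2 * T, G t‖ ≤ 12 * (T * (1 + l) ^ 3) := by
    rw [hG]
    refine (norm_cross_le hT hY2).trans ?_
    rw [mul_assoc]
    refine mul_le_mul_of_nonneg_left (mul_le_mul hYT ?_ (sq_nonneg _) (by linarith)) (by norm_num)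
    rcases Nat.eq_zero_or_pos Y with h0 | h0
    · rw [h0, logOne]
      simpa using one_le_pow₀ (show 1 ≤ 1 + l by linarith) (n := 3)
    refine (pow_le_pow_left₀ (zero_le_one.trans (one_le_logOne Y))
      (show logOne Y ≤ 1 + l from ?_) 2).trans (pow_le_pow_right₀ (by linarith) (by norm_num))
    rw [logOne, hl]
    exact add_le_add le_rfl (Real.log_le_log (Nat.cast_pos.2 h0) hYT)
  have hre : |∫ t in T..2 * T, (G t).re| ≤ 12 * (T * (1 + l) ^ 3) := by
    refine le_trans ?_ hcross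
    have := Complex.reCLM.intervalIntegral_comp_comm
      (hGc.intervalIntegrable (μ := volume) T (2 * T))
    simp only [Complex.reCLM_apply] at this
    rw [this]
    exact Complex.abs_re_le_norm _
  have i1 : IntervalIntegrable (fun t => 2 * ‖shortPoly Y t‖ ^ 2) volume T (2 * T) :=
    (((continuous_shortPoly Y).norm.pow 2).const_mul 2).intervalIntegrable _ _
  have i2 : IntervalIntegrable (fun t => 2 * (G t).re) volume T (2 * T) :=
    ((Complex.continuous_re.comp hGc).const_mul 2).intervalIntegrable _ _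
  have hmain : |(∫ t in T..2 * T, ‖S t‖ ^ 2) - T * l ^ 4 / (2 * π ^ 2)| ≤
      (2 * CD + 24) * (T * (1 + l) ^ 3) := by
    simp only [eS]
    rw [intervalIntegral.integral_add i1 i2, intervalIntegral.integral_const_mul,
      intervalIntegral.integral_const_mul]
    have e : T * l ^ 4 / (2 * π ^ 2) = 2 * (T * l ^ 4 / (4 * π ^ 2)) := by ring
    rw [e, abs_le]
    obtain ⟨a1, a2⟩ := abs_le.1 hdiag
    obtain ⟨b1, b2⟩ := abs_le.1 hre
    constructor <;> linarith
  obtain ⟨q, hq⟩ : ∃ q, q = √(1 + l) := ⟨_, rfl⟩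
  have hq1 : 1 ≤ q := hq ▸ Real.one_le_sqrt.2 (by linarith)
  have hqq : q * q = 1 + l := hq ▸ Real.mul_self_sqrt (by linarith)
  have hq4 : ∀ t : ℝ, quart t = ‖riemannZeta ((1 / 2 : ℂ) + t * I) ^ 2‖ ^ 2 := fun t => by
    rw [quart, norm_pow, ← pow_mul]
  have hcS : IntervalIntegrable (fun t => ‖S t‖ ^ 2) volume T (2 * T) :=
    (hSc.norm.pow 2).intervalIntegrable _ _
  have hcR : IntervalIntegrable
      (fun t : ℝ => ‖riemannZeta ((1 / 2 : ℂ) + t * I) ^ 2 - S t‖ ^ 2) volume T (2 * T) :=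
    (((FA.SecondMoment.continuous_zeta_line.pow 2).sub hSc).norm.pow 2).intervalIntegrable _ _
  have hdiff : |(∫ t in T..2 * T, quart t) - ∫ t in T..2 * T, ‖S t‖ ^ 2| ≤
      1 / q * (∫ t in T..2 * T, ‖S t‖ ^ 2) +
        (1 + q) * ∫ t in T..2 * T, ‖riemannZeta ((1 / 2 : ℂ) + t * I) ^ 2 - S t‖ ^ 2 := by
    rw [← intervalIntegral.integral_sub (continuous_quart.intervalIntegrable _ _) hcS,
      ← intervalIntegral.integral_const_mul, ← intervalIntegral.integral_const_mul,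
      ← intervalIntegral.integral_add (hcS.const_mul _) (hcR.const_mul _)]
    refine (intervalIntegral.abs_integral_le_integral_abs (by linarith)).trans
      (intervalIntegral.integral_mono_on (by linarith)
        ((continuous_quart.intervalIntegrable _ _).sub hcS).abs
        ((hcS.const_mul _).add (hcR.const_mul _)) fun t _ => ?_)
    have h := FA.SecondMoment.abs_sq_norm_sub_le (riemannZeta ((1 / 2 : ℂ) + t * I) ^ 2) (S t)
      (one_div_pos.2 (show 0 < q by linarith))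
    rwa [one_div_one_div, ← hq4] at h
  simp only [hS] at hdiff
  simp only [hS] at hmain
  have hpw : (1 + l) ^ 4 = (1 + l) ^ 3 * q * q := by rw [mul_assoc, hqq, ← pow_succ]
  have hTq : T * errW l = T * (1 + l) ^ 3 * q := by rw [errW, hq]; ring
  have hS' : 1 / q * (∫ t in T..2 * T, ‖shortPoly Y t + chiLine t * conj (shortPoly Y t)‖ ^ 2) ≤
      (1 + (2 * CD + 24)) * (T * errW l) := by
    rw [div_mul_eq_mul_div, one_mul, div_le_iff₀ (by linarith)]
    refine le_trans (show _ ≤ (1 + (2 * CD + 24)) * (T * (1 + l) ^ 4) from ?_)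
      (le_of_eq (by rw [hTq, hpw]; ring))
    obtain ⟨-, a2⟩ := abs_le.1 hmain
    have h1 : T * l ^ 4 / (2 * π ^ 2) ≤ T * (1 + l) ^ 4 := (div_le_self (by positivity)
      (by nlinarith [Real.pi_gt_three])).trans (mul_le_mul_of_nonneg_left
        (pow_le_pow_left₀ hl0 (by linarith) 4) (by linarith))
    have h2 : (2 * CD + 24) * (T * (1 + l) ^ 3) ≤ (2 * CD + 24) * (T * (1 + l) ^ 4) :=
      mul_le_mul_of_nonneg_left (mul_le_mul_of_nonneg_left
        (pow_le_pow_right₀ (by linarith) (by norm_num)) (by linarith)) (by positivity)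
    linarith
  have hR' : (1 + q) * ∫ t in T..2 * T, ‖riemannZeta ((1 / 2 : ℂ) + t * I) ^ 2 -
      (shortPoly Y t + chiLine t * conj (shortPoly Y t))‖ ^ 2 ≤ 2 * CR * (T * errW l) := by
    refine (mul_le_mul (show 1 + q ≤ 2 * q by linarith) hrem
      (intervalIntegral.integral_nonneg (by linarith) fun t _ => sq_nonneg _) (by linarith)).trans
      (le_of_eq ?_)
    rw [hTq]
    ring
  have hmain' := hmain.trans (mul_le_mul_of_nonneg_left
    (mul_le_mul_of_nonneg_left (pow_three_le_errW hl0) (by linarith : (0 : ℝ) ≤ T))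
    (by positivity : (0 : ℝ) ≤ 2 * CD + 24))
  refine (abs_sub_le _ _ _).trans ((add_le_add (hdiff.trans (add_le_add hS' hR')) hmain').trans ?_)
  rw [hC₁]
  linarith [mul_nonneg hE0 (zero_le_one.trans hTW)]

/-- **The fourth moment from `1` on.** -/
theorem exists_moment_one : ∃ C, 0 ≤ C ∧ ∀ T : ℝ, 1 ≤ T →
    |(∫ t in (1 : ℝ)..T, quart t) - T * Real.log T ^ 4 / (2 * π ^ 2)| ≤
      C * (T * errW (Real.log T)) := by
  obtain ⟨C, hC0, hC⟩ := exists_dyadic_moment
  obtain ⟨Q, hQ⟩ : ∃ Q, Q = ∫ t in (1 : ℝ)..2, quart t := ⟨_, rfl⟩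
  have hQ0 : 0 ≤ Q := hQ ▸ intervalIntegral.integral_nonneg one_le_two fun t _ => quart_nonneg t
  refine ⟨C + 2 + (Q + 2), by positivity, ?_⟩
  have key : ∀ (k : ℕ) (T : ℝ), 1 ≤ T → T ≤ 2 ^ (k + 1) →
      |(∫ t in (1 : ℝ)..T, quart t) - T * Real.log T ^ 4 / (2 * π ^ 2)| ≤
        (C + 2 + (Q + 2)) * (T * errW (Real.log T)) := by
    intro k
    induction k with
    | zero =>
      intro T h1 h2
      rw [zero_add, pow_one] at h2
      have hl0 := Real.log_nonneg h1
      refine le_trans ?_ (le_mul_of_one_le_right (by positivity)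
        (one_le_mul_of_one_le_of_one_le h1 (one_le_errW hl0)))
      have a1 : ∫ t in (1 : ℝ)..T, quart t ≤ Q := hQ ▸ intervalIntegral.integral_mono_interval le_rfl
        h1 h2 (Eventually.of_forall quart_nonneg) (continuous_quart.intervalIntegrable _ _)
      have a2 : 0 ≤ ∫ t in (1 : ℝ)..T, quart t :=
        intervalIntegral.integral_nonneg h1 fun t _ => quart_nonneg t
      have a3 : T * Real.log T ^ 4 / (2 * π ^ 2) ≤ 2 := by
        refine (div_le_self (by positivity) (by nlinarith [Real.pi_gt_three])).trans ?_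
        refine (mul_le_mul h2 (pow_le_one₀ hl0 (by
          linarith [Real.log_le_sub_one_of_pos (by linarith : 0 < T)])) (by positivity)
          zero_le_two).trans (le_of_eq (mul_one 2))
      have a4 : 0 ≤ T * Real.log T ^ 4 / (2 * π ^ 2) := by positivity
      rw [abs_le]
      constructor <;> linarith
    | succ k ih =>
      intro T h1 h2
      rcases le_or_gt T (2 ^ (k + 1)) with hs | hs
      · exact ih T h1 hs
      have h2k : (2 : ℝ) ≤ 2 ^ (k + 1) := le_self_pow₀ one_le_two k.succ_ne_zero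
      have hh1 : 1 ≤ T / 2 := by linarith
      have hh2 : T / 2 ≤ 2 ^ (k + 1) := by rw [pow_succ] at h2; linarith
      obtain ⟨l, hl⟩ : ∃ l, l = Real.log T := ⟨_, rfl⟩
      obtain ⟨m, hm⟩ : ∃ m, m = Real.log (T / 2) := ⟨_, rfl⟩
      have hm0 : 0 ≤ m := hm ▸ Real.log_nonneg hh1
      have hml : m ≤ l := hm ▸ hl ▸ Real.log_le_log (by linarith) (by linarith)
      have hlm : l - 1 ≤ m := by
        rw [hm, Real.log_div (by linarith) two_ne_zero, ← hl]
        linarith [Real.log_two_lt_d9]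
      have a1 := ih (T / 2) hh1 hh2
      have a2 := hC (T / 2) hh1
      rw [show 2 * (T / 2) = T by ring, ← hm] at a2
      rw [← hm] at a1
      rw [← intervalIntegral.integral_add_adjacent_intervals (continuous_quart.intervalIntegrable 1
        (T / 2)) (continuous_quart.intervalIntegrable _ _), ← hl]
      have hW := errW_mono hm0 hml
      have hW3 := pow_three_le_errW (hm0.trans hml)
      have hW0 : 0 ≤ errW m := zero_le_one.trans (one_le_errW hm0)
      obtain ⟨-, b2⟩ := logPow_sub_bounds hm0 hml 3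
      norm_num at b2
      have b3 : l ^ 4 - m ^ 4 ≤ 4 * errW l := by
        have : l ^ 3 * (l - m) ≤ (1 + l) ^ 3 * 1 :=
          mul_le_mul (pow_le_pow_left₀ (hm0.trans hml) (by linarith) 3) (by linarith) (by linarith)
            (pow_nonneg (by linarith) 3)
        linarith
      have b4 : |2 * (T / 2 * m ^ 4 / (2 * π ^ 2)) - T * l ^ 4 / (2 * π ^ 2)| ≤ T * errW l := by
        rw [show 2 * (T / 2 * m ^ 4 / (2 * π ^ 2)) - T * l ^ 4 / (2 * π ^ 2) =
          -(T * ((l ^ 4 - m ^ 4) / (2 * π ^ 2))) by ring, abs_neg, abs_mul,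
          abs_of_pos (by linarith : 0 < T), abs_of_nonneg (div_nonneg
            (sub_nonneg.2 (pow_le_pow_left₀ hm0 hml 4)) (by positivity))]
        refine mul_le_mul_of_nonneg_left ?_ (by linarith)
        rw [div_le_iff₀ (by positivity)]
        refine b3.trans ?_
        rw [mul_comm (errW l)]
        exact mul_le_mul_of_nonneg_right (by nlinarith [Real.pi_gt_three])
          (zero_le_one.trans (one_le_errW (hm0.trans hml)))
      have h5 : T * errW m ≤ T * errW l := mul_le_mul_of_nonneg_left hW (by linarith)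
      have h6 : (C + 2 + (Q + 2)) * (T / 2 * errW m) + C * (T / 2 * errW m) + T * errW l ≤
          (C + 2 + (Q + 2)) * (T * errW l) := by
        have := mul_le_mul_of_nonneg_left h5 (show (0 : ℝ) ≤ C + 2 + (Q + 2) by positivity)
        have := mul_le_mul_of_nonneg_left h5 hC0
        have : 0 ≤ Q * (T * errW l) := mul_nonneg hQ0
          (mul_nonneg (by linarith) (zero_le_one.trans (one_le_errW (hm0.trans hml))))
        have : 0 ≤ T * errW l :=
          mul_nonneg (by linarith) (zero_le_one.trans (one_le_errW (hm0.trans hml)))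
        linarith
      obtain ⟨c1, c2⟩ := abs_le.1 a1
      obtain ⟨d1, d2⟩ := abs_le.1 a2
      obtain ⟨e1, e2⟩ := abs_le.1 b4
      rw [abs_le]
      constructor <;> linarith
  intro T hT
  obtain ⟨k, hk⟩ : ∃ k : ℕ, T ≤ 2 ^ (k + 1) := by
    obtain ⟨k, hk⟩ := pow_unbounded_of_one_lt T (one_lt_two (α := ℝ))
    exact ⟨k, hk.le.trans (pow_le_pow_right₀ one_le_two (Nat.le_succ k))⟩
  exact key k T hT hk

/-- **The fourth moment.** -/
theorem fourth_moment : ∃ C : ℝ, ∀ T : ℝ, 3 ≤ T →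
    |(∫ t in (0 : ℝ)..T, ‖riemannZeta (1 / 2 + t * Complex.I)‖ ^ 4) -
        T * Real.log T ^ 4 / (2 * π ^ 2)| ≤ C * (T * Real.log T ^ (7 / 2 : ℝ)) := by
  obtain ⟨C, hC0, hC⟩ := exists_moment_one
  obtain ⟨Q, hQ⟩ : ∃ Q, Q = |∫ t in (0 : ℝ)..1, quart t| := ⟨_, rfl⟩
  refine ⟨(C + Q) * 16, fun T hT => ?_⟩
  obtain ⟨l, hl⟩ : ∃ l, l = Real.log T := ⟨_, rfl⟩
  have hl1 : 1 ≤ l := by
    rw [hl, Real.le_log_iff_exp_le (by linarith)]
    exact Real.exp_one_lt_three.le.trans hT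
  have hW : errW l ≤ 16 * l ^ (7 / 2 : ℝ) := by
    rw [errW, Real.sqrt_eq_rpow, ← Real.rpow_natCast, ← Real.rpow_add (by linarith)]
    refine (Real.rpow_le_rpow (by linarith) (show 1 + l ≤ 2 * l by linarith)
      (by norm_num)).trans ?_
    rw [Real.mul_rpow two_pos.le (by linarith)]
    norm_num
    refine mul_le_mul_of_nonneg_right ((Real.rpow_le_rpow_of_exponent_le one_le_two
      (show (7 / 2 : ℝ) ≤ 4 by norm_num)).trans (le_of_eq (by norm_num))) (by positivity)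
  have h1 := hC T (by linarith)
  rw [← hl] at h1 ⊢
  show |(∫ t in (0 : ℝ)..T, quart t) - _| ≤ _
  rw [← intervalIntegral.integral_add_adjacent_intervals (continuous_quart.intervalIntegrable 0 1)
    (continuous_quart.intervalIntegrable 1 T), add_sub_assoc]
  refine (abs_add_le _ _).trans ?_
  rw [← hQ]
  have hT1 : 1 ≤ T * errW l :=
    one_le_mul_of_one_le_of_one_le (by linarith) (one_le_errW (by linarith))
  calc Q + |(∫ t in (1 : ℝ)..T, quart t) - T * l ^ 4 / (2 * π ^ 2)| ≤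
        Q * (T * errW l) + C * (T * errW l) :=
        add_le_add (le_mul_of_one_le_right (hQ ▸ abs_nonneg _) hT1) h1
    _ = (C + Q) * (T * errW l) := by ring
    _ ≤ (C + Q) * (T * (16 * l ^ (7 / 2 : ℝ))) := mul_le_mul_of_nonneg_left
        (mul_le_mul_of_nonneg_left hW (by linarith)) (add_nonneg hC0 (hQ ▸ abs_nonneg _))
    _ = _ := by ring

/-- **`∫_0^T |ζ| ^ 4 = O (T log (T + 2) ^ 4)`.** -/
theorem fourth_moment_le : ∃ C : ℝ, 0 ≤ C ∧ ∀ T : ℝ, 0 ≤ T →
    (∫ t in (0 : ℝ)..T, ‖riemannZeta (1 / 2 + t * Complex.I)‖ ^ 4) ≤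
      C * (T * Real.log (T + 2) ^ 4) := by
  obtain ⟨C, hC⟩ := fourth_moment
  obtain ⟨B, hB⟩ := (isCompact_Icc (a := (0 : ℝ)) (b := 3)).exists_bound_of_continuousOn
    continuous_quart.continuousOn
  refine ⟨|C| + 1 + |B| * 16, by positivity, fun T hT => ?_⟩
  obtain ⟨u, hu⟩ : ∃ u, u = Real.log (T + 2) := ⟨_, rfl⟩
  have hu2 : 1 / 2 ≤ u := by
    have := Real.log_le_log two_pos (show (2 : ℝ) ≤ T + 2 by linarith)
    linarith [Real.log_two_gt_d9, hu]
  rw [← hu]
  have hTu : 0 ≤ T * u ^ 4 := by positivity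
  rcases le_or_gt T 3 with h3 | h3
  · show (∫ t in (0 : ℝ)..T, quart t) ≤ _
    have h1 : ∫ t in (0 : ℝ)..T, quart t ≤ |B| * T := by
      refine (intervalIntegral.integral_mono_on hT (continuous_quart.intervalIntegrable _ _)
        intervalIntegrable_const fun t ht => ((le_abs_self _).trans ((hB t
          ⟨ht.1, ht.2.trans h3⟩).trans (le_abs_self B)))).trans (le_of_eq ?_)
      rw [intervalIntegral.integral_const, smul_eq_mul, sub_zero, mul_comm]
    refine h1.trans ?_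
    have h16 : 1 ≤ 16 * u ^ 4 := by
      have := pow_le_pow_left₀ (by norm_num) hu2 4
      linarith
    have := mul_le_mul_of_nonneg_left h16 (show 0 ≤ |B| * T by positivity)
    have : 0 ≤ (|C| + 1) * (T * u ^ 4) := mul_nonneg (by positivity) hTu
    linarith
  · have hT' : 3 ≤ T := h3.le
    have h1 := (abs_le.1 (hC T hT')).2
    have hl : 1 ≤ Real.log T := by
      rw [Real.le_log_iff_exp_le (by linarith)]
      exact Real.exp_one_lt_three.le.trans hT'
    have hlu : Real.log T ≤ u := hu ▸ Real.log_le_log (by linarith) (by linarith)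
    have h2 : Real.log T ^ (7 / 2 : ℝ) ≤ u ^ 4 := by
      refine (Real.rpow_le_rpow_of_exponent_le hl (show (7 / 2 : ℝ) ≤ (4 : ℕ) by norm_num)).trans ?_
      rw [Real.rpow_natCast]
      exact pow_le_pow_left₀ (by linarith) hlu 4
    have h3 : T * Real.log T ^ 4 / (2 * π ^ 2) ≤ T * u ^ 4 := (div_le_self (by positivity)
      (by nlinarith [Real.pi_gt_three])).trans (mul_le_mul_of_nonneg_left
        (pow_le_pow_left₀ (by linarith) hlu 4) hT)
    have h4 : C * (T * Real.log T ^ (7 / 2 : ℝ)) ≤ |C| * (T * u ^ 4) :=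
      (mul_le_mul_of_nonneg_right (le_abs_self C) (by positivity)).trans
        (mul_le_mul_of_nonneg_left (mul_le_mul_of_nonneg_left h2 hT) (abs_nonneg C))
    have : 0 ≤ |B| * 16 * (T * u ^ 4) := mul_nonneg (by positivity) hTu
    linarith

/-- **Ingham's asymptotic.** -/
theorem fourth_moment_isEquivalent :
    Asymptotics.IsEquivalent atTop
      (fun T : ℝ => ∫ t in (0 : ℝ)..T, ‖riemannZeta (1 / 2 + t * Complex.I)‖ ^ 4)
      fun T => T * Real.log T ^ 4 / (2 * π ^ 2) := by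
  obtain ⟨C, hC⟩ := fourth_moment
  refine Asymptotics.IsBigO.trans_isLittleO (g := fun T : ℝ => T * Real.log T ^ (7 / 2 : ℝ))
    (Asymptotics.IsBigO.of_bound C ?_) (Asymptotics.isLittleO_iff.2 fun ε hε => ?_)
  · filter_upwards [eventually_ge_atTop (3 : ℝ)] with T hT
    rw [Real.norm_eq_abs, Real.norm_of_nonneg
      (mul_nonneg (by linarith) (Real.rpow_nonneg (Real.log_nonneg (by linarith)) _))]
    exact hC T hT
  · filter_upwards [eventually_ge_atTop (1 : ℝ),
      Real.tendsto_log_atTop.eventually_ge_atTop (max 1 ((2 * π ^ 2 / ε) ^ 2))] with T hT hl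
    obtain ⟨l, hldef⟩ : ∃ l, l = Real.log T := ⟨_, rfl⟩
    rw [← hldef] at hl ⊢
    have hl1 : 1 ≤ l := (le_max_left _ _).trans hl
    have hs : 2 * π ^ 2 / ε ≤ √l := Real.le_sqrt_of_sq_le ((le_max_right _ _).trans hl)
    rw [div_le_iff₀ hε] at hs
    rw [Real.norm_of_nonneg (by positivity), Real.norm_of_nonneg (by positivity)]
    have e : l ^ (7 / 2 : ℝ) * √l = l ^ 4 := by
      rw [Real.sqrt_eq_rpow, ← Real.rpow_add (by linarith)]
      norm_num
    rw [← e, mul_div_assoc', le_div_iff₀ (by positivity)]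
    have := mul_le_mul_of_nonneg_left hs (show 0 ≤ T * l ^ (7 / 2 : ℝ) by positivity)
    linarith

end FA.FourthMoment
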