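import Fermat.Agent.SelbergCLT.Growth
import Fermat.Agent.PairCorr.Bounds

/-!
# The factor of the functional equation and its phase on the critical line

`chiOne z = (z - 1) χ z` in `re z < 2`; `|χ| = |z| / 2π` on `re z = -1/2` and `|chiOne| = 2π` on
`re z = 3/2`; `∫ χ (1/2 + it) ^ 2 e^(i t l) = O (1)` over `[a, b]` when
`2π e^(22) e^(l/2) ≤ t` there, as the phase is then monotone with a slope `≤ -1`.
-/

set_option autoImplicit false

noncomputable section

namespace FA.FourthMoment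

open Complex Filter MeasureTheory Set
open FA.SelbergCLT
open scoped Topology Real ComplexConjugate

/-- `(z - 1) χ z` for `re z < 2`. -/
def chiOne (z : ℂ) : ℂ := 4 * π ^ 2 * chiFac (z - 2) / (2 - z)

theorem two_sub_ne_zero {z : ℂ} (hz : z.re < 2) : (2 : ℂ) - z ≠ 0 := fun h => by
  have := congrArg Complex.re h
  simp at this
  linarith

theorem differentiableAt_chiOne {z : ℂ} (hz : z.re < 2) : DifferentiableAt ℂ chiOne z :=
  ((DifferentiableAt.comp (g := chiFac) (f := fun y : ℂ => y - 2) z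
    (differentiableAt_chiFac (z := z - 2) (by simp; linarith))
    (differentiableAt_id.sub_const 2)).const_mul _).div (differentiableAt_id.const_sub 2)
      (two_sub_ne_zero hz)

theorem chiOne_eq {z : ℂ} (h1 : z ≠ 1) (h2 : z ≠ 2) : chiOne z = (z - 1) * chiFac z := by
  have e1 : Gammaℝ (1 - z) = ((1 - z) / (2 * π))⁻¹ * Gammaℝ (3 - z) := by
    rw [← inv_inj, FA.DedekindZF.inv_Gammaℝ_eq, mul_inv, inv_inv,
      show (1 : ℂ) - z + 2 = 3 - z by ring]
  have e2 : (Gammaℝ (z - 2))⁻¹ = (z - 2) / (2 * π) * (Gammaℝ z)⁻¹ := by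
    rw [FA.DedekindZF.inv_Gammaℝ_eq, sub_add_cancel]
  rw [chiOne, chiFac, chiFac, e1, e2, show (1 : ℂ) - (z - 2) = 3 - z by ring]
  have hπ : (π : ℂ) ≠ 0 := ofReal_ne_zero.2 Real.pi_ne_zero
  have k1 : (1 : ℂ) - z ≠ 0 := sub_ne_zero.2 (Ne.symm h1)
  have k2 : (2 : ℂ) - z ≠ 0 := sub_ne_zero.2 (Ne.symm h2)
  field_simp
  ring

theorem chiFac_eq_div {z : ℂ} (hz : z.re < 1) : chiFac z = chiOne z / (z - 1) := by
  have h1 : z ≠ 1 := fun h => by rw [h] at hz; simp at hz
  have h2 : z ≠ 2 := fun h => by rw [h] at hz; norm_num at hz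
  rw [chiOne_eq h1 h2, mul_div_cancel_left₀ _ (sub_ne_zero.2 h1)]

theorem norm_chiFac_neg_half {z : ℂ} (hz : z.re = -1 / 2) : ‖chiFac z‖ = ‖z‖ / (2 * π) := by
  have e : (1 : ℂ) - z = conj (z + 2) := by
    apply Complex.ext <;> simp [hz]
    norm_num
  rw [chiFac, FA.DedekindZF.inv_Gammaℝ_eq z, e, norm_mul, norm_mul,
    FA.DedekindZF.norm_Gammaℝ_conj, norm_inv, norm_div, norm_mul, Complex.norm_two,
    Complex.norm_real, Real.norm_of_nonneg Real.pi_pos.le, mul_left_comm, mul_inv_cancel₀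
      (norm_ne_zero_iff.2 (Gammaℝ_ne_zero_of_re_pos (by simp [hz]; norm_num))), mul_one]

theorem norm_chiOne_right {z : ℂ} (hz : z.re = 3 / 2) : ‖chiOne z‖ = 2 * π := by
  have h : (z - 2).re = -1 / 2 := by simp [hz]; norm_num
  rw [chiOne, norm_div, norm_mul, norm_chiFac_neg_half h, norm_mul, norm_pow, Complex.norm_real,
    Real.norm_of_nonneg Real.pi_pos.le, RCLike.norm_ofNat, norm_sub_rev (2 : ℂ) z]
  have hn : ‖z - 2‖ ≠ 0 := norm_ne_zero_iff.2 (sub_ne_zero.2 fun e => by
    rw [e] at hz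
    norm_num at hz)
  field_simp
  ring

theorem exists_chiOne_le : ∃ C, 0 ≤ C ∧ ∀ z : ℂ, z.re ∈ Icc (-1) (3 / 2) →
    ‖chiOne z‖ ≤ C * (|z.im| + 4) ^ 4 := by
  obtain ⟨C, hC1, hC⟩ := exists_chiFac_le
  refine ⟨8 * π ^ 2 * C, by positivity, fun z hz => ?_⟩
  have h := hC (z - 2) (by simp; constructor <;> linarith [hz.1, hz.2])
  simp only [sub_im, im_ofNat, sub_zero] at h
  have h2 : 1 / 2 ≤ ‖(2 : ℂ) - z‖ := le_trans (by simp; linarith [hz.2]) (re_le_norm _)
  rw [chiOne, norm_div, norm_mul, norm_mul, norm_pow, Complex.norm_real,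
    Real.norm_of_nonneg Real.pi_pos.le, RCLike.norm_ofNat, div_le_iff₀ (by linarith)]
  refine (mul_le_mul_of_nonneg_left h (by positivity)).trans (le_trans (le_of_eq ?_)
    (mul_le_mul_of_nonneg_left h2 (by positivity)))
  ring

/-! ## The logarithmic derivative -/

/-- `Γ'/Γ`. -/
def digam (z : ℂ) : ℂ := deriv Complex.Gamma z / Complex.Gamma z

theorem differentiableAt_digam {z : ℂ} (hz : 0 < z.re) : DifferentiableAt ℂ digam z := by
  have hU : IsOpen {u : ℂ | 0 < u.re} := isOpen_lt continuous_const continuous_re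
  have hd : DifferentiableOn ℂ Complex.Gamma {u : ℂ | 0 < u.re} := fun u hu =>
    (differentiableAt_Gamma u fun m h => by
      have : 0 < u.re := hu
      rw [h] at this
      simp at this
      linarith [(Nat.cast_nonneg m : (0 : ℝ) ≤ m)]).differentiableWithinAt
  exact ((hd.deriv hU).differentiableAt (hU.mem_nhds hz)).div (hd.differentiableAt (hU.mem_nhds hz))
    (Gamma_ne_zero_of_re_pos hz)

theorem digam_conj {z : ℂ} (hz : 0 < z.re) : digam (conj z) = conj (digam z) := by
  have h1 := FA.ExplicitFormula.hasSum_digamma hz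
  have h2 := FA.ExplicitFormula.hasSum_digamma (z := conj z) (by simpa using hz)
  have h3 := (Complex.hasSum_conj'.2 h1)
  simp only [map_sub, map_inv₀, map_add, map_one, map_natCast, Complex.conj_ofReal] at h3
  have := h2.unique h3
  unfold digam
  linear_combination this

/-- `log π - re Γ'/Γ (1/4 + it/2)`. -/
def chiRate (t : ℝ) : ℝ := Real.log π - (digam ((1 / 4 : ℂ) + (t / 2 : ℝ) * I)).re

theorem chiRate_antitoneOn : AntitoneOn chiRate (Ici 0) := by
  intro a ha b _ hab
  have ha : (0 : ℝ) ≤ a := ha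
  obtain ⟨z, hz⟩ : ∃ z : ℝ → ℂ, z = fun v : ℝ => (1 / 4 : ℂ) + (v / 2 : ℝ) * I := ⟨_, rfl⟩
  have hre : ∀ v, (z v).re = 1 / 4 := fun v => by simp [hz]
  have him : ∀ v, (z v).im = v / 2 := fun v => by simp [hz]
  have hinv : ∀ k : ℝ, 0 ≤ k → ((z b + (k : ℂ))⁻¹).re ≤ ((z a + (k : ℂ))⁻¹).re := fun k hk => by
    rw [Complex.inv_re, Complex.inv_re, normSq_apply, normSq_apply]
    simp only [add_re, add_im, hre, him, ofReal_re, ofReal_im, add_zero]
    refine div_le_div_of_nonneg_left (by linarith) (by nlinarith) ?_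
    nlinarith
  have h1 := (Complex.hasSum_re (FA.ExplicitFormula.hasSum_digamma (z := z a)
    (by rw [hre]; norm_num)))
  have h2 := (Complex.hasSum_re (FA.ExplicitFormula.hasSum_digamma (z := z b)
    (by rw [hre]; norm_num)))
  have h3 := hasSum_le (fun k => ?_) h1 h2
  · have h0 := hinv 0 le_rfl
    simp only [ofReal_zero, add_zero] at h0
    simp only [chiRate, digam, ← (show ∀ v, z v = (1 / 4 : ℂ) + (v / 2 : ℝ) * I from
      fun v => by rw [hz])]
    simp only [add_re] at h3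
    linarith
  · have h0 := hinv ((k : ℝ) + 1) (by positivity)
    push_cast at h0
    simp only [sub_re]
    linarith

theorem chiRate_le {t : ℝ} (ht : 0 < t) : chiRate t ≤ 23 - Real.log t := by
  have h := FA.PairCorrelation.norm_digamma_sub_log_le (z := (1 / 4 : ℂ) + (t / 2 : ℝ) * I)
    (by simp) (by norm_num)
  have him : ((1 / 4 : ℂ) + (t / 2 : ℝ) * I).im = t / 2 := by simp
  rw [him, abs_of_pos (half_pos ht)] at h
  have h1 := (abs_re_le_norm _).trans h
  rw [sub_re, ofReal_re, abs_le] at h1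
  have h2 : Real.log t - 1 ≤ Real.log (t / 2 + 2) := by
    refine le_trans ?_ (Real.log_le_log (half_pos ht) (by linarith))
    rw [Real.log_div ht.ne' two_ne_zero]
    linarith [Real.log_two_lt_d9]
  have h3 : Real.log π ≤ 2 := by
    refine (Real.log_le_log Real.pi_pos Real.pi_le_four).trans ?_
    rw [show (4 : ℝ) = 2 ^ 2 by norm_num, Real.log_pow]
    push_cast
    linarith [Real.log_two_lt_d9]
  rw [chiRate, digam]
  linarith [h1.1]

theorem hasDerivAt_chiFac {z : ℂ} (h0 : 0 < z.re) (h1 : z.re < 1) : HasDerivAt chiFac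
    (chiFac z * ((Real.log π : ℝ) - digam ((1 - z) / 2) / 2 - digam (z / 2) / 2)) z := by
  have hG : ∀ w : ℂ, 0 < w.re → HasDerivAt Complex.Gamma (digam w * Complex.Gamma w) w :=
    fun w hw => by
      rw [digam, div_mul_cancel₀ _ (Gamma_ne_zero_of_re_pos hw)]
      refine (differentiableAt_Gamma w fun m h => ?_).hasDerivAt
      rw [h] at hw
      simp at hw
      linarith [(Nat.cast_nonneg m : (0 : ℝ) ≤ m)]
  have hπ : (π : ℂ) ≠ 0 := ofReal_ne_zero.2 Real.pi_ne_zero
  have hw1 : 0 < ((1 - z) / 2).re := by simp; linarith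
  have hw2 : 0 < (z / 2).re := by simp; linarith
  have d1 : HasDerivAt (fun u : ℂ => (π : ℂ) ^ (-(1 - u) / 2))
      ((π : ℂ) ^ (-(1 - z) / 2) * Complex.log π * (1 / 2)) z := by
    refine HasDerivAt.const_cpow ?_ (Or.inl hπ)
    simpa using (((hasDerivAt_id z).const_sub 1).neg.div_const (2 : ℂ))
  have d2 : HasDerivAt (fun u : ℂ => (π : ℂ) ^ (-u / 2))
      ((π : ℂ) ^ (-z / 2) * Complex.log π * (-1 / 2)) z := by
    refine HasDerivAt.const_cpow ?_ (Or.inl hπ)
    simpa using ((hasDerivAt_id z).neg.div_const (2 : ℂ))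
  have d3 : HasDerivAt (fun u : ℂ => Complex.Gamma ((1 - u) / 2))
      (digam ((1 - z) / 2) * Complex.Gamma ((1 - z) / 2) * (-1 / 2)) z := by
    refine (hG _ hw1).comp z ?_
    simpa using ((hasDerivAt_id z).const_sub 1).div_const (2 : ℂ)
  have d4 : HasDerivAt (fun u : ℂ => Complex.Gamma (u / 2))
      (digam (z / 2) * Complex.Gamma (z / 2) * (1 / 2)) z := by
    refine (hG _ hw2).comp z ?_
    simpa using (hasDerivAt_id z).div_const (2 : ℂ)
  have e : chiFac = fun u : ℂ => (π : ℂ) ^ (-(1 - u) / 2) * Complex.Gamma ((1 - u) / 2) *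
      ((π : ℂ) ^ (-u / 2) * Complex.Gamma (u / 2))⁻¹ := by
    funext u
    rw [chiFac, Gammaℝ_def, Gammaℝ_def]
  have hne : (π : ℂ) ^ (-z / 2) * Complex.Gamma (z / 2) ≠ 0 :=
    mul_ne_zero (fun h => hπ (Complex.cpow_eq_zero_iff _ _ |>.1 h).1) (Gamma_ne_zero_of_re_pos hw2)
  rw [e]
  refine ((d1.mul d3).mul ((d2.mul d4).inv hne)).congr_deriv ?_
  have hp2 := left_ne_zero_of_mul hne
  have hG2 := right_ne_zero_of_mul hne
  simp only [Pi.mul_apply, Pi.inv_apply]
  rw [Complex.ofReal_log Real.pi_pos.le]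
  field_simp
  ring

/-- `χ (1/2 + it) ^ 2`. -/
def chiLine (t : ℝ) : ℂ := chiFac ((1 / 2 : ℂ) + t * I) ^ 2

theorem norm_chiLine (t : ℝ) : ‖chiLine t‖ = 1 := by
  rw [chiLine, norm_pow, norm_chiFac_half (by simp), one_pow]

theorem hasDerivAt_chiLine (t : ℝ) :
    HasDerivAt chiLine (I * ((2 * chiRate t : ℝ) : ℂ) * chiLine t) t := by
  obtain ⟨z, hz⟩ : ∃ z : ℂ, z = (1 / 2 : ℂ) + t * I := ⟨_, rfl⟩
  obtain ⟨w, hw⟩ : ∃ w : ℂ, w = (1 / 4 : ℂ) + (t / 2 : ℝ) * I := ⟨_, rfl⟩
  have hwre : 0 < w.re := by simp [hw]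
  have e1 : z / 2 = w := by rw [hz, hw]; push_cast; ring
  have e2 : (1 - z) / 2 = conj w := by
    rw [hz, hw, map_add, map_mul, Complex.conj_I, Complex.conj_ofReal, map_div₀, map_one,
      map_ofNat]
    push_cast
    ring
  have hd := hasDerivAt_chiFac (z := z) (by simp [hz]) (by simp [hz]; norm_num)
  rw [e1, e2, digam_conj hwre, show ((Real.log π : ℝ) : ℂ) - conj (digam w) / 2 - digam w / 2 =
    (Real.log π : ℝ) - (digam w + conj (digam w)) / 2 by ring, Complex.add_conj] at hd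
  have hline : HasDerivAt (fun u : ℝ => (1 / 2 : ℂ) + u * I) I t := by
    simpa using (((hasDerivAt_id' (t : ℂ)).mul_const I).const_add (1 / 2 : ℂ)).comp_ofReal
  have hr : chiRate t = Real.log π - (digam w).re := by rw [hw]; rfl
  rw [hz] at hd
  refine ((hd.comp t hline).pow 2).congr_deriv ?_
  rw [hr, chiLine, Function.comp_apply]
  push_cast
  ring

theorem continuous_chiLine : Continuous chiLine :=
  continuous_iff_continuousAt.2 fun t => (hasDerivAt_chiLine t).continuousAt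

theorem exists_deriv_chiRate : ∃ d : ℝ → ℝ, Continuous d ∧
    (∀ t, HasDerivAt chiRate (d t) t) ∧ ∀ t, 0 < t → d t ≤ 0 := by
  have hU : IsOpen {u : ℂ | 0 < u.re} := isOpen_lt continuous_const continuous_re
  have hd : DifferentiableOn ℂ digam {u : ℂ | 0 < u.re} := fun u hu =>
    (differentiableAt_digam hu).differentiableWithinAt
  obtain ⟨w, hw⟩ : ∃ w : ℝ → ℂ, w = fun t : ℝ => (1 / 4 : ℂ) + (t / 2 : ℝ) * I := ⟨_, rfl⟩
  have hwre : ∀ t, w t ∈ {u : ℂ | 0 < u.re} := fun t => by simp [hw]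
  have hwd : ∀ t, HasDerivAt w (I / 2) t := fun t => by
    rw [hw]
    have h := ((((hasDerivAt_id' (t : ℂ)).div_const 2).mul_const I).const_add
      (1 / 4 : ℂ)).comp_ofReal
    simp only [Complex.ofReal_div, Complex.ofReal_ofNat]
    refine h.congr_deriv ?_
    ring
  have hD : ∀ t, HasDerivAt chiRate (-(deriv digam (w t) * (I / 2)).re) t := fun t => by
    have h := ((differentiableAt_digam (hwre t)).hasDerivAt.comp t (hwd t))
    have h' := (Complex.reCLM.hasFDerivAt.comp_hasDerivAt t h).const_sub (Real.log π)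
    have e : chiRate = fun x => Real.log π - (⇑reCLM ∘ digam ∘ w) x := by
      funext x
      rw [hw]
      rfl
    rw [e]
    exact h'
  refine ⟨fun t => -(deriv digam (w t) * (I / 2)).re, ?_, hD, fun t ht => ?_⟩
  · refine (Complex.continuous_re.comp (Continuous.mul ?_ continuous_const)).neg
    exact (hd.deriv hU).continuousOn.comp_continuous
      (continuous_iff_continuousAt.2 fun t => (hwd t).continuousAt) hwre
  · refine le_of_tendsto (hasDerivAt_iff_tendsto_slope.1 (hD t))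
      (((eventually_gt_nhds ht).filter_mono nhdsWithin_le_nhds).mono fun y hy => ?_)
    rw [slope_def_field]
    rcases le_total y t with h | h
    · exact div_nonpos_of_nonneg_of_nonpos
        (sub_nonneg.2 (chiRate_antitoneOn hy.le ht.le h)) (sub_nonpos.2 h)
    · exact div_nonpos_of_nonpos_of_nonneg
        (sub_nonpos.2 (chiRate_antitoneOn ht.le hy.le h)) (sub_nonneg.2 h)

/-- **No stationary point.** -/
theorem norm_integral_osc_le {H : ℝ → ℂ} {p p' : ℝ → ℝ} {a b : ℝ} (hab : a ≤ b)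
    (hH : ∀ t, HasDerivAt H (I * (p t : ℂ) * H t) t) (hp : ∀ t, HasDerivAt p (p' t) t)
    (hc : Continuous p') (hsign : ∀ t ∈ Icc a b, p' t ≤ 0) (hneg : ∀ t ∈ Icc a b, p t ≤ -1)
    (hn : ∀ t, ‖H t‖ ≤ 1) : ‖∫ t in a..b, H t‖ ≤ 3 := by
  have hne : ∀ t ∈ uIcc a b, p t ≠ 0 := fun t ht => by
    rw [uIcc_of_le hab] at ht
    linarith [hneg t ht]
  have hpc : Continuous p := continuous_iff_continuousAt.2 fun t => (hp t).continuousAt
  have hHc : Continuous H := continuous_iff_continuousAt.2 fun t => (hH t).continuousAt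
  obtain ⟨G, hG⟩ : ∃ G : ℝ → ℂ, G = fun t => H t / (I * (p t : ℂ)) := ⟨_, rfl⟩
  obtain ⟨E, hE⟩ : ∃ E : ℝ → ℂ, E = fun t => H t * ((p' t / p t ^ 2 : ℝ) : ℂ) / I := ⟨_, rfl⟩
  have hEc : ContinuousOn (fun t => p' t / p t ^ 2) (uIcc a b) :=
    hc.continuousOn.div ((hpc.pow 2).continuousOn) fun t ht => pow_ne_zero 2 (hne t ht)
  have hEi : IntervalIntegrable E volume a b := by
    rw [hE]
    exact (((hHc.continuousOn).mul (continuous_ofReal.comp_continuousOn hEc)).div_const
      _).intervalIntegrable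
  have hGd : ∀ t ∈ uIcc a b, HasDerivAt G (H t - E t) t := fun t ht => by
    have h0 : (p t : ℂ) ≠ 0 := ofReal_ne_zero.2 (hne t ht)
    rw [hG, hE]
    refine ((hH t).div ((hp t).ofReal_comp.const_mul I) (mul_ne_zero I_ne_zero h0)).congr_deriv ?_
    push_cast
    field_simp
  have h1 := intervalIntegral.integral_eq_sub_of_hasDerivAt hGd
    ((hHc.intervalIntegrable _ _).sub hEi)
  rw [intervalIntegral.integral_sub (hHc.intervalIntegrable _ _) hEi, sub_eq_iff_eq_add] at h1
  have hGn : ∀ t ∈ Icc a b, ‖G t‖ ≤ 1 := fun t ht => by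
    rw [hG, norm_div, norm_mul, norm_I, one_mul, Complex.norm_real, Real.norm_eq_abs,
      abs_of_neg (by linarith [hneg t ht]), div_le_one (by linarith [hneg t ht])]
    linarith [hn t, hneg t ht]
  have h2 : ∫ t in a..b, -(p' t / p t ^ 2) = 1 / p b - 1 / p a := by
    refine intervalIntegral.integral_eq_sub_of_hasDerivAt (f := fun t => 1 / p t) (fun t ht => ?_)
      hEc.neg.intervalIntegrable
    simp only [one_div]
    exact ((hp t).inv (hne t ht)).congr_deriv (neg_div _ _)
  have h3 : ‖∫ t in a..b, E t‖ ≤ 1 := by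
    refine (intervalIntegral.norm_integral_le_of_norm_le hab
      (g := fun t => -(p' t / p t ^ 2)) (Eventually.of_forall fun t ht => ?_)
      hEc.neg.intervalIntegrable).trans ?_
    · rw [hE, norm_div, norm_mul, norm_I, div_one, Complex.norm_real, Real.norm_of_nonpos
        (div_nonpos_of_nonpos_of_nonneg (hsign t (Ioc_subset_Icc_self ht)) (sq_nonneg _))]
      refine mul_le_of_le_one_left ?_ (hn t)
      linarith [div_nonpos_of_nonpos_of_nonneg (hsign t (Ioc_subset_Icc_self ht)) (sq_nonneg (p t))]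
    · rw [h2]
      have hb : 1 / p b ≤ 0 :=
        div_nonpos_of_nonneg_of_nonpos zero_le_one (by linarith [hneg b ⟨hab, le_rfl⟩])
      have ha : -1 ≤ 1 / p a := by
        rw [le_div_iff_of_neg (by linarith [hneg a ⟨le_rfl, hab⟩])]
        linarith [hneg a ⟨le_rfl, hab⟩]
      linarith
  rw [h1]
  refine (norm_add_le _ _).trans (le_trans (add_le_add ((norm_sub_le _ _).trans
    (add_le_add (hGn b ⟨hab, le_rfl⟩) (hGn a ⟨le_rfl, hab⟩))) h3) (by norm_num))

/-- **The cross integral.** -/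
theorem norm_integral_chiLine_le {a b l : ℝ} (ha : 0 < a) (hab : a ≤ b)
    (hl : l + 48 ≤ 2 * Real.log a) :
    ‖∫ t in a..b, chiLine t * cexp (I * (l * t : ℝ))‖ ≤ 3 := by
  obtain ⟨d, hdc, hd, hsign⟩ := exists_deriv_chiRate
  refine norm_integral_osc_le (p := fun t => 2 * chiRate t + l) (p' := fun t => 2 * d t) hab
    (fun t => ?_) (fun t => ((hd t).const_mul 2).add_const l) (continuous_const.mul hdc)
    (fun t ht => by linarith [hsign t (ha.trans_le ht.1)]) (fun t ht => ?_) fun t => ?_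
  · have he : HasDerivAt (fun u : ℝ => cexp (I * (l * u : ℝ)))
        (cexp (I * (l * t : ℝ)) * (I * l)) t := by
      refine HasDerivAt.cexp ?_
      simpa using (((hasDerivAt_id t).const_mul l).ofReal_comp).const_mul I
    refine ((hasDerivAt_chiLine t).mul he).congr_deriv ?_
    push_cast
    ring
  · have h1 := chiRate_le (ha.trans_le ht.1)
    have h2 := Real.log_le_log ha ht.1
    linarith
  · rw [norm_mul, norm_chiLine, one_mul, norm_exp_I_mul_ofReal]

end FA.FourthMoment
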