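import Fermat.Agent.FourthMoment.SquareIdentity
import Fermat.Agent.SelbergCLT.MeanSquare
import Fermat.Agent.DavenportMoebius.Minor

/-!
# `ζ (1/2 + it) ^ 2` is two short sums in mean square

Over `[T, 2T]`, `ζ ^ 2 - (P + χ ^ 2 conj P)` has mean square `O (T (1 + log T) ^ 3)`, `P` the sum of
`d (n) n^(-1/2 - it)` over `n ≤ c T`.
-/

set_option autoImplicit false

noncomputable section

namespace FA.FourthMoment

open Finset Filter MeasureTheory Complex
open FA.SelbergCLT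
open FA.ThreePrimes (logOne one_le_logOne sum_card_divisors_sq_le)
open scoped Topology Real ComplexConjugate

/-! ## Weighted divisor sums -/

theorem sum_dsq_mul_pow_le (K k : ℕ) : ∑ n ∈ Ioc 0 K, (n.divisors.card : ℝ) ^ 2 * (n : ℝ) ^ k ≤
    (K : ℝ) ^ (k + 1) * logOne K ^ 3 := by
  refine (sum_le_sum (g := fun n : ℕ => (n.divisors.card : ℝ) ^ 2 * (K : ℝ) ^ k) fun n hn =>
    mul_le_mul_of_nonneg_left (pow_le_pow_left₀ (Nat.cast_nonneg n)
      (Nat.cast_le.2 (mem_Ioc.1 hn).2) k) (sq_nonneg _)).trans ?_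
  rw [← Finset.sum_mul]
  refine (mul_le_mul_of_nonneg_right (sum_card_divisors_sq_le K) (by positivity)).trans (le_of_eq ?_)
  ring

theorem sum_dsq_Ioc_div_le {Y : ℕ} (hY : 0 < Y) (K : ℕ) :
    ∑ n ∈ Ioc Y K, (n.divisors.card : ℝ) ^ 2 / n ≤ (K : ℝ) / Y * logOne K ^ 3 := by
  have hY' : (0 : ℝ) < Y := Nat.cast_pos.2 hY
  refine (sum_le_sum (g := fun n : ℕ => (n.divisors.card : ℝ) ^ 2 / Y) fun n hn =>
    div_le_div_of_nonneg_left (sq_nonneg _) hY' (Nat.cast_le.2 (mem_Ioc.1 hn).1.le)).trans ?_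
  rw [← Finset.sum_div, div_mul_eq_mul_div]
  refine div_le_div_of_nonneg_right ((sum_le_sum_of_subset_of_nonneg
    (Ioc_subset_Ioc_left (Nat.zero_le _)) fun n _ _ => sq_nonneg _).trans
      (sum_card_divisors_sq_le K)) hY'.le

theorem exists_sum_dsq_tail : ∃ C, 0 ≤ C ∧ ∀ X M : ℕ, 0 < X →
    ∑ n ∈ Ioc X M, (n.divisors.card : ℝ) ^ 2 / (n : ℝ) ^ 2 ≤ C * logOne X ^ 3 / X := by
  have hs : Summable fun i : ℕ => 8 * (((i + 2 : ℕ) : ℝ) ^ 3 * (1 / 2) ^ (i + 2)) :=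
    ((summable_pow_mul_geometric_of_norm_lt_one 3
      (show ‖(1 / 2 : ℝ)‖ < 1 by norm_num)).comp_injective
        (add_left_injective 2)).mul_left 8
  refine ⟨∑' i : ℕ, 8 * (((i + 2 : ℕ) : ℝ) ^ 3 * (1 / 2) ^ (i + 2)),
    tsum_nonneg fun i => by positivity, fun X M hX => ?_⟩
  obtain ⟨F, hF⟩ : ∃ F : ℕ → ℝ, F = fun n : ℕ => (n.divisors.card : ℝ) ^ 2 / (n : ℝ) ^ 2 := ⟨_, rfl⟩
  have hF0 : ∀ n, 0 ≤ F n := fun n => by rw [hF]; positivity
  have hX' : (0 : ℝ) < X := Nat.cast_pos.2 hX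
  have hl : 1 ≤ logOne X := one_le_logOne X
  have key : ∀ j : ℕ, ∑ n ∈ Ioc X (2 ^ j * X), F n ≤ (logOne X ^ 3 / X) *
      ∑ i ∈ range j, 8 * (((i + 2 : ℕ) : ℝ) ^ 3 * (1 / 2) ^ (i + 2)) := by
    intro j
    induction j with
    | zero => simp
    | succ j ih =>
      have hle : 2 ^ j * X ≤ 2 ^ (j + 1) * X :=
        Nat.mul_le_mul_right X (Nat.pow_le_pow_right two_pos (Nat.le_succ j))
      rw [← sum_Ioc_consecutive F (Nat.le_mul_of_pos_left X (by positivity)) hle, sum_range_succ,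
        mul_add]
      refine add_le_add ih ?_
      have hP : (0 : ℝ) < (2 : ℝ) ^ j * X := by positivity
      refine (sum_le_sum (g := fun n : ℕ => (n.divisors.card : ℝ) ^ 2 / ((2 : ℝ) ^ j * X) ^ 2)
        fun n hn => ?_).trans ?_
      · rw [hF]
        refine div_le_div_of_nonneg_left (sq_nonneg _) (pow_pos hP 2)
          (pow_le_pow_left₀ hP.le ?_ 2)
        exact_mod_cast (mem_Ioc.1 hn).1.le
      rw [← Finset.sum_div, div_le_iff₀ (by positivity)]
      refine (sum_le_sum_of_subset_of_nonneg (Ioc_subset_Ioc_left (Nat.zero_le _))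
        fun n _ _ => sq_nonneg _).trans ((sum_card_divisors_sq_le _).trans ?_)
      have h3 : logOne (2 ^ (j + 1) * X) ≤ logOne X * ((j + 2 : ℕ) : ℝ) := by
        rw [logOne, logOne, Nat.cast_mul, Nat.cast_pow, Nat.cast_two,
          Real.log_mul (by positivity) hX'.ne', Real.log_pow]
        have h2 := Real.log_two_lt_d9
        have h0 := Real.log_natCast_nonneg X
        push_cast
        nlinarith [mul_le_mul_of_nonneg_left (show Real.log 2 ≤ 1 by linarith)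
          (show (0 : ℝ) ≤ (j : ℝ) + 1 by positivity)]
      refine (mul_le_mul_of_nonneg_left (pow_le_pow_left₀ (zero_le_one.trans (one_le_logOne _))
        h3 3) (Nat.cast_nonneg _)).trans (le_of_eq ?_)
      push_cast
      simp only [one_div, inv_pow]
      field_simp
      ring
  obtain ⟨j, hj⟩ : ∃ j, M ≤ 2 ^ j * X := ⟨M, le_trans (Nat.lt_two_pow_self).le
    (Nat.le_mul_of_pos_right _ hX)⟩
  refine (sum_le_sum_of_subset_of_nonneg (s := Ioc X M) (f := F) (Ioc_subset_Ioc_right hj)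
    fun n _ _ => hF0 n).trans' ?_ |>.trans ((key j).trans ?_)
  · exact le_of_eq (by rw [hF])
  · rw [mul_div_assoc, mul_comm (logOne X ^ 3 / X)]
    exact mul_le_mul_of_nonneg_right (hs.sum_le_tsum _ fun i _ => by positivity) (by positivity)

/-! ## Mean values -/

theorem integral_poly_sq_le (a : ℕ → ℂ) (S : Finset ℕ) (hS : ∀ n ∈ S, 0 < n) {T : ℝ} (hT : 0 ≤ T)
    (u : ℝ) : ∫ x in u..u + T, ‖∑ n ∈ S, a n * (n : ℂ) ^ (-(I * (x : ℂ)))‖ ^ 2 ≤
      ∑ n ∈ S, (T + 19 * n) * ‖a n‖ ^ 2 := by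
  obtain ⟨b, hb⟩ : ∃ b : ℕ → ℂ, b = fun n => if n ∈ S then a n else 0 := ⟨_, rfl⟩
  obtain ⟨N, hN⟩ : ∃ N, N = S.sup id := ⟨_, rfl⟩
  have hsub : S ⊆ Icc 1 N := fun n hn => mem_Icc.2 ⟨hS n hn, hN ▸ le_sup (f := id) hn⟩
  have e : ∀ x : ℝ, ∑ n ∈ S, a n * (n : ℂ) ^ (-(I * (x : ℂ))) =
      ∑ n ∈ Icc 1 N, b n * (n : ℂ) ^ (-(I * (x : ℂ))) := fun x => by
    rw [← sum_subset hsub fun n _ hn => by simp [hb, hn]]
    exact sum_congr rfl fun n hn => by simp [hb, hn]
  simp only [e]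
  have h := (abs_le.1 (FA.MeanValue.mean_value_dirichlet b N u (u + T))).2
  have e2 : ∀ g : ℕ → ℝ, ∑ n ∈ Icc 1 N, g n * ‖b n‖ ^ 2 = ∑ n ∈ S, g n * ‖a n‖ ^ 2 := fun g => by
    rw [← sum_subset hsub fun n _ hn => by simp [hb, hn]]
    exact sum_congr rfl fun n hn => by simp [hb, hn]
  rw [add_sub_cancel_left, e2, mul_sum (a := 4 * π)] at h
  have e1 := e2 fun _ => 1
  simp only [one_mul] at e1
  rw [e1, mul_sum (a := T)] at h
  rw [sub_le_iff_le_add', ← sum_add_distrib] at h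
  refine h.trans (sum_le_sum fun n hn => ?_)
  rw [← mul_assoc, ← add_mul]
  refine mul_le_mul_of_nonneg_right ?_ (sq_nonneg _)
  have h1 : (1 : ℝ) ≤ n := Nat.one_le_cast.2 (hS n hn)
  nlinarith [Real.pi_lt_d2, Real.pi_pos]

theorem integral_poly_sq_le' (a : ℕ → ℂ) (S : Finset ℕ) (hS : ∀ n ∈ S, 0 < n) {T : ℝ} (hT : 0 ≤ T)
    (u : ℝ) : ∫ x in u..u + T, ‖∑ n ∈ S, a n * (n : ℂ) ^ (I * (x : ℂ))‖ ^ 2 ≤
      ∑ n ∈ S, (T + 19 * n) * ‖a n‖ ^ 2 := by
  refine le_trans (le_of_eq ?_) ((integral_poly_sq_le (fun n => conj (a n)) S hS hT u).trans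
    (le_of_eq (by simp)))
  refine intervalIntegral.integral_congr fun x _ => ?_
  show ‖_‖ ^ 2 = ‖_‖ ^ 2
  rw [← Complex.norm_conj (∑ n ∈ S, a n * _), map_sum]
  simp only [map_mul, FA.SelbergCLT.conj_natCast_cpow, Complex.conj_I, Complex.conj_ofReal, neg_mul]

/-- `∫ decay v P (t + v)`. -/
def avg (m : ℕ) (P : ℝ → ℝ) (t : ℝ) : ℝ := ∫ v, decay m v * P (t + v)

theorem continuous_avg {m : ℕ} (hm : 2 ≤ m) {P : ℝ → ℝ} (hPc : Continuous P) {D : ℝ}
    (hPD : ∀ x, ‖P x‖ ≤ D) : Continuous (avg m P) := by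
  unfold avg
  refine continuous_of_dominated (bound := fun v => decay m v * D)
    (fun t => ((continuous_decay m).mul (hPc.comp (by fun_prop))).aestronglyMeasurable)
    (fun t => Eventually.of_forall fun v => ?_) ((integrable_decay hm).mul_const D)
    (Eventually.of_forall fun v => continuous_const.mul (hPc.comp (by fun_prop)))
  rw [norm_mul, Real.norm_of_nonneg (decay_nonneg m v)]
  exact mul_le_mul_of_nonneg_left (hPD _) (decay_nonneg m v)

theorem integrable_decay_mul {m : ℕ} (hm : 2 ≤ m) {P : ℝ → ℝ} (hPc : Continuous P) {D : ℝ}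
    (hPD : ∀ x, ‖P x‖ ≤ D) (t : ℝ) : Integrable fun v => decay m v * P (t + v) :=
  integrable_of_decay hm ((continuous_decay m).mul (hPc.comp (by fun_prop))) (C := D) fun v => by
    rw [norm_mul, Real.norm_of_nonneg (decay_nonneg m v), mul_comm]
    exact mul_le_mul_of_nonneg_right (hPD _) (decay_nonneg m v)

theorem norm_integral_le_avg {m : ℕ} (hm : 2 ≤ m) {P : ℝ → ℝ} (hPc : Continuous P) {D : ℝ}
    (hPD : ∀ x, ‖P x‖ ≤ D) {f : ℝ → ℂ} {K t : ℝ}
    (h : ∀ v, ‖f v‖ ≤ K * (decay m v * P (t + v))) : ‖∫ v, f v‖ ≤ K * avg m P t := by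
  rw [avg, ← integral_const_mul]
  exact norm_integral_le_of_norm_le ((integrable_decay_mul hm hPc hPD t).const_mul K)
    (Eventually.of_forall h)

theorem integral_avg_sq_le {m : ℕ} (hm : 2 ≤ m) {P : ℝ → ℝ} (hPc : Continuous P) (hP0 : ∀ x, 0 ≤ P x)
    {D : ℝ} (hPD : ∀ x, ‖P x‖ ≤ D) {T : ℝ} (hT : 0 ≤ T) {M : ℝ}
    (hM : ∀ u, ∫ x in u..u + T, P x ^ 2 ≤ M) :
    ∫ t in T..2 * T, avg m P t ^ 2 ≤ (∫ v, decay m v) ^ 2 * M := by
  have hi : ∀ (t : ℝ) (i : ℕ), Integrable fun v => decay m v * P (t + v) ^ i := fun t i =>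
    integrable_decay_mul hm (hPc.pow i) (D := D ^ i) (fun x => by
      rw [Pi.pow_apply, norm_pow]
      exact pow_le_pow_left₀ (norm_nonneg _) (hPD x) i) t
  have hpt : ∀ t, avg m P t ^ 2 ≤ (∫ v, decay m v) * ∫ v, decay m v * P (t + v) ^ 2 := fun t => by
    have h := norm_sq_integral_le (h := fun v => ((decay m v * P (t + v) : ℝ) : ℂ))
      (A := decay m) (B := fun v => P (t + v)) (decay_nonneg m) (fun v => hP0 _)
      (fun v => le_of_eq (by
        rw [Complex.norm_real, Real.norm_of_nonneg (mul_nonneg (decay_nonneg _ _) (hP0 _))]))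
      (integrable_decay hm) (by simpa using hi t 1) (hi t 2)
    rwa [integral_complex_ofReal, Complex.norm_real, Real.norm_eq_abs, sq_abs] at h
  have hI2 : Integrable (Function.uncurry fun t v => decay m v * P (t + v) ^ 2)
      ((volume.restrict (Set.Ioc T (2 * T))).prod volume) := by
    have : IsFiniteMeasure (volume.restrict (Set.Ioc T (2 * T))) :=
      ⟨by rw [Measure.restrict_apply_univ, Real.volume_Ioc]; exact ENNReal.ofReal_lt_top⟩
    refine ((integrable_const (D ^ 2)).mul_prod (integrable_decay hm)).mono'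
      (((continuous_decay m).comp continuous_snd).mul
        ((hPc.comp (continuous_fst.add continuous_snd)).pow 2)).aestronglyMeasurable
      (Eventually.of_forall fun x => ?_)
    rw [Function.uncurry, norm_mul, Real.norm_of_nonneg (decay_nonneg _ _), norm_pow, mul_comm]
    exact mul_le_mul_of_nonneg_right (pow_le_pow_left₀ (norm_nonneg _) (hPD _) 2) (decay_nonneg _ _)
  have hJ : 0 ≤ ∫ v, decay m v := integral_nonneg (decay_nonneg m)
  rw [intervalIntegral.integral_of_le (by linarith)]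
  refine (integral_mono_of_nonneg (Eventually.of_forall fun t => sq_nonneg _)
    ((hI2.integral_prod_left).const_mul _) (Eventually.of_forall hpt)).trans ?_
  rw [integral_const_mul, sq, mul_assoc]
  refine mul_le_mul_of_nonneg_left ?_ hJ
  show ∫ t in Set.Ioc T (2 * T), ∫ v, decay m v * P (t + v) ^ 2 ≤ _
  rw [integral_integral_swap hI2, ← integral_mul_const]
  refine integral_mono_of_nonneg (Eventually.of_forall fun v => integral_nonneg fun t =>
    mul_nonneg (decay_nonneg _ v) (sq_nonneg _)) ((integrable_decay hm).mul_const M)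
    (Eventually.of_forall fun v => ?_)
  simp only
  rw [integral_const_mul, ← intervalIntegral.integral_of_le (by linarith),
    intervalIntegral.integral_comp_add_right (fun x => P x ^ 2) v]
  refine mul_le_mul_of_nonneg_left (le_trans (le_of_eq ?_) (hM (T + v))) (decay_nonneg _ v)
  congr 1
  ring

/-! ## The two integrals -/

/-- The tail series on `re z = -1/2`. -/
def tailNorm (X : ℕ) (x : ℝ) : ℝ :=
  ‖riemannZeta (1 - ((-1 / 2 : ℂ) + (x : ℂ) * I)) ^ 2 - divPoly X ((-1 / 2 : ℂ) + (x : ℂ) * I)‖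

/-- The head polynomial on `re z = 3/2`. -/
def headNorm (X : ℕ) (x : ℝ) : ℝ := ‖divPoly X ((3 / 2 : ℂ) + (x : ℂ) * I)‖

theorem continuous_tailNorm (X : ℕ) : Continuous (tailNorm X) := by
  refine (Continuous.sub (Continuous.pow (continuous_iff_continuousAt.2 fun x => ?_) 2)
    ((differentiable_divPoly X).continuous.comp (by fun_prop))).norm
  refine ContinuousAt.comp' (g := riemannZeta) (f := fun y : ℝ =>
    1 - ((-1 / 2 : ℂ) + (y : ℂ) * I)) (differentiableAt_riemannZeta fun h => ?_).continuousAt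
    (by fun_prop)
  have := congrArg Complex.re h
  norm_num at this

theorem continuous_headNorm (X : ℕ) : Continuous (headNorm X) :=
  ((differentiable_divPoly X).continuous.comp (by fun_prop)).norm

theorem exists_tail_series : ∃ Z, 0 ≤ Z ∧ ∀ (X : ℕ) (x : ℝ), ‖tailNorm X x‖ ≤ Z + (X : ℝ) ^ 3 ∧
    (∀ M, ‖∑ n ∈ Ioc X M, divCount n * (n : ℂ) ^ ((-3 / 2 : ℂ) + (x : ℂ) * I)‖ ≤ Z) ∧
    Tendsto (fun M => ‖∑ n ∈ Ioc X M, divCount n * (n : ℂ) ^ ((-3 / 2 : ℂ) + (x : ℂ) * I)‖)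
      atTop (𝓝 (tailNorm X x)) := by
  have hs := ((hasSum_zeta_sq (s := (3 / 2 : ℂ)) (by norm_num)).summable.norm)
  obtain ⟨Z, hZ⟩ : ∃ Z, Z = ∑' n : ℕ, ‖divCount (n + 1) * ((n + 1 : ℕ) : ℂ) ^ (-(3 / 2 : ℂ))‖ :=
    ⟨_, rfl⟩
  refine ⟨Z, hZ ▸ tsum_nonneg fun n => norm_nonneg _, fun X x => ?_⟩
  obtain ⟨z, hz⟩ : ∃ z : ℂ, z = (-1 / 2 : ℂ) + (x : ℂ) * I := ⟨_, rfl⟩
  have hzre : z.re = -1 / 2 := by simp [hz]
  have h := hasSum_zeta_sq (s := 1 - z) (by simp [hzre]; norm_num)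
  simp only [neg_sub] at h
  have hnorm : ∀ n : ℕ, ‖divCount (n + 1) * ((n + 1 : ℕ) : ℂ) ^ (z - 1)‖ =
      ‖divCount (n + 1) * ((n + 1 : ℕ) : ℂ) ^ (-(3 / 2 : ℂ))‖ := fun n => by
    rw [norm_mul, norm_mul, norm_natCast_cpow_of_pos n.succ_pos,
      norm_natCast_cpow_of_pos n.succ_pos]
    norm_num [hzre]
  have hsum : ∀ M, ∑ n ∈ range M, divCount (n + 1) * ((n + 1 : ℕ) : ℂ) ^ (z - 1) =
      ∑ n ∈ Icc 1 M, divCount n * (n : ℂ) ^ (z - 1) := fun M => by
    refine sum_nbij' (fun n => n + 1) (fun n => n - 1) ?_ ?_ ?_ ?_ ?_ <;> intro n hn <;>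
      simp only [mem_range, mem_Icc] at * <;> first | omega | simp
  have e : (-3 / 2 : ℂ) + (x : ℂ) * I = z - 1 := by rw [hz]; ring
  have hζ : ‖riemannZeta (1 - z) ^ 2‖ ≤ Z := by
    rw [← h.tsum_eq, hZ]
    exact tsum_of_norm_bounded hs.hasSum fun n => (hnorm n).le
  refine ⟨?_, fun M => ?_, ?_⟩
  · rw [Real.norm_eq_abs, tailNorm, abs_norm, ← hz]
    exact (norm_sub_le _ _).trans (add_le_add hζ (norm_divPoly_le X (by rw [hzre]; norm_num)))
  · rw [e]
    refine (norm_sum_le _ _).trans ((sum_le_sum_of_subset_of_nonneg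
      (show Ioc X M ⊆ Icc 1 M from fun n hn => by
        have := mem_Ioc.1 hn
        exact mem_Icc.2 ⟨by omega, this.2⟩) fun n _ _ => norm_nonneg _).trans ?_)
    rw [hZ]
    refine le_trans (le_of_eq ?_) (hs.sum_le_tsum (range M) fun n _ => norm_nonneg _)
    simp only [← hnorm]
    symm
    refine sum_nbij' (fun n => n + 1) (fun n => n - 1) ?_ ?_ ?_ ?_ ?_ <;> intro n hn <;>
      simp only [mem_range, mem_Icc] at * <;> first | omega | simp
  · rw [tailNorm, ← hz, e]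
    refine Tendsto.norm ((Tendsto.sub_const (h.tendsto_sum_nat) (divPoly X z)).congr' ?_)
    filter_upwards [eventually_ge_atTop X] with M hM
    rw [hsum, divPoly, sub_eq_iff_eq_add',
      ← sum_union (disjoint_left.2 fun a ha hb => by
        have := (mem_Icc.1 ha).2
        have := (mem_Ioc.1 hb).1
        omega)]
    refine sum_congr ?_ fun n _ => rfl
    ext n
    simp only [mem_union, mem_Icc, mem_Ioc]
    omega

theorem exists_tailNorm_sq_le : ∃ C, 0 ≤ C ∧ ∀ (X : ℕ) (T : ℝ), 0 < X → (X : ℝ) ≤ T →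
    T ≤ 2 * X → ∀ u, ∫ x in u..u + T, tailNorm X x ^ 2 ≤ C * logOne X ^ 3 / T := by
  obtain ⟨C, hC0, hC⟩ := exists_sum_dsq_tail
  obtain ⟨Z, -, hZ⟩ := exists_tail_series
  refine ⟨42 * C, by positivity, fun X T hX hXT hTX u => ?_⟩
  have hX' : (0 : ℝ) < X := Nat.cast_pos.2 hX
  have hT : 0 < T := hX'.trans_le hXT
  refine le_of_tendsto (x := (atTop : Filter ℕ)) (f := fun M => ∫ x in u..u + T,
      ‖∑ n ∈ Ioc X M, divCount n * (n : ℂ) ^ ((-3 / 2 : ℂ) + (x : ℂ) * I)‖ ^ 2) ?_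
    (Eventually.of_forall fun M => ?_)
  · refine intervalIntegral.tendsto_integral_filter_of_dominated_convergence (fun _ => Z ^ 2)
      (Eventually.of_forall fun M => ?_) (Eventually.of_forall fun M =>
        Eventually.of_forall fun x _ => ?_) intervalIntegrable_const
      (Eventually.of_forall fun x _ => ((hZ X x).2.2.pow 2))
    · refine (((continuous_finsetSum _ fun n hn => continuous_const.mul
        ((by fun_prop : Continuous fun x : ℝ => (-3 / 2 : ℂ) + (x : ℂ) * I).const_cpow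
          (Or.inl (Nat.cast_ne_zero.2 (show n ≠ 0 by
            have := (mem_Ioc.1 hn).1; omega))))).norm).pow 2).aestronglyMeasurable
    · rw [norm_pow, norm_norm]
      exact pow_le_pow_left₀ (norm_nonneg _) ((hZ X x).2.1 M) 2
  obtain ⟨a, ha⟩ : ∃ a : ℕ → ℂ, a = fun n => divCount n * (n : ℂ) ^ (-3 / 2 : ℂ) := ⟨_, rfl⟩
  have e : ∀ x : ℝ, ∑ n ∈ Ioc X M, divCount n * (n : ℂ) ^ ((-3 / 2 : ℂ) + (x : ℂ) * I) =
      ∑ n ∈ Ioc X M, a n * (n : ℂ) ^ (I * (x : ℂ)) := fun x => sum_congr rfl fun n hn => by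
    rw [ha, Complex.cpow_add _ _ (Nat.cast_ne_zero.2 (show n ≠ 0 by
      have := (mem_Ioc.1 hn).1; omega)), mul_comm (x : ℂ) I, mul_assoc]
  simp only [e]
  refine (integral_poly_sq_le' a (Ioc X M) (fun n hn => by have := (mem_Ioc.1 hn).1; omega) hT.le
    u).trans ((sum_le_sum (g := fun n : ℕ => 21 * ((n.divisors.card : ℝ) ^ 2 / (n : ℝ) ^ 2))
      fun n hn => ?_).trans ?_)
  · have hn0 : 0 < n := by have := (mem_Ioc.1 hn).1; omega
    have hn' : (0 : ℝ) < n := Nat.cast_pos.2 hn0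
    have hTn : T + 19 * n ≤ 21 * n := by
      have : (X : ℝ) ≤ n := Nat.cast_le.2 (mem_Ioc.1 hn).1.le
      linarith
    rw [ha, norm_mul, norm_divCount, norm_natCast_cpow_of_pos hn0, mul_pow,
      ← Real.rpow_natCast ((n : ℝ) ^ _) 2, ← Real.rpow_mul hn'.le]
    norm_num
    refine (mul_le_mul_of_nonneg_right hTn (by positivity)).trans (le_of_eq ?_)
    rw [show ((n : ℝ) ^ 3)⁻¹ = ((n : ℝ) ^ 2)⁻¹ * (n : ℝ)⁻¹ by rw [← mul_inv]; ring]
    field_simp
  · rw [← mul_sum]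
    refine (mul_le_mul_of_nonneg_left (hC X M hX) (by norm_num)).trans ?_
    rw [le_div_iff₀ hT, mul_div_assoc', div_mul_eq_mul_div, div_le_iff₀ hX']
    have h0 : 0 ≤ C * logOne X ^ 3 := mul_nonneg hC0 (pow_nonneg (zero_le_one.trans
      (one_le_logOne X)) 3)
    nlinarith [mul_le_mul_of_nonneg_left hTX h0]

theorem headNorm_sq_le {X : ℕ} {T : ℝ} (hXT : (X : ℝ) ≤ T) (u : ℝ) :
    ∫ x in u..u + T, headNorm X x ^ 2 ≤ 20 * T ^ 3 * logOne X ^ 3 := by
  have hT : 0 ≤ T := (Nat.cast_nonneg X).trans hXT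
  obtain ⟨a, ha⟩ : ∃ a : ℕ → ℂ, a = fun n => divCount n * (n : ℂ) ^ (1 / 2 : ℂ) := ⟨_, rfl⟩
  have e : ∀ x : ℝ, headNorm X x = ‖∑ n ∈ Icc 1 X, a n * (n : ℂ) ^ (I * (x : ℂ))‖ := fun x => by
    rw [headNorm, divPoly]
    refine congrArg norm (sum_congr rfl fun n hn => ?_)
    rw [ha, mul_assoc, ← Complex.cpow_add _ _ (Nat.cast_ne_zero.2 (show n ≠ 0 by
      have := (mem_Icc.1 hn).1; omega))]
    congr 2
    ring
  simp only [e]
  refine (integral_poly_sq_le' a (Icc 1 X) (fun n hn => (mem_Icc.1 hn).1) hT u).trans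
    ((sum_le_sum (g := fun n : ℕ => 20 * T * ((n.divisors.card : ℝ) ^ 2 * (n : ℝ) ^ 1))
      fun n hn => ?_).trans ?_)
  · obtain ⟨h1, h2⟩ := mem_Icc.1 hn
    have hn' : (n : ℝ) ≤ T := (Nat.cast_le.2 h2).trans hXT
    rw [ha, norm_mul, norm_divCount, norm_natCast_cpow_of_pos h1, mul_pow,
      ← Real.rpow_natCast ((n : ℝ) ^ _) 2, ← Real.rpow_mul (Nat.cast_nonneg n)]
    norm_num
    exact mul_le_mul_of_nonneg_right (by linarith) (by positivity)
  · rw [← mul_sum, show Icc 1 X = Ioc 0 X from rfl]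
    refine (mul_le_mul_of_nonneg_left (sum_dsq_mul_pow_le X 1) (by positivity)).trans ?_
    have := mul_le_mul_of_nonneg_right (pow_le_pow_left₀ (Nat.cast_nonneg X) hXT 2)
      (pow_nonneg (zero_le_one.trans (one_le_logOne X)) 3)
    calc _ ≤ 20 * T * (T ^ 2 * logOne X ^ 3) := mul_le_mul_of_nonneg_left this (by positivity)
      _ = _ := by ring

theorem norm_terms_le {X : ℕ} {T t : ℝ} (hT : 1 ≤ T) (ht : T ≤ t) (ht' : t ≤ 2 * T) (v : ℝ) :
    ‖tailTerm X (Real.log T) t v‖ ≤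
        18 * kernelConst * T * (decay (kernelDeg - 2) v * tailNorm X (t + v)) ∧
    ‖headTerm X (Real.log T) t v‖ ≤
        64 * π ^ 2 * kernelConst / T * (decay (kernelDeg - 2) v * headNorm X (t + v)) := by
  have hK := zero_le_one.trans one_le_kernelConst
  have hT0 : 0 < T := by linarith
  have hk2 : 2 ≤ kernelDeg := two_le_kernelDeg
  have he : Real.exp (1 / 10) ≤ 2 := by
    have := Real.exp_bound_div_one_sub_of_interval (show (0 : ℝ) ≤ 1 / 10 by norm_num)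
      (show (1 / 10 : ℝ) < 1 by norm_num)
    exact this.trans (by norm_num)
  have kL : ‖kern (-1) (-Real.log T) v‖ ≤ 2 / T * kernelConst * decay kernelDeg v := by
    refine (norm_kern_le (by norm_num) _ v).trans (mul_le_mul_of_nonneg_right ?_ (decay_nonneg _ _))
    rw [abs_neg, abs_one, div_one, Real.exp_add, show -(-Real.log T) * (-1) = -Real.log T by ring,
      Real.exp_neg, Real.exp_log hT0]
    refine mul_le_mul_of_nonneg_right ?_ hK
    rw [div_eq_inv_mul 2 T]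
    exact mul_le_mul_of_nonneg_left he (inv_nonneg.2 hT0.le)
  have kR : ‖kern 1 (-Real.log T) v‖ ≤ 2 * T * kernelConst * decay kernelDeg v := by
    refine (norm_kern_le one_ne_zero _ v).trans (mul_le_mul_of_nonneg_right ?_ (decay_nonneg _ _))
    rw [abs_one, div_one, Real.exp_add, neg_neg, mul_one, Real.exp_log hT0]
    refine mul_le_mul_of_nonneg_right ?_ hK
    rw [mul_comm 2 T]
    exact mul_le_mul_of_nonneg_left he hT0.le
  constructor
  · obtain ⟨z, hz⟩ : ∃ z : ℂ, z = (-1 / 2 : ℂ) + ((t + v : ℝ) : ℂ) * I := ⟨_, rfl⟩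
    have hzre : z.re = -1 / 2 := by simp [hz]
    have hzim : z.im = t + v := by simp [hz]
    have hc : ‖chiFac z‖ ≤ 3 * T * (1 + |v|) := by
      rw [norm_chiFac_neg_half hzre]
      refine (div_le_self (norm_nonneg z) (by linarith [Real.pi_gt_three])).trans
        ((norm_le_abs_re_add_abs_im z).trans ?_)
      rw [hzre, hzim]
      norm_num
      nlinarith [abs_add_le t v, abs_of_pos (show (0 : ℝ) < t by linarith), abs_nonneg v]
    rw [tailTerm, norm_mul, norm_mul, norm_pow, tailNorm, ← hz]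
    refine (mul_le_mul (mul_le_mul_of_nonneg_right (pow_le_pow_left₀ (norm_nonneg _) hc 2)
      (norm_nonneg _)) kL (norm_nonneg _) (by positivity)).trans (le_of_eq ?_)
    rw [← pow_mul_decay hk2 v]
    field_simp
    ring
  · obtain ⟨z, hz⟩ : ∃ z : ℂ, z = (3 / 2 : ℂ) + ((t + v : ℝ) : ℂ) * I := ⟨_, rfl⟩
    have hzre : z.re = 3 / 2 := by simp [hz]
    have hzim : z.im = t + v := by simp [hz]
    have hn : T ^ 2 ≤ 8 * (1 + |v|) ^ 2 * ‖z - 1‖ ^ 2 := by
      rw [Complex.sq_norm, normSq_apply, sub_re, sub_im, one_re, one_im, hzre, hzim, sub_zero]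
      have h2 : t ≤ 2 * (1 + |v|) * (1 / 2 + |t + v|) := by
        have := abs_sub (t + v) v
        rw [add_sub_cancel_right, abs_of_pos (show (0 : ℝ) < t by linarith)] at this
        nlinarith [abs_nonneg v, abs_nonneg (t + v)]
      refine (pow_le_pow_left₀ hT0.le ht 2).trans ((pow_le_pow_left₀ (by linarith) h2 2).trans ?_)
      rw [mul_pow, mul_pow]
      have h3 : (1 / 2 + |t + v|) ^ 2 ≤ 2 * (1 / 4 + (t + v) * (t + v)) := by
        nlinarith [sq_nonneg (1 / 2 - |t + v|), sq_abs (t + v)]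
      refine (mul_le_mul_of_nonneg_left h3 (by positivity)).trans (le_of_eq ?_)
      ring
    have hpos : 0 < ‖z - 1‖ := norm_pos_iff.2 (sub_ne_zero.2 fun e => by
      rw [e] at hzre
      norm_num at hzre)
    have hc : ‖chiOne z‖ ^ 2 / ‖z - 1‖ ^ 2 ≤ 32 * π ^ 2 * (1 + |v|) ^ 2 / T ^ 2 := by
      rw [norm_chiOne_right hzre, div_le_div_iff₀ (by positivity) (by positivity)]
      refine (mul_le_mul_of_nonneg_left hn (by positivity)).trans (le_of_eq ?_)
      ring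
    rw [headTerm, norm_mul, norm_mul, norm_div, norm_pow, norm_pow, headNorm, ← hz]
    refine (mul_le_mul (mul_le_mul_of_nonneg_right hc (norm_nonneg _)) kR (norm_nonneg _)
      (by positivity)).trans (le_of_eq ?_)
    rw [← pow_mul_decay hk2 v]
    field_simp
    ring

/-- `∑_{n ≤ Y} d (n) n^(-1/2 - it)`. -/
def shortPoly (Y : ℕ) (t : ℝ) : ℂ :=
  ∑ n ∈ Icc 1 Y, divCount n * (n : ℂ) ^ (-((1 / 2 : ℂ) + (t : ℂ) * I))

theorem continuous_shortPoly (Y : ℕ) : Continuous (shortPoly Y) :=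
  continuous_finsetSum _ fun n hn => continuous_const.mul
    ((by fun_prop : Continuous fun t : ℝ => -((1 / 2 : ℂ) + (t : ℂ) * I)).const_cpow
      (Or.inl (Nat.cast_ne_zero.2 (show n ≠ 0 by have := (mem_Icc.1 hn).1; omega))))

theorem conj_shortPoly (Y : ℕ) (t : ℝ) :
    conj (shortPoly Y t) = divPoly Y ((1 / 2 : ℂ) + (t : ℂ) * I) := by
  rw [shortPoly, divPoly, map_sum]
  refine sum_congr rfl fun n _ => ?_
  rw [map_mul, divCount, Complex.conj_natCast, FA.SelbergCLT.conj_natCast_cpow]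
  congr 2
  simp [map_ofNat, Complex.conj_ofReal]
  ring

theorem range_sq_le {T : ℝ} {K Y : ℕ} (hT : 0 ≤ T) (hY : 0 < Y) (hK : (K : ℝ) ≤ 2 * T)
    {c : ℕ → ℂ} {B : ℝ} (hc : ∀ n, ‖c n‖ ≤ B) :
    ∑ n ∈ Ioc Y K, (T + 19 * n) * ‖divCount n * c n * (n : ℂ) ^ (-(1 / 2 : ℂ))‖ ^ 2 ≤
      78 * B ^ 2 * T ^ 2 / Y * logOne K ^ 3 := by
  refine (sum_le_sum (g := fun n : ℕ => 39 * T * B ^ 2 * ((n.divisors.card : ℝ) ^ 2 / n))
    fun n hn => ?_).trans ?_
  · obtain ⟨h1, h2⟩ := mem_Ioc.1 hn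
    have hn0 : 0 < n := by omega
    have hn' : (n : ℝ) ≤ 2 * T := (Nat.cast_le.2 h2).trans hK
    rw [norm_mul, norm_mul, norm_divCount, norm_natCast_cpow_of_pos hn0, mul_pow, mul_pow,
      ← Real.rpow_natCast ((n : ℝ) ^ _) 2, ← Real.rpow_mul (Nat.cast_nonneg n)]
    norm_num
    rw [Real.rpow_neg_one]
    calc (T + 19 * n) * ((n.divisors.card : ℝ) ^ 2 * ‖c n‖ ^ 2 * (n : ℝ)⁻¹) ≤
          39 * T * ((n.divisors.card : ℝ) ^ 2 * B ^ 2 * (n : ℝ)⁻¹) := by
          refine mul_le_mul (by linarith) (mul_le_mul_of_nonneg_right (mul_le_mul_of_nonneg_left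
            (pow_le_pow_left₀ (norm_nonneg _) (hc n) 2) (sq_nonneg _)) (by positivity))
            (by positivity) (by positivity)
      _ = _ := by ring
  · rw [← mul_sum]
    refine (mul_le_mul_of_nonneg_left (sum_dsq_Ioc_div_le hY K) (by positivity)).trans ?_
    have h := mul_le_mul_of_nonneg_left hK (show 0 ≤ 39 * T * B ^ 2 * (logOne K ^ 3 / Y) from
      mul_nonneg (by positivity) (div_nonneg (pow_nonneg (zero_le_one.trans (one_le_logOne K)) 3)
        (Nat.cast_nonneg Y)))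
    calc _ = 39 * T * B ^ 2 * (logOne K ^ 3 / Y) * K := by ring
      _ ≤ _ := h
      _ = _ := by ring

/-- **The remainder.** -/
theorem exists_square_remainder {c : ℝ} (hc0 : 0 < c) (hc : c ≤ 1 / 2) :
    ∃ C, 0 ≤ C ∧ ∀ T : ℝ, 2 / c ≤ T →
      ∫ t in T..2 * T, ‖riemannZeta ((1 / 2 : ℂ) + t * I) ^ 2 -
          (shortPoly ⌊c * T⌋₊ t + chiLine t * conj (shortPoly ⌊c * T⌋₊ t))‖ ^ 2 ≤
        C * (T * (1 + Real.log T) ^ 3) := by
  obtain ⟨Cr, hCr0, hid⟩ := exists_square_identity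
  obtain ⟨Ct, hCt0, hCt⟩ := exists_tailNorm_sq_le
  obtain ⟨Z, hZ0, hZ⟩ := exists_tail_series
  obtain ⟨B, hB1, hB⟩ := exists_norm_cutoff_le
  obtain ⟨J, hJ⟩ : ∃ J, J = ∫ v, decay (kernelDeg - 2) v := ⟨_, rfl⟩
  have hm : 2 ≤ kernelDeg - 2 := by have := two_growDeg_le; omega
  have hK := zero_le_one.trans one_le_kernelConst
  have hπ := Real.pi_pos
  refine ⟨5 * (8 * (78 * B ^ 2 * (2 / c)) + 78 * (2 / c) + (18 * kernelConst * J) ^ 2 * Ct +
    (64 * π ^ 2 * kernelConst * J) ^ 2 * 20 + Cr ^ 2), by positivity, fun T hT => ?_⟩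
  have h4T : 4 ≤ T := le_trans (by rw [le_div_iff₀ hc0]; linarith) hT
  have hT0 : 0 < T := by linarith
  obtain ⟨l, hl⟩ : ∃ l, l = Real.log T := ⟨_, rfl⟩
  have hl0 : 0 ≤ l := hl ▸ Real.log_nonneg (by linarith)
  have hexp : Real.exp l = T := hl ▸ Real.exp_log hT0
  obtain ⟨Y, hY⟩ : ∃ Y, Y = ⌊c * T⌋₊ := ⟨_, rfl⟩
  obtain ⟨X, hX⟩ : ∃ X, X = ⌊T⌋₊ := ⟨_, rfl⟩
  obtain ⟨N, hN⟩ : ∃ N, N = ⌊Real.exp (l + 1 / 10)⌋₊ := ⟨_, rfl⟩
  rw [← hY]
  have hcT : 2 ≤ c * T := by rw [div_le_iff₀ hc0] at hT; linarith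
  have hY1 : c * T / 2 ≤ Y := by
    have := Nat.lt_floor_add_one (c * T)
    rw [← hY] at this
    linarith
  have hY0 : 0 < Y := by
    have : (0 : ℝ) < Y := lt_of_lt_of_le (by linarith) hY1
    exact_mod_cast this
  have hY2 : (Y : ℝ) ≤ c * T := hY ▸ Nat.floor_le (by positivity)
  have hXT : (X : ℝ) ≤ T := hX ▸ Nat.floor_le hT0.le
  have hTX : T ≤ 2 * X := by
    have := Nat.lt_floor_add_one T
    rw [← hX] at this
    linarith
  have hX0 : 0 < X := hX ▸ Nat.le_floor (by norm_num; linarith)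
  have hYX : Y ≤ X := hY ▸ hX ▸ Nat.floor_le_floor (mul_le_of_le_one_left hT0.le (by linarith))
  have hN2 : (N : ℝ) ≤ 2 * T := by
    refine (hN ▸ Nat.floor_le (Real.exp_pos _).le).trans ?_
    rw [Real.exp_add, hexp, mul_comm 2 T]
    refine mul_le_mul_of_nonneg_left ?_ hT0.le
    have := Real.exp_bound_div_one_sub_of_interval (show (0 : ℝ) ≤ 1 / 10 by norm_num)
      (show (1 / 10 : ℝ) < 1 by norm_num)
    exact this.trans (by norm_num)
  have hYN : Y ≤ N := hY ▸ hN ▸ Nat.floor_le_floor (by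
    rw [Real.exp_add, hexp]
    refine (mul_le_of_le_one_left hT0.le (show c ≤ 1 by linarith)).trans
      (le_mul_of_one_le_right hT0.le ?_)
    exact Real.one_le_exp (by norm_num))
  obtain ⟨L, hL⟩ : ∃ L, L = 1 + l := ⟨_, rfl⟩
  have hlogX : logOne X ≤ L := by
    rw [logOne, hL, hl]
    exact add_le_add le_rfl (Real.log_le_log (Nat.cast_pos.2 hX0) hXT)
  have hlogN : logOne N ≤ 2 * L := by
    rw [logOne, hL, hl]
    have h := Real.log_le_log (Nat.cast_pos.2 (lt_of_lt_of_le hY0 hYN)) hN2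
    rw [Real.log_mul two_ne_zero hT0.ne'] at h
    linarith [Real.log_two_lt_d9]
  rw [← hl, ← hL]
  -- the pieces
  obtain ⟨E₁, hE₁⟩ : ∃ E₁ : ℝ → ℂ, E₁ = fun t : ℝ => ∑ n ∈ Ioc Y N,
      divCount n * cutoff (Real.log n - l) * (n : ℂ) ^ (-(1 / 2 : ℂ)) *
        (n : ℂ) ^ (-(I * (t : ℂ))) := ⟨_, rfl⟩
  obtain ⟨E₂, hE₂⟩ : ∃ E₂ : ℝ → ℂ, E₂ = fun t : ℝ => ∑ n ∈ Ioc Y X,
      divCount n * 1 * (n : ℂ) ^ (-(1 / 2 : ℂ)) * (n : ℂ) ^ (I * (t : ℂ)) := ⟨_, rfl⟩
  have hc1 : Continuous E₁ := by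
    rw [hE₁]
    exact continuous_finsetSum _ fun n hn => continuous_const.mul
      ((by fun_prop : Continuous fun t : ℝ => -(I * (t : ℂ))).const_cpow
        (Or.inl (Nat.cast_ne_zero.2 (show n ≠ 0 by have := (mem_Ioc.1 hn).1; omega))))
  have hc2 : Continuous E₂ := by
    rw [hE₂]
    exact continuous_finsetSum _ fun n hn => continuous_const.mul
      ((by fun_prop : Continuous fun t : ℝ => I * (t : ℂ)).const_cpow
        (Or.inl (Nat.cast_ne_zero.2 (show n ≠ 0 by have := (mem_Ioc.1 hn).1; omega))))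
  have hTI : T + T = 2 * T := by ring
  have i1 : ∫ t in T..2 * T, ‖E₁ t‖ ^ 2 ≤ 8 * (78 * B ^ 2 * (2 / c)) * (T * L ^ 3) := by
    have h := (integral_poly_sq_le (fun n => divCount n * cutoff (Real.log n - l) *
      (n : ℂ) ^ (-(1 / 2 : ℂ))) (Ioc Y N) (fun n hn => by have := (mem_Ioc.1 hn).1; omega) hT0.le
      T).trans (range_sq_le hT0.le hY0 hN2 fun n => hB _)
    rw [hTI] at h
    rw [hE₁]
    refine h.trans ?_
    have h1 : T ^ 2 / Y ≤ 2 / c * T := by
      rw [div_le_iff₀ (Nat.cast_pos.2 hY0)]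
      have := mul_le_mul_of_nonneg_left hY1 (show 0 ≤ 2 / c * T by positivity)
      rw [show 2 / c * T * (c * T / 2) = T ^ 2 by field_simp] at this
      exact this
    have h2 := pow_le_pow_left₀ (zero_le_one.trans (one_le_logOne N)) hlogN 3
    calc 78 * B ^ 2 * T ^ 2 / Y * logOne N ^ 3 = 78 * B ^ 2 * (T ^ 2 / Y) * logOne N ^ 3 := by ring
      _ ≤ 78 * B ^ 2 * (2 / c * T) * (2 * L) ^ 3 := mul_le_mul
          (mul_le_mul_of_nonneg_left h1 (by positivity)) h2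
          (pow_nonneg (zero_le_one.trans (one_le_logOne N)) 3) (by positivity)
      _ = _ := by ring
  have i2 : ∫ t in T..2 * T, ‖E₂ t‖ ^ 2 ≤ 78 * (2 / c) * (T * L ^ 3) := by
    have h := (integral_poly_sq_le' (fun n => divCount n * 1 * (n : ℂ) ^ (-(1 / 2 : ℂ))) (Ioc Y X)
      (fun n hn => by have := (mem_Ioc.1 hn).1; omega) hT0.le T).trans
        (range_sq_le hT0.le hY0 (hXT.trans (by linarith)) (B := 1) fun n => by simp)
    rw [hTI] at h
    rw [hE₂]
    refine h.trans ?_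
    have h1 : T ^ 2 / Y ≤ 2 / c * T := by
      rw [div_le_iff₀ (Nat.cast_pos.2 hY0)]
      have := mul_le_mul_of_nonneg_left hY1 (show 0 ≤ 2 / c * T by positivity)
      rw [show 2 / c * T * (c * T / 2) = T ^ 2 by field_simp] at this
      exact this
    have h2 := pow_le_pow_left₀ (zero_le_one.trans (one_le_logOne X)) hlogX 3
    calc 78 * (1 : ℝ) ^ 2 * T ^ 2 / Y * logOne X ^ 3 = 78 * (T ^ 2 / Y) * logOne X ^ 3 := by ring
      _ ≤ 78 * (2 / c * T) * L ^ 3 := mul_le_mul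
          (mul_le_mul_of_nonneg_left h1 (by positivity)) h2
          (pow_nonneg (zero_le_one.trans (one_le_logOne X)) 3) (by positivity)
      _ = _ := by ring
  have hPt : ∀ x, ‖tailNorm X x‖ ≤ Z + (X : ℝ) ^ 3 := fun x => (hZ X x).1
  have hPh : ∀ x, ‖headNorm X x‖ ≤ (X : ℝ) ^ 3 := fun x => by
    rw [headNorm, norm_norm]
    exact norm_divPoly_le X (by simp; norm_num)
  have i3 : ∫ t in T..2 * T, avg (kernelDeg - 2) (tailNorm X) t ^ 2 ≤
      J ^ 2 * (Ct * L ^ 3 / T) := by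
    rw [hJ]
    refine integral_avg_sq_le hm (continuous_tailNorm X) (fun x => norm_nonneg _) hPt hT0.le
      fun u => (hCt X T hX0 hXT hTX u).trans ?_
    exact div_le_div_of_nonneg_right (mul_le_mul_of_nonneg_left
      (pow_le_pow_left₀ (zero_le_one.trans (one_le_logOne X)) hlogX 3) hCt0) hT0.le
  have i4 : ∫ t in T..2 * T, avg (kernelDeg - 2) (headNorm X) t ^ 2 ≤
      J ^ 2 * (20 * T ^ 3 * L ^ 3) := by
    rw [hJ]
    refine integral_avg_sq_le hm (continuous_headNorm X) (fun x => norm_nonneg _) hPh hT0.le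
      fun u => (headNorm_sq_le hXT u).trans ?_
    exact mul_le_mul_of_nonneg_left
      (pow_le_pow_left₀ (zero_le_one.trans (one_le_logOne X)) hlogX 3) (by positivity)
  obtain ⟨k₃, hk₃⟩ : ∃ k, k = 18 * kernelConst * T := ⟨_, rfl⟩
  obtain ⟨k₄, hk₄⟩ : ∃ k, k = 64 * π ^ 2 * kernelConst / T := ⟨_, rfl⟩
  obtain ⟨F₃, hF₃⟩ : ∃ F : ℝ → ℝ, F = fun t => k₃ * avg (kernelDeg - 2) (tailNorm X) t := ⟨_, rfl⟩
  obtain ⟨F₄, hF₄⟩ : ∃ F : ℝ → ℝ, F = fun t => k₄ * avg (kernelDeg - 2) (headNorm X) t := ⟨_, rfl⟩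
  have hc3 : Continuous F₃ := hF₃ ▸ (continuous_avg hm (continuous_tailNorm X) hPt).const_mul k₃
  have hc4 : Continuous F₄ := hF₄ ▸ (continuous_avg hm (continuous_headNorm X) hPh).const_mul k₄
  obtain ⟨g, hg⟩ : ∃ g : ℝ → ℝ, g = fun t =>
      5 * (‖E₁ t‖ ^ 2 + ‖E₂ t‖ ^ 2 + F₃ t ^ 2 + F₄ t ^ 2 + Cr ^ 2) := ⟨_, rfl⟩
  have hpt : ∀ t ∈ Set.Icc T (2 * T), ‖riemannZeta ((1 / 2 : ℂ) + t * I) ^ 2 -
      (shortPoly Y t + chiLine t * conj (shortPoly Y t))‖ ^ 2 ≤ g t := fun t ht => by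
    obtain ⟨r, hr, he⟩ := hid X l t hl0 (hexp.symm ▸ hXT) (hexp.symm ▸ ht.1)
    have hA : smoothDiv l ((1 / 2 : ℂ) + t * I) = shortPoly Y t + E₁ t := by
      rw [smoothDiv, ← hN, show Finset.Icc 1 N = Ioc 0 N from rfl,
        ← sum_Ioc_consecutive _ (Nat.zero_le Y) hYN, shortPoly, hE₁]
      refine congrArg₂ (· + ·) (sum_congr rfl fun n hn => ?_) (sum_congr rfl fun n hn => ?_)
      · obtain ⟨h1, h2⟩ := mem_Ioc.1 hn
        rw [cutoff_eq_one ?_, mul_one]
        have h3 := Real.log_le_log (Nat.cast_pos.2 h1) ((Nat.cast_le.2 h2).trans hY2)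
        rw [Real.log_mul hc0.ne' hT0.ne', ← hl] at h3
        have h4 := Real.log_le_sub_one_of_pos hc0
        linarith
      · rw [mul_assoc _ ((n : ℂ) ^ (-(1 / 2 : ℂ))), ← Complex.cpow_add _ _
          (Nat.cast_ne_zero.2 (show n ≠ 0 by have := (mem_Ioc.1 hn).1; omega))]
        congr 2
        ring
    have hD : divPoly X ((1 / 2 : ℂ) + t * I) = conj (shortPoly Y t) + E₂ t := by
      rw [conj_shortPoly, divPoly, divPoly, show Finset.Icc 1 X = Ioc 0 X from rfl,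
        ← sum_Ioc_consecutive _ (Nat.zero_le Y) hYX, hE₂]
      refine congrArg₂ (· + ·) rfl (sum_congr rfl fun n hn => ?_)
      rw [mul_one, mul_assoc, ← Complex.cpow_add _ _
        (Nat.cast_ne_zero.2 (show n ≠ 0 by have := (mem_Ioc.1 hn).1; omega))]
      congr 2
      ring
    have h3 : ‖∫ v, tailTerm X l t v‖ ≤ F₃ t := by
      rw [hF₃, hk₃, hl]
      exact norm_integral_le_avg hm (continuous_tailNorm X) hPt
        fun v => (norm_terms_le (by linarith) ht.1 ht.2 v).1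
    have h4 : ‖∫ v, headTerm X l t v‖ ≤ F₄ t := by
      rw [hF₄, hk₄, hl]
      exact norm_integral_le_avg hm (continuous_headNorm X) hPh
        fun v => (norm_terms_le (by linarith) ht.1 ht.2 v).2
    obtain ⟨ta, hta⟩ : ∃ x, x = ∫ v, tailTerm X l t v := ⟨_, rfl⟩
    obtain ⟨hd, hhd⟩ : ∃ x, x = ∫ v, headTerm X l t v := ⟨_, rfl⟩
    rw [← hta] at he h3
    rw [← hhd] at he h4
    have e : riemannZeta ((1 / 2 : ℂ) + t * I) ^ 2 -
        (shortPoly Y t + chiLine t * conj (shortPoly Y t)) =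
        E₁ t + chiLine t * E₂ t + -((2 * π : ℂ)⁻¹ * ta) + -((2 * π : ℂ)⁻¹ * hd) + r := by
      rw [he, hA, hD, chiLine]
      ring
    have hsmall : ∀ x : ℂ, ‖-((2 * π : ℂ)⁻¹ * x)‖ ≤ ‖x‖ := fun x => by
      rw [norm_neg, norm_mul, norm_inv, norm_mul, Complex.norm_two, Complex.norm_real,
        Real.norm_of_nonneg hπ.le]
      exact mul_le_of_le_one_left (norm_nonneg x)
        (inv_le_one_of_one_le₀ (by linarith [Real.pi_gt_three]))
    have key : ‖riemannZeta ((1 / 2 : ℂ) + t * I) ^ 2 -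
        (shortPoly Y t + chiLine t * conj (shortPoly Y t))‖ ≤
        ‖E₁ t‖ + ‖E₂ t‖ + F₃ t + F₄ t + Cr := by
      rw [e]
      refine (norm_add_le _ _).trans (add_le_add ((norm_add_le _ _).trans (add_le_add
        ((norm_add_le _ _).trans (add_le_add ((norm_add_le _ _).trans (add_le_add le_rfl ?_))
          ((hsmall ta).trans h3))) ((hsmall hd).trans h4))) hr)
      rw [norm_mul, norm_chiLine, one_mul]
    refine (pow_le_pow_left₀ (norm_nonneg _) key 2).trans ?_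
    rw [hg]
    have := sq_nonneg (‖E₁ t‖ - ‖E₂ t‖)
    have := sq_nonneg (‖E₁ t‖ - F₃ t)
    have := sq_nonneg (‖E₁ t‖ - F₄ t)
    have := sq_nonneg (‖E₁ t‖ - Cr)
    have := sq_nonneg (‖E₂ t‖ - F₃ t)
    have := sq_nonneg (‖E₂ t‖ - F₄ t)
    have := sq_nonneg (‖E₂ t‖ - Cr)
    have := sq_nonneg (F₃ t - F₄ t)
    have := sq_nonneg (F₃ t - Cr)
    have := sq_nonneg (F₄ t - Cr)
    linarith
  have hlhs : Continuous fun t : ℝ => ‖riemannZeta ((1 / 2 : ℂ) + t * I) ^ 2 -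
      (shortPoly Y t + chiLine t * conj (shortPoly Y t))‖ ^ 2 := by
    refine ((Continuous.sub (Continuous.pow ?_ 2) ((continuous_shortPoly Y).add
      (continuous_chiLine.mul (Complex.continuous_conj.comp (continuous_shortPoly Y))))).norm).pow 2
    have := FA.SelbergCLT.continuous_zetaLine' (σ := 1 / 2) (by norm_num)
    simpa using this
  have q1 : IntervalIntegrable (fun t => ‖E₁ t‖ ^ 2) volume T (2 * T) :=
    (hc1.norm.pow 2).intervalIntegrable _ _
  have q2 : IntervalIntegrable (fun t => ‖E₂ t‖ ^ 2) volume T (2 * T) :=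
    (hc2.norm.pow 2).intervalIntegrable _ _
  have q3 : IntervalIntegrable (fun t => F₃ t ^ 2) volume T (2 * T) :=
    (hc3.pow 2).intervalIntegrable _ _
  have q4 : IntervalIntegrable (fun t => F₄ t ^ 2) volume T (2 * T) :=
    (hc4.pow 2).intervalIntegrable _ _
  refine (intervalIntegral.integral_mono_on (by linarith) (hlhs.intervalIntegrable _ _)
    (hg ▸ ((((q1.add q2).add q3).add q4).add intervalIntegrable_const).const_mul 5) hpt).trans ?_
  simp only [hg]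
  rw [intervalIntegral.integral_const_mul,
    intervalIntegral.integral_add (((q1.add q2).add q3).add q4) intervalIntegrable_const,
    intervalIntegral.integral_add ((q1.add q2).add q3) q4,
    intervalIntegral.integral_add (q1.add q2) q3, intervalIntegral.integral_add q1 q2,
    intervalIntegral.integral_const, smul_eq_mul]
  have i3' : ∫ t in T..2 * T, F₃ t ^ 2 ≤ (18 * kernelConst * J) ^ 2 * Ct * (T * L ^ 3) := by
    simp only [hF₃, mul_pow]
    rw [intervalIntegral.integral_const_mul]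
    refine (mul_le_mul_of_nonneg_left i3 (sq_nonneg k₃)).trans (le_of_eq ?_)
    rw [hk₃]
    field_simp
  have i4' : ∫ t in T..2 * T, F₄ t ^ 2 ≤
      (64 * π ^ 2 * kernelConst * J) ^ 2 * 20 * (T * L ^ 3) := by
    simp only [hF₄, mul_pow]
    rw [intervalIntegral.integral_const_mul]
    refine (mul_le_mul_of_nonneg_left i4 (sq_nonneg k₄)).trans (le_of_eq ?_)
    rw [hk₄]
    field_simp
  have i5 : (2 * T - T) * Cr ^ 2 ≤ Cr ^ 2 * (T * L ^ 3) := by
    have h1 : (1 : ℝ) ≤ L ^ 3 := one_le_pow₀ (by rw [hL]; linarith)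
    nlinarith [mul_le_mul_of_nonneg_left h1 (show 0 ≤ Cr ^ 2 * T by positivity)]
  linarith

end FA.FourthMoment
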