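import Fermat.Agent.FourthMoment.DoublePole
import Fermat.Agent.FourthMoment.Phase
import Fermat.Agent.DedekindPrimeIdeals.ZetaBound

/-!
# A smooth approximate functional equation for `ζ (1/2 + it) ^ 2`

For `e^l ≤ t` and `X ≤ e^l`, `ζ (s) ^ 2` is `∑ d (n) n^(-s)` smoothly cut at `e^l`, plus
`χ (s) ^ 2 ∑_{n ≤ X} d (n) n^(s - 1)`, minus two integrals, up to a bounded error.
-/

set_option autoImplicit false

noncomputable section

namespace FA.FourthMoment

open Complex Filter MeasureTheory Set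
open FA.SelbergCLT
open scoped Topology Real ArithmeticFunction.zeta

theorem growDeg_le : growDeg ≤ 40 := by
  refine Nat.ceil_le.2 ?_
  have h := FA.DedekindPIT.eulerConst_le (show (1 : ℝ) < 5 by norm_num)
  norm_num [FA.DedekindZF.growA] at h ⊢
  linarith

theorem two_growDeg_le : 2 * growDeg + 8 + 2 ≤ kernelDeg := by
  have := growDeg_add_le
  have := growDeg_le
  omega

/-- `d (n)`. -/
def divCount (n : ℕ) : ℂ := (n.divisors.card : ℂ)

theorem norm_divCount (n : ℕ) : ‖divCount n‖ = (n.divisors.card : ℝ) := by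
  rw [divCount, Complex.norm_natCast]

/-- **The Dirichlet series of `ζ ^ 2`.** -/
theorem hasSum_zeta_sq {s : ℂ} (hs : 1 < s.re) :
    HasSum (fun n : ℕ => divCount (n + 1) * ((n + 1 : ℕ) : ℂ) ^ (-s)) (riemannZeta s ^ 2) := by
  have h := (ArithmeticFunction.LSeriesHasSum_zeta hs).convolution
    (ArithmeticFunction.LSeriesHasSum_zeta hs)
  have h' := (hasSum_nat_add_iff' 1).2 h
  rw [Finset.sum_range_one, LSeries.term_zero, sub_zero, ← sq] at h'
  refine h'.congr_fun fun n => ?_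
  rw [LSeries.term_of_ne_zero (Nat.succ_ne_zero n), LSeries.convolution_def, div_eq_mul_inv,
    ← cpow_neg]
  congr 1
  simp only
  rw [divCount, ← Nat.map_div_right_divisors, Finset.sum_map, Finset.card_eq_sum_ones,
    Nat.cast_sum]
  refine Finset.sum_congr rfl fun d hd => ?_
  have hd' := Nat.mem_divisors.1 hd
  have h1 : d ≠ 0 := (Nat.pos_of_mem_divisors hd).ne'
  have h2 : (n + 1) / d ≠ 0 :=
    (Nat.div_pos (Nat.le_of_dvd (Nat.succ_pos n) hd'.1) (Nat.pos_of_mem_divisors hd)).ne'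
  simp [ArithmeticFunction.zeta_apply_ne h1, ArithmeticFunction.zeta_apply_ne h2]

/-- `∑_{n ≤ X} d (n) n^(z - 1)`. -/
def divPoly (X : ℕ) (z : ℂ) : ℂ := ∑ n ∈ Finset.Icc 1 X, divCount n * (n : ℂ) ^ (z - 1)

/-- The smoothly cut series. -/
def smoothDiv (l : ℝ) (s : ℂ) : ℂ :=
  ∑ n ∈ Finset.Icc 1 ⌊Real.exp (l + 1 / 10)⌋₊,
    divCount n * cutoff (Real.log n - l) * (n : ℂ) ^ (-s)

/-- `e^(l w) g₀ w`. -/
def wt (l : ℝ) (w : ℂ) : ℂ := cexp ((l : ℂ) * w) * g₀ w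

theorem differentiable_wt (l : ℝ) : Differentiable ℂ (wt l) :=
  (by fun_prop : Differentiable ℂ fun w : ℂ => cexp ((l : ℂ) * w)).mul differentiable_g₀

theorem differentiable_divPoly (X : ℕ) : Differentiable ℂ (divPoly X) := by
  unfold divPoly
  exact Differentiable.fun_sum fun n hn => ((differentiable_id.sub_const 1).const_cpow
    (Or.inl (Nat.cast_ne_zero.2 (show n ≠ 0 by
      have := (Finset.mem_Icc.1 hn).1; omega)))).const_mul _

theorem norm_divPoly_le (X : ℕ) {z : ℂ} (hz : z.re ≤ 2) : ‖divPoly X z‖ ≤ (X : ℝ) ^ 3 := by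
  refine (norm_sum_le_of_le _ (n := fun _ => (X : ℝ) ^ 2) fun n hn => ?_).trans (le_of_eq ?_)
  · obtain ⟨h1, h2⟩ := Finset.mem_Icc.1 hn
    rw [norm_mul, norm_divCount, norm_natCast_cpow_of_pos h1, sq, sub_re, one_re]
    refine mul_le_mul ((Nat.cast_le.2 n.card_divisors_le_self).trans (Nat.cast_le.2 h2)) ?_
      (Real.rpow_nonneg (Nat.cast_nonneg n) _) (Nat.cast_nonneg X)
    calc (n : ℝ) ^ (z.re - 1) ≤ (n : ℝ) ^ (1 : ℝ) :=
          Real.rpow_le_rpow_of_exponent_le (Nat.one_le_cast.2 h1) (by linarith)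
      _ = n := Real.rpow_one _
      _ ≤ X := Nat.cast_le.2 h2
  · simp
    ring

/-- The factor for `ζ ^ 2`. -/
def zetaPhi (l : ℝ) (s w : ℂ) : ℂ := riemannZeta₁ (s + w) ^ 2 * wt l w

/-- The factor for the head. -/
def headPhi (l : ℝ) (X : ℕ) (s w : ℂ) : ℂ :=
  chiOne (s + w) ^ 2 * divPoly X (s + w) * wt l w

theorem differentiable_zetaPhi (l : ℝ) (s : ℂ) : Differentiable ℂ (zetaPhi l s) :=
  ((differentiable_riemannZeta₁.comp (differentiable_id.const_add s)).pow 2).mul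
    (differentiable_wt l)

theorem differentiableOn_headPhi (l : ℝ) (X : ℕ) {s : ℂ} (hs : s.re = 1 / 2) :
    DifferentiableOn ℂ (headPhi l X s) {w : ℂ | w.re < 3 / 2} := fun w hw => by
  have hw' : w.re < 3 / 2 := hw
  refine (((DifferentiableAt.comp (g := chiOne) (f := fun y : ℂ => s + y) w
    (differentiableAt_chiOne (by simp [hs]; linarith)) (differentiableAt_id.const_add s)).pow 2).mul
      ((differentiable_divPoly X _).comp w (differentiableAt_id.const_add s)) |>.mul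
        (differentiable_wt l w)).differentiableWithinAt

theorem norm_wt_le (l : ℝ) {w : ℂ} (hw : |w.re| ≤ 1) :
    ‖wt l w‖ ≤ 2 * kernelConst * Real.exp (l * w.re) * decay kernelDeg w.im := by
  rw [wt, norm_mul, Complex.norm_exp, re_ofReal_mul]
  refine (mul_le_mul_of_nonneg_left (norm_g₀_le w) (Real.exp_pos _).le).trans ?_
  have h1 : Real.exp (|w.re| / 10) ≤ 2 := by
    refine (Real.exp_le_exp.2 (show |w.re| / 10 ≤ 1 / 10 by linarith)).trans ?_
    have := Real.exp_bound_div_one_sub_of_interval (show (0 : ℝ) ≤ 1 / 10 by norm_num)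
      (show (1 / 10 : ℝ) < 1 by norm_num)
    exact this.trans (by norm_num)
  rw [show 2 * kernelConst * Real.exp (l * w.re) * decay kernelDeg w.im =
    Real.exp (l * w.re) * (kernelConst * 2 * decay kernelDeg w.im) by ring]
  exact mul_le_mul_of_nonneg_left (mul_le_mul_of_nonneg_right
    (mul_le_mul_of_nonneg_left h1 (zero_le_one.trans one_le_kernelConst)) (decay_nonneg _ _))
    (Real.exp_pos _).le

theorem quarter_le_norm_den {t u v : ℝ}
    (h : u = -1 ∨ u = 1 ∨ |t| + 1 ≤ |v|) {ρ : ℂ} (hre : ρ.re = 1 / 2) (him : ρ.im = -t) :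
    1 / 4 ≤ ‖((u : ℂ) + (v : ℂ) * I - ρ) ^ 2 * ((u : ℂ) + (v : ℂ) * I)‖ := by
  obtain ⟨w, hw⟩ : ∃ w : ℂ, w = (u : ℂ) + (v : ℂ) * I := ⟨_, rfl⟩
  have hwre : w.re = u := by simp [hw]
  have hwim : w.im = v := by simp [hw]
  have key : 1 / 2 ≤ ‖w - ρ‖ ∧ 1 ≤ ‖w‖ := by
    rcases h with h | h | h
    · refine ⟨le_trans ?_ (abs_re_le_norm _), le_trans ?_ (abs_re_le_norm _)⟩ <;>
        simp [hwre, hre, h]; norm_num
    · refine ⟨le_trans ?_ (abs_re_le_norm _), le_trans ?_ (abs_re_le_norm _)⟩ <;>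
        simp [hwre, hre, h]; norm_num
    · refine ⟨le_trans ?_ (abs_im_le_norm _), le_trans ?_ (abs_im_le_norm _)⟩
      · rw [sub_im, hwim, him, sub_neg_eq_add]
        have := abs_sub_abs_le_abs_sub v (-t)
        rw [abs_neg, sub_neg_eq_add] at this
        linarith
      · rw [hwim]
        linarith [abs_nonneg t]
  rw [← hw, norm_mul, norm_pow]
  calc (1 / 4 : ℝ) = (1 / 2) ^ 2 * 1 := by norm_num
    _ ≤ _ := mul_le_mul (pow_le_pow_left₀ (by norm_num) key.1 2) key.2 zero_le_one (by positivity)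

theorem norm_doubleKer_le {t u v M : ℝ} (h : u = -1 ∨ u = 1 ∨ |t| + 1 ≤ |v|) {ρ : ℂ}
    (hre : ρ.re = 1 / 2) (him : ρ.im = -t) {Φ : ℂ → ℂ}
    (hM : ‖Φ ((u : ℂ) + (v : ℂ) * I)‖ ≤ M) :
    ‖doubleKer Φ ρ ((u : ℂ) + (v : ℂ) * I)‖ ≤ 4 * M := by
  have hq := quarter_le_norm_den h hre him
  rw [doubleKer, norm_div, div_le_iff₀ (by linarith)]
  have := (norm_nonneg _).trans hM
  refine hM.trans (le_trans (le_of_eq ?_) (mul_le_mul_of_nonneg_left hq (by positivity)))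
  ring

theorem shift_pow_le (t v : ℝ) (c : ℝ) (hc : 1 ≤ c) (k : ℕ) :
    (|t + v| + c) ^ k ≤ (|t| + c) ^ k * (1 + |v|) ^ k := by
  rw [← mul_pow]
  refine pow_le_pow_left₀ (add_nonneg (abs_nonneg _) (by linarith)) ?_ k
  nlinarith [abs_add_le t v, abs_nonneg t, abs_nonneg v]

/-- The contour data. -/
theorem contour_bounds {l t : ℝ} (hl : 0 ≤ l) (X : ℕ) :
    (∃ C, ∀ u v : ℝ, u ∈ Icc (-1) 1 → (u = -1 ∨ u = 1 ∨ |(1 - ((1 / 2 : ℂ) + t * I)).im| + 1 ≤ |v|) →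
      ‖doubleKer (zetaPhi l ((1 / 2 : ℂ) + t * I)) (1 - ((1 / 2 : ℂ) + t * I))
        ((u : ℂ) + (v : ℂ) * I)‖ ≤ C * decay (kernelDeg - 2 * growDeg) v) ∧
    ∃ C, ∀ u v : ℝ, u ∈ Icc (-1) 1 → (u = -1 ∨ u = 1 ∨ |(1 - ((1 / 2 : ℂ) + t * I)).im| + 1 ≤ |v|) →
      ‖doubleKer (headPhi l X ((1 / 2 : ℂ) + t * I)) (1 - ((1 / 2 : ℂ) + t * I))
        ((u : ℂ) + (v : ℂ) * I)‖ ≤ C * decay (kernelDeg - 8) v := by
  have hre : (1 - ((1 / 2 : ℂ) + t * I)).re = 1 / 2 := by simp; norm_num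
  have him : (1 - ((1 / 2 : ℂ) + t * I)).im = -t := by simp
  obtain ⟨A, hA, hchi⟩ := exists_chiOne_le
  have hK := zero_le_one.trans one_le_kernelConst
  have hwt : ∀ u v : ℝ, u ∈ Icc (-1) 1 → ‖wt l ((u : ℂ) + (v : ℂ) * I)‖ ≤
      2 * kernelConst * Real.exp l * decay kernelDeg v := fun u v hu => by
    refine (norm_wt_le l (by simpa [abs_le] using hu)).trans ?_
    simp only [add_re, ofReal_re, mul_re, I_re, mul_zero, ofReal_im, I_im, mul_one, sub_self,
      add_zero, add_im, mul_im, zero_add]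
    refine mul_le_mul_of_nonneg_right (mul_le_mul_of_nonneg_left
      (Real.exp_le_exp.2 (mul_le_of_le_one_right hl hu.2)) (by positivity)) (decay_nonneg _ _)
  have hzre : ∀ u v : ℝ, ((1 / 2 : ℂ) + t * I + ((u : ℂ) + (v : ℂ) * I)).re = 1 / 2 + u :=
    fun u v => by simp
  have hzim : ∀ u v : ℝ, ((1 / 2 : ℂ) + t * I + ((u : ℂ) + (v : ℂ) * I)).im = t + v :=
    fun u v => by simp
  refine ⟨⟨4 * ((Real.exp growDeg * (|t| + 3) ^ growDeg) ^ 2 * (2 * kernelConst * Real.exp l)),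
    fun u v hu h => ?_⟩, ⟨4 * ((A * (|t| + 4) ^ 4) ^ 2 * (X : ℝ) ^ 3 *
      (2 * kernelConst * Real.exp l)), fun u v hu h => ?_⟩⟩
  all_goals rw [him, abs_neg] at h
  · refine (norm_doubleKer_le h hre him (M := (Real.exp growDeg * (|t + v| + 3) ^ growDeg) ^ 2 *
      (2 * kernelConst * Real.exp l * decay kernelDeg v)) ?_).trans ?_
    · rw [zetaPhi, norm_mul, norm_pow]
      refine mul_le_mul (pow_le_pow_left₀ (norm_nonneg _) ((norm_riemannZeta₁_le
        (by rw [hzre]; constructor <;> linarith [hu.1, hu.2])).trans_eq (by rw [hzim])) 2)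
        (hwt u v hu) (norm_nonneg _) (by positivity)
    · have h1 := mul_le_mul_of_nonneg_left (shift_pow_le t v 3 (by norm_num) growDeg)
        (Real.exp_pos growDeg).le
      have h2 := pow_le_pow_left₀ (by positivity) h1 2
      have hd := decay_nonneg kernelDeg v
      refine (mul_le_mul_of_nonneg_left (mul_le_mul_of_nonneg_right h2 (by positivity))
        (by norm_num)).trans (le_of_eq ?_)
      rw [← pow_mul_decay (show 2 * growDeg ≤ kernelDeg by have := two_growDeg_le; omega) v]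
      ring
  · refine (norm_doubleKer_le h hre him (M := (A * (|t + v| + 4) ^ 4) ^ 2 * (X : ℝ) ^ 3 *
      (2 * kernelConst * Real.exp l * decay kernelDeg v)) ?_).trans ?_
    · rw [headPhi, norm_mul, norm_mul, norm_pow]
      refine mul_le_mul (mul_le_mul (pow_le_pow_left₀ (norm_nonneg _) ((hchi _
        (by rw [hzre]; constructor <;> linarith [hu.1, hu.2])).trans_eq (by rw [hzim])) 2)
        (norm_divPoly_le X (by rw [hzre]; linarith [hu.2])) (norm_nonneg _) (by positivity))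
        (hwt u v hu) (norm_nonneg _) (by positivity)
    · have h1 := mul_le_mul_of_nonneg_left (shift_pow_le t v 4 (by norm_num) 4) hA
      have h2 := pow_le_pow_left₀ (by positivity) h1 2
      have hd := decay_nonneg kernelDeg v
      refine (mul_le_mul_of_nonneg_left (mul_le_mul_of_nonneg_right (mul_le_mul_of_nonneg_right h2
        (by positivity)) (by positivity)) (by norm_num)).trans (le_of_eq ?_)
      rw [← pow_mul_decay (show 8 ≤ kernelDeg by have := two_growDeg_le; omega) v]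
      ring

/-- The residue of order two is small. -/
theorem norm_residue_le {Φ : ℂ → ℂ} {ρ : ℂ} {M : ℝ} (hρ : 1 / 2 ≤ ‖ρ‖)
    (hd : DiffContOnCl ℂ Φ (Metric.ball ρ (1 / 4)))
    (hM : ∀ w ∈ Metric.closedBall ρ (1 / 4), ‖Φ w‖ ≤ M) :
    ‖deriv Φ ρ / ρ - Φ ρ / ρ ^ 2‖ ≤ 12 * M := by
  have h0 := hM ρ (Metric.mem_closedBall_self (by norm_num))
  have hM0 := (norm_nonneg _).trans h0
  have h1 := Complex.norm_deriv_le_of_forall_mem_sphere_norm_le (by norm_num) hd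
    fun w hw => hM w (Metric.sphere_subset_closedBall hw)
  rw [show M / (1 / 4 : ℝ) = 4 * M by ring] at h1
  have hp : 0 < ‖ρ‖ := by linarith
  refine (norm_sub_le _ _).trans ?_
  rw [norm_div, norm_div, norm_pow]
  have h2 : ‖deriv Φ ρ‖ / ‖ρ‖ ≤ 8 * M := by
    rw [div_le_iff₀ hp]
    nlinarith
  have h3 : ‖Φ ρ‖ / ‖ρ‖ ^ 2 ≤ 4 * M := by
    rw [div_le_iff₀ (by positivity)]
    nlinarith [pow_le_pow_left₀ (by norm_num) hρ 2]
  linarith

theorem exists_residues_le : ∃ C, 0 ≤ C ∧ ∀ (X : ℕ) (l t : ℝ), 0 ≤ l → (X : ℝ) ≤ Real.exp l →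
    Real.exp l ≤ t →
    ‖deriv (zetaPhi l ((1 / 2 : ℂ) + t * I)) (1 - ((1 / 2 : ℂ) + t * I)) /
        (1 - ((1 / 2 : ℂ) + t * I)) -
      zetaPhi l ((1 / 2 : ℂ) + t * I) (1 - ((1 / 2 : ℂ) + t * I)) /
        (1 - ((1 / 2 : ℂ) + t * I)) ^ 2‖ ≤ C ∧
    ‖deriv (headPhi l X ((1 / 2 : ℂ) + t * I)) (1 - ((1 / 2 : ℂ) + t * I)) /
        (1 - ((1 / 2 : ℂ) + t * I)) -
      headPhi l X ((1 / 2 : ℂ) + t * I) (1 - ((1 / 2 : ℂ) + t * I)) /
        (1 - ((1 / 2 : ℂ) + t * I)) ^ 2‖ ≤ C := by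
  obtain ⟨A, hA, hchi⟩ := exists_chiOne_le
  have hK := zero_le_one.trans one_le_kernelConst
  obtain ⟨G, hG⟩ : ∃ G, G = (Real.exp growDeg * 4 ^ growDeg) ^ 2 + (A * 5 ^ 4) ^ 2 := ⟨_, rfl⟩
  refine ⟨12 * (G * (2 * kernelConst * 2 ^ 5)), by rw [hG]; positivity,
    fun X l t hl hX ht => ?_⟩
  obtain ⟨ρ, hρ⟩ : ∃ ρ : ℂ, ρ = 1 - ((1 / 2 : ℂ) + t * I) := ⟨_, rfl⟩
  rw [← hρ]
  have ht1 : 1 ≤ t := (Real.one_le_exp hl).trans ht
  have hre : ρ.re = 1 / 2 := by simp [hρ]; norm_num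
  have him : ρ.im = -t := by simp [hρ]
  have hρn : 1 / 2 ≤ ‖ρ‖ := le_trans (by rw [hre]) (re_le_norm ρ)
  have hball : ∀ w ∈ Metric.closedBall ρ (1 / 4),
      (1 / 4 ≤ w.re ∧ w.re ≤ 3 / 4) ∧ |w.im + t| ≤ 1 / 4 := fun w hw => by
    rw [Metric.mem_closedBall, dist_eq_norm] at hw
    have h1 := (abs_re_le_norm _).trans hw
    have h2 := (abs_im_le_norm _).trans hw
    rw [sub_re, hre, abs_le] at h1
    rw [sub_im, him, sub_neg_eq_add] at h2
    exact ⟨⟨by linarith [h1.1], by linarith [h1.2]⟩, h2⟩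
  have hwt : ∀ w ∈ Metric.closedBall ρ (1 / 4), ∀ Y : ℝ, 0 ≤ Y → Y ≤ Real.exp l ^ 3 →
      Y * ‖wt l w‖ ≤ 2 * kernelConst * 2 ^ 5 := fun w hw Y hY0 hY => by
    obtain ⟨⟨w1, w2⟩, w3⟩ := hball w hw
    have hv : t / 2 ≤ 1 + |w.im| := by
      have := abs_le.1 w3
      linarith [neg_le_abs w.im]
    have hd : decay kernelDeg w.im ≤ 2 ^ 5 / t ^ 5 := by
      refine (decay_le_of_le (show 5 ≤ kernelDeg by have := two_growDeg_le; omega) _).trans ?_
      rw [decay, ← inv_div, ← div_pow]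
      exact inv_anti₀ (by positivity) (pow_le_pow_left₀ (by linarith) hv 5)
    have he : Real.exp (l * w.re) ≤ Real.exp l :=
      Real.exp_le_exp.2 (mul_le_of_le_one_right hl (by linarith))
    refine (mul_le_mul_of_nonneg_left ((norm_wt_le l (by rw [abs_le]; constructor <;> linarith)).trans
      (mul_le_mul (mul_le_mul_of_nonneg_left he (by positivity)) hd (decay_nonneg _ _)
        (by positivity))) hY0).trans ?_
    have h5 : Y * Real.exp l ≤ t ^ 5 := by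
      refine (mul_le_mul_of_nonneg_right hY (Real.exp_pos l).le).trans ?_
      rw [← pow_succ]
      exact (pow_le_pow_left₀ (Real.exp_pos l).le ht 4).trans (pow_le_pow_right₀ ht1 (by norm_num))
    rw [show Y * (2 * kernelConst * Real.exp l * (2 ^ 5 / t ^ 5)) =
      2 * kernelConst * 2 ^ 5 * ((Y * Real.exp l) / t ^ 5) by ring]
    exact mul_le_of_le_one_right (by positivity) ((div_le_one (by positivity)).2 h5)
  have hz : ∀ w ∈ Metric.closedBall ρ (1 / 4),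
      ((1 / 2 : ℂ) + t * I + w).re ∈ Icc (3 / 4 : ℝ) (5 / 4) ∧
        |((1 / 2 : ℂ) + t * I + w).im| ≤ 1 / 4 := fun w hw => by
    obtain ⟨⟨w1, w2⟩, w3⟩ := hball w hw
    refine ⟨by simp; constructor <;> linarith, ?_⟩
    simpa [add_comm] using w3
  have hex1 : 1 ≤ Real.exp l := Real.one_le_exp hl
  have hU : IsOpen {w : ℂ | w.re < 3 / 2} := isOpen_lt continuous_re continuous_const
  constructor
  · refine norm_residue_le hρn (differentiable_zetaPhi _ _).diffContOnCl fun w hw => ?_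
    obtain ⟨hz1, hz2⟩ := hz w hw
    have h1 := norm_riemannZeta₁_le (z := (1 / 2 : ℂ) + t * I + w)
      ⟨by linarith [hz1.1], by linarith [hz1.2]⟩
    have h2 : ‖riemannZeta₁ ((1 / 2 : ℂ) + t * I + w)‖ ^ 2 ≤ G := by
      rw [hG]
      refine le_trans (pow_le_pow_left₀ (norm_nonneg _) (h1.trans (mul_le_mul_of_nonneg_left
        (pow_le_pow_left₀ (by positivity) (by linarith) _) (Real.exp_pos _).le)) 2)
        (le_add_of_nonneg_right (sq_nonneg _))
    rw [zetaPhi, norm_mul, norm_pow]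
    exact mul_le_mul h2 (by simpa using hwt w hw 1 zero_le_one (one_le_pow₀ hex1)) (norm_nonneg _)
      ((sq_nonneg _).trans h2)
  · refine norm_residue_le hρn ((differentiableOn_headPhi l X (s := (1 / 2 : ℂ) + t * I)
      (by simp)).mono fun w hw => ?_).diffContOnCl fun w hw => ?_
    · have := (hball w (Metric.closure_ball_subset_closedBall hw)).1.2
      show w.re < 3 / 2
      linarith
    obtain ⟨hz1, hz2⟩ := hz w hw
    have h1 := hchi ((1 / 2 : ℂ) + t * I + w) ⟨by linarith [hz1.1], by linarith [hz1.2]⟩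
    have h2 : ‖chiOne ((1 / 2 : ℂ) + t * I + w)‖ ^ 2 ≤ G := by
      rw [hG]
      refine le_trans (pow_le_pow_left₀ (norm_nonneg _) (h1.trans (mul_le_mul_of_nonneg_left
        (pow_le_pow_left₀ (by positivity) (by linarith) _) hA)) 2)
        (le_add_of_nonneg_left (sq_nonneg _))
    rw [headPhi, norm_mul, norm_mul, norm_pow, mul_assoc]
    refine mul_le_mul h2 ((mul_le_mul_of_nonneg_right (norm_divPoly_le X (by linarith [hz1.2]))
      (norm_nonneg _)).trans (hwt w hw _ (by positivity)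
        (pow_le_pow_left₀ (Nat.cast_nonneg X) hX 3))) (by positivity) ((sq_nonneg _).trans h2)

theorem integral_smoothDiv {l : ℝ} (s : ℂ) (hs : 0 < s.re) :
    ∫ v : ℝ, riemannZeta (s + (1 + (v : ℂ) * I)) ^ 2 * kern 1 (-l) v =
      (2 * π : ℂ) * smoothDiv l s := by
  obtain ⟨F, hF⟩ : ∃ F : ℕ → ℝ → ℂ, F = fun (n : ℕ) (v : ℝ) => divCount (n + 1) *
      ((n + 1 : ℕ) : ℂ) ^ (-(s + (1 + (v : ℂ) * I))) * kern 1 (-l) v := ⟨_, rfl⟩
  obtain ⟨D, hD⟩ : ∃ D, D = Real.exp (-(-l) * 1 + |(1 : ℝ)| / 10) * kernelConst / |(1 : ℝ)| :=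
    ⟨_, rfl⟩
  have hD0 : 0 ≤ D := by
    rw [hD]
    exact div_nonneg (mul_nonneg (Real.exp_pos _).le (zero_le_one.trans one_le_kernelConst))
      (abs_nonneg _)
  obtain ⟨σ, hσ⟩ : ∃ σ : ℝ, σ = s.re + 1 := ⟨_, rfl⟩
  have hbound : ∀ (n : ℕ) (v : ℝ), ‖F n v‖ ≤
      ‖divCount (n + 1) * ((n + 1 : ℕ) : ℂ) ^ (-((σ : ℂ)))‖ * D * decay kernelDeg v := fun n v => by
    rw [hF, norm_mul, norm_mul, norm_mul, norm_natCast_cpow_of_pos n.succ_pos,
      norm_natCast_cpow_of_pos n.succ_pos, mul_assoc (_ * _) D]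
    refine mul_le_mul (le_of_eq (by simp [hσ])) (hD ▸ norm_kern_le one_ne_zero _ v) (norm_nonneg _)
      (by positivity)
  have hcont : ∀ n, Continuous (F n) := fun n => by
    rw [hF]
    exact (continuous_const.mul ((by fun_prop : Continuous fun v : ℝ =>
      -(s + (1 + (v : ℂ) * I))).const_cpow (Or.inl (Nat.cast_ne_zero.2 n.succ_ne_zero)))).mul
        (continuous_kern one_ne_zero _)
  have hint : ∀ n, Integrable (F n) := fun n =>
    integrable_of_decay two_le_kernelDeg (hcont n) (hbound n)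
  have hsum : Summable fun n => ∫ v, ‖F n v‖ := by
    refine Summable.of_nonneg_of_le (fun n => integral_nonneg fun v => norm_nonneg _) (fun n => ?_)
      (((hasSum_zeta_sq (s := (σ : ℂ)) (by simp [hσ]; linarith)).summable.norm.mul_right D).mul_right
        (∫ v, decay kernelDeg v))
    rw [← integral_const_mul]
    exact integral_mono (hint n).norm ((integrable_decay two_le_kernelDeg).const_mul _) (hbound n)
  have e : ∀ v : ℝ, riemannZeta (s + (1 + (v : ℂ) * I)) ^ 2 * kern 1 (-l) v = ∑' n, F n v :=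
    fun v => by
    rw [← (hasSum_zeta_sq (s := s + (1 + (v : ℂ) * I)) (by simp; linarith)).tsum_eq,
      ← tsum_mul_right, hF]
  simp only [e]
  rw [← integral_tsum_of_summable_integral_norm hint hsum]
  have hterm : ∀ n : ℕ, ∫ v, F n v = (2 * π : ℂ) *
      (divCount (n + 1) * cutoff (Real.log (n + 1 : ℕ) - l) * ((n + 1 : ℕ) : ℂ) ^ (-s)) :=
    fun n => by
    have h2π : (2 * π : ℂ) ≠ 0 := mul_ne_zero two_ne_zero (ofReal_ne_zero.2 Real.pi_ne_zero)
    have ek : ∀ v : ℝ, F n v = (divCount (n + 1) * ((n + 1 : ℕ) : ℂ) ^ (-s)) *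
        kern 1 (Real.log (n + 1 : ℕ) - l) v := fun v => by
      rw [hF]
      simp only [kern]
      rw [natCast_cpow_eq_exp n.succ_pos, natCast_cpow_eq_exp n.succ_pos,
        show (Real.log (n + 1 : ℕ) : ℂ) * -(s + (1 + (v : ℂ) * I)) =
          (Real.log (n + 1 : ℕ) : ℂ) * -s + -(Real.log (n + 1 : ℕ) : ℂ) * (1 + (v : ℂ) * I) by ring,
        show -((Real.log (n + 1 : ℕ) - l : ℝ) : ℂ) * (((1 : ℝ) : ℂ) + (v : ℂ) * I) =
          -(Real.log (n + 1 : ℕ) : ℂ) * (1 + (v : ℂ) * I) +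
            (-((-l : ℝ) : ℂ) * (((1 : ℝ) : ℂ) + (v : ℂ) * I)) by push_cast; ring,
        Complex.exp_add, Complex.exp_add]
      ring
    simp only [ek]
    rw [integral_const_mul, cutoff]
    field_simp
  simp only [hterm]
  rw [tsum_mul_left, smoothDiv]
  congr 1
  rw [tsum_eq_sum (s := Finset.range ⌊Real.exp (l + 1 / 10)⌋₊) fun n hn => ?_]
  · refine Finset.sum_nbij' (fun n => n + 1) (fun n => n - 1) ?_ ?_ ?_ ?_ ?_ <;> intro n hn <;>
      simp only [Finset.mem_range, Finset.mem_Icc] at * <;> first | omega | simp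
  · rw [Finset.mem_range, not_lt] at hn
    have h1 := Nat.lt_of_floor_lt (Nat.lt_succ_of_le hn)
    have h2 := Real.log_le_log (Real.exp_pos _) h1.le
    rw [Real.log_exp] at h2
    rw [cutoff_eq_zero (by linarith), mul_zero, zero_mul]

/-- The tail integrand on `re w = -1`. -/
def tailTerm (X : ℕ) (l t v : ℝ) : ℂ :=
  chiFac ((-1 / 2 : ℂ) + ((t + v : ℝ) : ℂ) * I) ^ 2 *
    (riemannZeta (1 - ((-1 / 2 : ℂ) + ((t + v : ℝ) : ℂ) * I)) ^ 2 -
      divPoly X ((-1 / 2 : ℂ) + ((t + v : ℝ) : ℂ) * I)) * kern (-1) (-l) v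

/-- The head integrand on `re w = 1`. -/
def headTerm (X : ℕ) (l t v : ℝ) : ℂ :=
  chiOne ((3 / 2 : ℂ) + ((t + v : ℝ) : ℂ) * I) ^ 2 /
      ((3 / 2 : ℂ) + ((t + v : ℝ) : ℂ) * I - 1) ^ 2 *
    divPoly X ((3 / 2 : ℂ) + ((t + v : ℝ) : ℂ) * I) * kern 1 (-l) v

/-- **The identity.** -/
theorem exists_square_identity : ∃ C, 0 ≤ C ∧ ∀ (X : ℕ) (l t : ℝ), 0 ≤ l →
    (X : ℝ) ≤ Real.exp l → Real.exp l ≤ t → ∃ r : ℂ, ‖r‖ ≤ C ∧
      riemannZeta ((1 / 2 : ℂ) + t * I) ^ 2 = smoothDiv l ((1 / 2 : ℂ) + t * I) +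
        chiFac ((1 / 2 : ℂ) + t * I) ^ 2 * divPoly X ((1 / 2 : ℂ) + t * I) -
        (2 * π : ℂ)⁻¹ * ((∫ v, tailTerm X l t v) + ∫ v, headTerm X l t v) + r := by
  obtain ⟨C, hC0, hC⟩ := exists_residues_le
  refine ⟨2 * C, by positivity, fun X l t hl hX ht => ?_⟩
  obtain ⟨hr1, hr2⟩ := hC X l t hl hX ht
  obtain ⟨⟨Cz, hCz⟩, Ch, hCh⟩ := contour_bounds (t := t) hl X
  obtain ⟨s, hs⟩ : ∃ s : ℂ, s = (1 / 2 : ℂ) + t * I := ⟨_, rfl⟩
  rw [← hs] at hr1 hr2 hCz hCh ⊢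
  have hsre : s.re = 1 / 2 := by simp [hs]
  have hρre : (1 - s).re = 1 / 2 := by simp [hs]; norm_num
  have hρ0 : 1 - s ≠ 0 := fun h => by rw [h] at hρre; simp at hρre
  have hs1 : s ≠ 1 := fun h => hρ0 (by rw [h, sub_self])
  obtain ⟨hzl, -, hz⟩ := double_contour isOpen_univ (differentiable_zetaPhi l s).differentiableOn
    (a := -1) (b := 1) (by norm_num) one_pos (fun w _ => mem_univ w) (ρ := 1 - s)
    (by rw [hρre]; norm_num) (by rw [hρre]; norm_num) hρ0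
    (show 2 ≤ kernelDeg - 2 * growDeg by have := two_growDeg_le; omega) hCz
  obtain ⟨hhl, -, hh⟩ := double_contour (isOpen_lt continuous_re continuous_const)
    (differentiableOn_headPhi l X hsre) (a := -1) (b := 1) (by norm_num) one_pos
    (fun w hw => show w.re < 3 / 2 by linarith [hw.2]) (ρ := 1 - s)
    (by rw [hρre]; norm_num) (by rw [hρre]; norm_num) hρ0
    (show 2 ≤ kernelDeg - 8 by have := two_growDeg_le; omega) hCh
  have ewt : ∀ u v : ℝ, wt l ((u : ℂ) + (v : ℂ) * I) / ((u : ℂ) + (v : ℂ) * I) = kern u (-l) v :=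
    fun u v => by
    rw [wt, kern]
    push_cast
    ring_nf
  have hden : ∀ u v : ℝ, (u : ℂ) + (v : ℂ) * I - (1 - s) = s + ((u : ℂ) + (v : ℂ) * I) - 1 :=
    fun u v => by ring
  have ezeta : ∀ u v : ℝ, u ≠ 1 / 2 → doubleKer (zetaPhi l s) (1 - s) ((u : ℂ) + (v : ℂ) * I) =
      riemannZeta (s + ((u : ℂ) + (v : ℂ) * I)) ^ 2 * kern u (-l) v := fun u v hu => by
    have hne : s + ((u : ℂ) + (v : ℂ) * I) ≠ 1 := fun h => hu (by
      have := congrArg Complex.re h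
      simp [hsre] at this
      linarith)
    rw [doubleKer, zetaPhi, hden, ← ewt, riemannZeta_eq_of_ne_one hne]
    field_simp
  have ehead : ∀ u v : ℝ, doubleKer (headPhi l X s) (1 - s) ((u : ℂ) + (v : ℂ) * I) =
      chiOne (s + ((u : ℂ) + (v : ℂ) * I)) ^ 2 / (s + ((u : ℂ) + (v : ℂ) * I) - 1) ^ 2 *
        divPoly X (s + ((u : ℂ) + (v : ℂ) * I)) * kern u (-l) v := fun u v => by
    rw [doubleKer, headPhi, hden, ← ewt]
    simp only [div_eq_mul_inv, mul_inv]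
    ring
  have zL : ∀ v : ℝ, s + (((-1 : ℝ) : ℂ) + (v : ℂ) * I) =
      (-1 / 2 : ℂ) + ((t + v : ℝ) : ℂ) * I := fun v => by rw [hs]; push_cast; ring
  have zR : ∀ v : ℝ, s + (((1 : ℝ) : ℂ) + (v : ℂ) * I) =
      (3 / 2 : ℂ) + ((t + v : ℝ) : ℂ) * I := fun v => by rw [hs]; push_cast; ring
  have e1 : ∫ v : ℝ, doubleKer (zetaPhi l s) (1 - s) (((1 : ℝ) : ℂ) + (v : ℂ) * I) =
      (2 * π : ℂ) * smoothDiv l s := by
    simp only [ezeta _ _ (show (1 : ℝ) ≠ 1 / 2 by norm_num)]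
    simp only [ofReal_one]
    exact integral_smoothDiv s (by rw [hsre]; norm_num)
  have e2 : ∫ v : ℝ, doubleKer (headPhi l X s) (1 - s) (((1 : ℝ) : ℂ) + (v : ℂ) * I) =
      ∫ v, headTerm X l t v := by
    simp only [ehead, zR]
    rfl
  have e3 : (∫ v : ℝ, tailTerm X l t v) =
      (∫ v : ℝ, doubleKer (zetaPhi l s) (1 - s) (((-1 : ℝ) : ℂ) + (v : ℂ) * I)) -
        ∫ v : ℝ, doubleKer (headPhi l X s) (1 - s) (((-1 : ℝ) : ℂ) + (v : ℂ) * I) := by
    rw [← integral_sub hzl hhl]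
    refine integral_congr_ae (Eventually.of_forall fun v => ?_)
    simp only [ezeta _ _ (show (-1 : ℝ) ≠ 1 / 2 by norm_num), ehead, zL, tailTerm]
    obtain ⟨z, hz⟩ : ∃ z : ℂ, z = (-1 / 2 : ℂ) + ((t + v : ℝ) : ℂ) * I := ⟨_, rfl⟩
    rw [← hz]
    have hzre : z.re = -1 / 2 := by simp [hz]
    rw [riemannZeta_eq_chiFac_mul (z := z) (fun h => by rw [h] at hzre; norm_num at hzre)
        (by rw [hzre]; norm_num), ← div_pow, ← chiFac_eq_div (by rw [hzre]; norm_num)]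
    ring
  have f1 : zetaPhi l s 0 / (1 - s) ^ 2 = riemannZeta s ^ 2 := by
    rw [zetaPhi, wt, add_zero, mul_zero, Complex.exp_zero, g₀_zero, one_mul, mul_one,
      riemannZeta_eq_of_ne_one hs1, div_pow, ← neg_sub s 1, neg_sq]
  have f2 : headPhi l X s 0 / (1 - s) ^ 2 = chiFac s ^ 2 * divPoly X s := by
    rw [headPhi, wt, add_zero, mul_zero, Complex.exp_zero, g₀_zero, one_mul, mul_one,
      ← neg_sub s 1, neg_sq, mul_div_right_comm, ← div_pow,
      ← chiFac_eq_div (by rw [hsre]; norm_num)]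
  rw [e1, f1] at hz
  rw [e2, f2] at hh
  obtain ⟨rz, hrz⟩ : ∃ r, r = deriv (zetaPhi l s) (1 - s) / (1 - s) -
      zetaPhi l s (1 - s) / (1 - s) ^ 2 := ⟨_, rfl⟩
  obtain ⟨rh, hrh⟩ : ∃ r, r = deriv (headPhi l X s) (1 - s) / (1 - s) -
      headPhi l X s (1 - s) / (1 - s) ^ 2 := ⟨_, rfl⟩
  rw [← hrz] at hz hr1
  rw [← hrh] at hh hr2
  refine ⟨rh - rz, (norm_sub_le _ _).trans (by linarith), ?_⟩
  rw [e3]
  generalize (∫ v : ℝ, doubleKer (zetaPhi l s) (1 - s) (((-1 : ℝ) : ℂ) + (v : ℂ) * I)) = Z at hz ⊢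
  generalize (∫ v : ℝ, doubleKer (headPhi l X s) (1 - s) (((-1 : ℝ) : ℂ) + (v : ℂ) * I)) = H at hh ⊢
  generalize (∫ v, headTerm X l t v) = P at hh ⊢
  have h2π : (2 * π : ℂ) ≠ 0 := mul_ne_zero two_ne_zero (ofReal_ne_zero.2 Real.pi_ne_zero)
  field_simp
  linear_combination -hz + hh

end FA.FourthMoment
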